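/-
PT-A (Tate cohomology of finite groups) — INTERFACE FILE (definitions and statements only).
Project PT = Poitou–Tate campaign for S55 (captain helper55), see NOTES/S55-plan.md.

Everything here is ABSTRACT: a finite group `G`, a `ℤ[G]`-module `C` (`Rep ℤ G`), a prime `p`.
The final statement of PT-A is `StmtTN` (Tate–Nakayama duality in degree (0,2), `p`-primary part).
-/
import Mathlib

set_option autoImplicit false

namespace Fermat.Agent.PT

open CategoryTheory groupCohomology

/-- `x` is killed by a power of `p`. -/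
def IsPTors (p : ℕ) {X : Type*} [AddCommGroup X] (x : X) : Prop := ∃ k : ℕ, (p ^ k) • x = 0

variable {G : Type} [Group G]

/-- Restriction `Hⁿ(G, A) → Hⁿ(H, A)` to a subgroup. -/
noncomputable abbrev resSub (A : Rep.{0} ℤ G) (H : Subgroup G) (n : ℕ) :
    groupCohomology A n ⟶ groupCohomology (Rep.res H.subtype A) n :=
  groupCohomology.map H.subtype (𝟙 _) n

/-- `C` is a `p`-class module for the finite group `G`: for every `p`-subgroup `H` of `G`,
`H¹(H, C) = 0` and `H²(H, C)` is cyclic of order `|H|`. -/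
structure IsPClassModule (p : ℕ) (C : Rep.{0} ℤ G) : Prop where
  h1 : ∀ H : Subgroup G, IsPGroup p H → Subsingleton (H1 (Rep.res H.subtype C))
  h2_card : ∀ H : Subgroup G, IsPGroup p H →
    Nat.card (H2 (Rep.res H.subtype C)) = Nat.card H
  h2_cyclic : ∀ H : Subgroup G, IsPGroup p H → IsAddCyclic (H2 (Rep.res H.subtype C))

/-- The norm `N_G h = ∑ γ, γ ∘ h ∘ γ⁻¹` of a `ℤ`-linear map between two `G`-modules. -/
noncomputable def normHom [Fintype G] (M C : Rep.{0} ℤ G) (h : M.V →ₗ[ℤ] C.V) : M.V →ₗ[ℤ] C.V :=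
  ∑ γ : G, (C.ρ γ) ∘ₗ h ∘ₗ (M.ρ γ⁻¹)

/-- The push-forward `H²(G, M) → H²(G, C)` along a `G`-morphism. -/
noncomputable abbrev push₂ {M C : Rep.{0} ℤ G} (g : M ⟶ C) : H2 M ⟶ H2 C :=
  groupCohomology.map (MonoidHom.id G) g 2

/-- **Tate–Nakayama duality, degree (0,2), `p`-part** for a `ℤ`-free finitely generated `M`:
the pairing `Hom_G(M, C) × H²(G, M) → H²(G, C)`, `(g, y) ↦ g_* y` has trivial right kernel on
`p`-primary classes, and its left kernel consists of norms up to a prime-to-`p` multiple. -/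
def StmtTN : Prop :=
  ∀ (p : ℕ) [Fact p.Prime] (G : Type) [Group G] [Fintype G] (C : Rep.{0} ℤ G),
    IsPClassModule p C →
    ∀ (M : Rep.{0} ℤ G), Module.Free ℤ M.V → Module.Finite ℤ M.V →
      (∀ y : H2 M, IsPTors p y → (∀ g : M ⟶ C, (push₂ g).hom y = 0) → y = 0) ∧
      (∀ g : M ⟶ C, (∀ y : H2 M, IsPTors p y → (push₂ g).hom y = 0) →
        ∃ (n : ℕ) (h : M.V →ₗ[ℤ] C.V), ¬ p ∣ n ∧
          ∀ m : M.V, n • g.hom m = normHom M C h m)

/-- **Inflation–restriction in degree 2**: if `H¹(N, A) = 0` for a normal subgroup `N`, then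
`0 → H²(G/N, A^N) → H²(G, A) → H²(N, A)` is exact. -/
def StmtInfRes₂ : Prop :=
  ∀ (G : Type) [Group G] (N : Subgroup G) [N.Normal] (A : Rep.{0} ℤ G),
    Subsingleton (H1 (Rep.res N.subtype A)) →
    Function.Injective ((infNatTrans ℤ N 2).app A).hom ∧
    ∀ x : H2 A, (resSub A N 2).hom x = 0 → ∃ y, ((infNatTrans ℤ N 2).app A).hom y = x

/-- **Sylow**: restriction to a Sylow `p`-subgroup is injective on `p`-primary classes. -/
def StmtSylow : Prop :=
  ∀ (p : ℕ) [Fact p.Prime] (G : Type) [Group G] [Finite G] (A : Rep.{0} ℤ G) (P : Sylow p G)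
    (n : ℕ) (x : groupCohomology A n), 0 < n → IsPTors p x →
    (resSub A (P : Subgroup G) n).hom x = 0 → x = 0

end Fermat.Agent.PT
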