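/-
PT-A piece `StmtSylow` (helper11): restriction to a Sylow `p`-subgroup is injective on
`p`-primary cohomology classes in positive degree.

Route (no corestriction map needed): kernel form of `cor ∘ res = index`,
  `index_smul_eq_zero_of_res_eq_zero : res_H x = 0 → [G : H] • x = 0`  (any `H` of finite index),
by dimension shifting along `0 → A → Coind_1^G A → A' → 0`:
* degree 1: explicit cocycle computation (`index_smul_eq_zero_one`);
* `Coind_1^G A` is acyclic for `G` (Mathlib's Shapiro) and for `H` (Mackey isomorphism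
  `Res_H Coind_1^G A ≅ Coind_1^H (G/H → A)` + Shapiro);
* the connecting homomorphism commutes with restriction (`δ_res_naturality`).
-/
import Fermat.Agent.PT.A.Plan

set_option autoImplicit false

namespace Fermat.Agent.PT.SylowRes

open CategoryTheory groupCohomology Limits

variable {G : Type} [Group G]

/-- A 1-cocycle vanishing on `H` is constant on left cosets. -/
lemma cocycle_mul_right_of_vanish (A : Rep.{0} ℤ G) (H : Subgroup G) (f : cocycles₁ A)
    (hf : ∀ h : H, f (h : G) = 0) (g : G) (h : H) : f (g * h) = f g := by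
  have := (mem_cocycles₁_iff f).1 f.2 g h
  rw [this, hf h, map_zero, zero_add]

lemma cocycle_eq_of_coset (A : Rep.{0} ℤ G) (H : Subgroup G) (f : cocycles₁ A)
    (hf : ∀ h : H, f (h : G) = 0) (g g' : G) (h : (g : G ⧸ H) = (g' : G ⧸ H)) : f g = f g' := by
  have h1 : g⁻¹ * g' ∈ H := QuotientGroup.eq.1 h
  have := cocycle_mul_right_of_vanish A H f hf g ⟨_, h1⟩
  simpa using this.symm

/-- Key computation: if a 1-cocycle vanishes on `H` (finite index), then `[G:H] • f` is a
coboundary. -/
lemma index_smul_mem_coboundaries_of_vanish (A : Rep.{0} ℤ G) (H : Subgroup G) [H.FiniteIndex]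
    (f : cocycles₁ A) (hf : ∀ h : H, f (h : G) = 0) :
    (H.index • (f : G → A)) ∈ coboundaries₁ A := by
  classical
  let _ : Fintype (G ⧸ H) := Subgroup.fintypeQuotientOfFiniteIndex
  obtain ⟨b, hb⟩ : ∃ b : A, b = ∑ q : G ⧸ H, f (q.out) := ⟨_, rfl⟩
  refine ⟨-b, ?_⟩
  funext g
  have h1 : ∑ q : G ⧸ H, f (g * q.out) = ∑ q : G ⧸ H, (f g + A.ρ g (f q.out)) := by
    refine Finset.sum_congr rfl fun q _ => ?_
    rw [(mem_cocycles₁_iff f).1 f.2 g q.out, add_comm]
  have h2 : ∑ q : G ⧸ H, f (g * q.out) = ∑ q : G ⧸ H, f ((g • q).out) := by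
    refine Finset.sum_congr rfl fun q _ => ?_
    apply cocycle_eq_of_coset A H f hf
    rw [QuotientGroup.out_eq']
    conv_rhs => rw [← QuotientGroup.out_eq' q]
    rfl
  have h3 : ∑ q : G ⧸ H, f ((g • q).out) = b := by
    rw [hb]
    exact Fintype.sum_equiv (MulAction.toPerm g) _ _ (fun q => rfl)
  have hidx : Fintype.card (G ⧸ H) = H.index := by
    rw [Subgroup.index, Nat.card_eq_fintype_card]
  have h5 : ∑ q : G ⧸ H, (f g + A.ρ g (f q.out)) = H.index • f g + A.ρ g b := by
    rw [Finset.sum_add_distrib, Finset.sum_const, Finset.card_univ, hidx, hb, map_sum]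
  have h4 : b = H.index • f g + A.ρ g b := by
    rw [← h5, ← h1, h2, h3]
  simp only [d₀₁_hom_apply, map_neg, Pi.smul_apply]
  have h6 : H.index • f g = b - A.ρ g b := by
    rw [eq_sub_iff_add_eq]; exact h4.symm
  rw [h6]
  abel

theorem index_smul_eq_zero_one (A : Rep.{0} ℤ G) (H : Subgroup G) [H.FiniteIndex]
    (x : H1 A) (hx : (resSub A H 1).hom x = 0) : H.index • x = 0 := by
  induction x using H1_induction_on with
  | h f =>
    have h1 : (H1π (Rep.res H.subtype A)) (mapCocycles₁ H.subtype (𝟙 _) f) = 0 := by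
      have := H1π_comp_map_apply (A := A) (B := Rep.res H.subtype A) H.subtype (𝟙 _) f
      rw [← this]
      exact hx
    rw [H1π_eq_zero_iff] at h1
    obtain ⟨a, ha⟩ := h1
    -- f' = f - d a
    let f' : cocycles₁ A := f - ⟨(d₀₁ A).hom a, d₀₁_apply_mem_cocycles₁ a⟩
    have hf' : ∀ h : H, f' (h : G) = 0 := by
      intro h
      have := congrFun ha h
      simp only [f']
      change f (h : G) - (d₀₁ A).hom a h = 0
      rw [sub_eq_zero]
      rw [d₀₁_hom_apply] at this ⊢
      rw [coe_mapCocycles₁] at this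
      simpa using this.symm
    have h2 := index_smul_mem_coboundaries_of_vanish A H f' hf'
    have h3 : H.index • (f : G → A) ∈ coboundaries₁ A := by
      have : H.index • (f : G → A) = H.index • (f' : G → A) + H.index • ((d₀₁ A).hom a) := by
        rw [← smul_add]
        congr 1
        funext g
        change f g = (f g - (d₀₁ A).hom a g) + (d₀₁ A).hom a g
        abel
      rw [this]
      exact Submodule.add_mem _ h2 (Submodule.smul_of_tower_mem _ _ ⟨a, rfl⟩)
    rw [← map_nsmul, H1π_eq_zero_iff]
    exact h3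


/-- the morphism of short complexes of cochain complexes given by restriction to `H` -/
noncomputable def resShortComplexHom (X : ShortComplex (Rep.{0} ℤ G)) (H : Subgroup G) :
    X.map (cochainsFunctor ℤ G) ⟶
      (X.map (Rep.resFunctor H.subtype)).map (cochainsFunctor ℤ H) where
  τ₁ := cochainsMap H.subtype (𝟙 (Rep.res H.subtype X.X₁))
  τ₂ := cochainsMap H.subtype (𝟙 (Rep.res H.subtype X.X₂))
  τ₃ := cochainsMap H.subtype (𝟙 (Rep.res H.subtype X.X₃))
  comm₁₂ := by
    ext n f
    rfl
  comm₂₃ := by
    ext n f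
    rfl

theorem δ_res_naturality {X : ShortComplex (Rep.{0} ℤ G)} (hX : X.ShortExact) (H : Subgroup G)
    (i j : ℕ) (hij : i + 1 = j) :
    δ hX i j hij ≫ resSub X.X₁ H j =
      resSub X.X₃ H i ≫ δ ((Rep.shortExact_res H.subtype).2 hX) i j hij :=
  HomologicalComplex.HomologySequence.δ_naturality (resShortComplexHom X H)
    (map_cochainsFunctor_shortExact hX)
    (map_cochainsFunctor_shortExact ((Rep.shortExact_res H.subtype).2 hX)) i j hij


section Mackey

variable {k : Type} [CommRing k]

/-- the coinduced module from the trivial subgroup -/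
noncomputable abbrev coindTriv (A : Rep.{0} k G) : Rep.{0} k G :=
  Rep.coind (⊥ : Subgroup G).subtype (Rep.res (⊥ : Subgroup G).subtype A)

/-- the `H`-component of `g` w.r.t. the chosen left coset representatives -/
noncomputable def hPart (H : Subgroup G) (g : G) : H :=
  ⟨((g : G ⧸ H).out)⁻¹ * g, QuotientGroup.eq.1 (QuotientGroup.out_eq' _)⟩

lemma out_mul_hPart (H : Subgroup G) (g : G) : ((g : G ⧸ H).out) * (hPart H g : G) = g := by
  simp [hPart]

lemma hPart_mul (H : Subgroup G) (g : G) (h : H) : hPart H (g * h) = hPart H g * h := by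
  have h1 : ((g * h : G) : G ⧸ H) = (g : G ⧸ H) := by
    rw [eq_comm, QuotientGroup.eq]; simp
  apply Subtype.ext
  simp only [hPart, h1, Subgroup.coe_mul]
  group

lemma hPart_out_mul (H : Subgroup G) (q : G ⧸ H) (h : H) : hPart H (q.out * h) = h := by
  rw [hPart_mul]
  have : hPart H q.out = 1 := by
    apply Subtype.ext
    simp [hPart]
  rw [this, one_mul]

lemma mk_mul_mem (H : Subgroup G) (g : G) (h : H) : ((g * h : G) : G ⧸ H) = (g : G ⧸ H) := by
  rw [eq_comm, QuotientGroup.eq]; simp

/-- the representation of `G` on the module coinduced from the trivial subgroup -/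
noncomputable abbrev ρTriv (A : Rep.{0} k G) :=
  Representation.coind (⊥ : Subgroup G).subtype (A.ρ.comp (⊥ : Subgroup G).subtype)

/-- the target representation of the Mackey isomorphism -/
noncomputable abbrev σTriv (A : Rep.{0} k G) (H : Subgroup G) :=
  Representation.coind (⊥ : Subgroup H).subtype
    (Representation.trivial k (⊥ : Subgroup H) (G ⧸ H → A.V))

/-- Mackey: the restriction to `H` of a module coinduced from the trivial subgroup of `G` is
coinduced from the trivial subgroup of `H`. -/
noncomputable def mackeyLinearEquiv (A : Rep.{0} k G) (H : Subgroup G) :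
    (Representation.coindV (⊥ : Subgroup G).subtype (A.ρ.comp (⊥ : Subgroup G).subtype)) ≃ₗ[k]
    (Representation.coindV (⊥ : Subgroup H).subtype
      (Representation.trivial k (⊥ : Subgroup H) (G ⧸ H → A.V))) where
  toFun f := ⟨fun h q => f.1 (q.out * h), fun s h => by
    have hs : s = 1 := Subsingleton.elim _ _
    subst hs
    simp⟩
  map_add' f g := by
    apply Subtype.ext
    funext h q
    rfl
  map_smul' c f := by
    apply Subtype.ext
    funext h q
    rfl
  invFun F := ⟨fun g => F.1 (hPart H g) (g : G ⧸ H), fun s g => by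
    have hs : s = 1 := Subsingleton.elim _ _
    subst hs
    simp⟩
  left_inv f := by
    apply Subtype.ext
    funext g
    change f.1 (((g : G ⧸ H).out) * (hPart H g : G)) = f.1 g
    rw [out_mul_hPart]
  right_inv F := by
    apply Subtype.ext
    funext h q
    change F.1 (hPart H (q.out * h)) ((q.out * h : G) : G ⧸ H) = F.1 h q
    rw [hPart_out_mul, mk_mul_mem, QuotientGroup.out_eq']

noncomputable def mackeyEquiv (A : Rep.{0} k G) (H : Subgroup G) :
    Representation.Equiv ((ρTriv A).comp H.subtype) (σTriv A H) :=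
  .mk (mackeyLinearEquiv A H) fun h₀ => by
    apply LinearMap.ext
    intro f
    apply Subtype.ext
    funext h q
    change (f.1 (q.out * h * h₀)) = f.1 (q.out * (h * h₀))
    rw [mul_assoc]

noncomputable def mackeyIso (A : Rep.{0} k G) (H : Subgroup G) :
    Rep.res H.subtype (coindTriv A) ≅
      Rep.coind (⊥ : Subgroup H).subtype (Rep.trivial k (⊥ : Subgroup H) (G ⧸ H → A.V)) :=
  Rep.mkIso (mackeyEquiv A H)

lemma isZero_res_coindTriv (A : Rep.{0} k G) (H : Subgroup G) (n : ℕ) :
    IsZero (groupCohomology (Rep.res H.subtype (coindTriv A)) (n + 1)) := by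
  have h1 : IsZero (groupCohomology (Rep.coind (⊥ : Subgroup H).subtype
      (Rep.trivial k (⊥ : Subgroup H) (G ⧸ H → A.V))) (n + 1)) :=
    (isZero_groupCohomology_succ_of_subsingleton
      (Rep.trivial k (⊥ : Subgroup H) (G ⧸ H → A.V)) n).of_iso (groupCohomology.coindIso _ _)
  exact h1.of_iso ((groupCohomology.functor k H (n + 1)).mapIso (mackeyIso A H))


end Mackey

noncomputable abbrev unitHom (A : Rep.{0} ℤ G) : A ⟶ coindTriv A :=
  Rep.resCoindToHom (⊥ : Subgroup G).subtype A (Rep.res (⊥ : Subgroup G).subtype A) (𝟙 _)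

lemma unitHom_injective (A : Rep.{0} ℤ G) : Function.Injective (unitHom A).hom := by
  intro x y h
  have := congrArg (fun f => f.1 (1 : G)) h
  simpa using this

instance unitHom_mono (A : Rep.{0} ℤ G) : Mono (unitHom A) :=
  (Rep.mono_iff_injective _).2 (unitHom_injective A)

noncomputable abbrev shiftSC (A : Rep.{0} ℤ G) : ShortComplex (Rep.{0} ℤ G) :=
  ShortComplex.mk (unitHom A) (cokernel.π (unitHom A)) (cokernel.condition _)

lemma shiftSC_shortExact (A : Rep.{0} ℤ G) : (shiftSC A).ShortExact where
  exact := ShortComplex.exact_cokernel _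
  mono_f := by dsimp [shiftSC]; infer_instance
  epi_g := by dsimp [shiftSC]; infer_instance

lemma isZero_coindTriv (A : Rep.{0} ℤ G) (n : ℕ) :
    IsZero (groupCohomology (coindTriv A) (n + 1)) :=
  (isZero_groupCohomology_succ_of_subsingleton
    (Rep.res (⊥ : Subgroup G).subtype A) n).of_iso (groupCohomology.coindIso _ _)

/-- **`cor ∘ res = index`, kernel form**: a class in positive degree whose restriction to a
subgroup `H` of finite index vanishes is killed by `[G : H]`. -/
theorem index_smul_eq_zero_of_res_eq_zero (H : Subgroup G) [H.FiniteIndex] :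
    ∀ (n : ℕ) (A : Rep.{0} ℤ G) (x : groupCohomology A (n + 1)),
      (resSub A H (n + 1)).hom x = 0 → H.index • x = 0 := by
  intro n
  induction n with
  | zero => exact fun A x hx => index_smul_eq_zero_one A H x hx
  | succ n ih =>
    intro A x hx
    have hS := shiftSC_shortExact A
    have hepi : Epi (δ hS (n + 1) (n + 2) rfl) := epi_δ_of_isZero hS (n + 1) (isZero_coindTriv A _)
    have hmono : Mono (δ ((Rep.shortExact_res H.subtype).2 hS) (n + 1) (n + 2) rfl) :=
      mono_δ_of_isZero _ (n + 1) (isZero_res_coindTriv A H n)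
    obtain ⟨y, rfl⟩ := (ModuleCat.epi_iff_surjective _).1 hepi x
    have hnat := δ_res_naturality hS H (n + 1) (n + 2) rfl
    have h1 : (δ ((Rep.shortExact_res H.subtype).2 hS) (n + 1) (n + 2) rfl).hom
        ((resSub (shiftSC A).X₃ H (n + 1)).hom y) = 0 :=
      (congr($(hnat).hom y)).symm.trans hx
    have h2 : (resSub (shiftSC A).X₃ H (n + 1)).hom y = 0 :=
      (ModuleCat.mono_iff_injective _).1 hmono
        (h1.trans (map_zero (δ ((Rep.shortExact_res H.subtype).2 hS) (n + 1) (n + 2) rfl).hom).symm)
    have h3 := ih _ y h2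
    have h4 := map_nsmul (δ hS (n + 1) (n + 2) rfl).hom H.index y
    rw [h3, map_zero] at h4
    exact h4.symm

end Fermat.Agent.PT.SylowRes

namespace Fermat.Agent.PT

open CategoryTheory groupCohomology

/-- **Sylow**: restriction to a Sylow `p`-subgroup is injective on `p`-primary classes. -/
theorem stmtSylow : StmtSylow := by
  intro p _ G _ _ A P n x hn hx hres
  obtain ⟨m, rfl⟩ : ∃ m, n = m + 1 := ⟨n - 1, by omega⟩
  obtain ⟨k, hk⟩ := hx
  have hidx : (P : Subgroup G).index • x = 0 :=
    SylowRes.index_smul_eq_zero_of_res_eq_zero (P : Subgroup G) m A x hres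
  have hndvd : ¬ p ∣ (P : Subgroup G).index := P.not_dvd_index
  have hcop : Nat.Coprime (p ^ k) (P : Subgroup G).index :=
    Nat.Coprime.pow_left k ((Nat.Prime.coprime_iff_not_dvd Fact.out).2 hndvd)
  -- Bezout in `ℕ`
  by_cases hk1 : p ^ k = 1
  · rw [hk1, one_nsmul] at hk
    exact hk
  · have h1lt : 1 < p ^ k := lt_of_le_of_ne (Nat.one_le_pow _ _ (Fact.out : p.Prime).pos)
      (Ne.symm hk1)
    obtain ⟨u, -, hu⟩ := Nat.exists_mul_mod_eq_one_of_coprime hcop.symm h1lt
    have h2 : (P : Subgroup G).index * u = p ^ k * ((P : Subgroup G).index * u / p ^ k) + 1 := by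
      have := Nat.div_add_mod ((P : Subgroup G).index * u) (p ^ k)
      rw [hu] at this
      exact this.symm
    have h3 : ((P : Subgroup G).index * u) • x = 0 := by
      rw [mul_comm, mul_nsmul', hidx, nsmul_zero]
    rw [h2, add_nsmul, mul_comm, mul_nsmul', hk, nsmul_zero, zero_add, one_nsmul] at h3
    exact h3

end Fermat.Agent.PT
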