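import Fermat.Agent.PT.A.Plan2
import Fermat.Agent.PT.A.Sylow

/-!
# PT-A / CT — auxiliary lemmas on the long exact sequence (used by `CT.lean`)
-/

set_option autoImplicit false

namespace Fermat.Agent.PT.CTaux

open CategoryTheory groupCohomology Limits

variable {G : Type} [Group G]

/-- `Hⁿ(X₂) = 0` and `Hⁿ⁺¹(X₁) = 0` imply `Hⁿ(X₃) = 0`. -/
lemma isZero_X₃ {X : ShortComplex (Rep.{0} ℤ G)} (hX : X.ShortExact) (n : ℕ)
    (h2 : IsZero (groupCohomology X.X₂ n)) (h1 : IsZero (groupCohomology X.X₁ (n + 1))) :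
    IsZero (groupCohomology X.X₃ n) :=
  (mapShortComplex₃_exact hX (rfl : n + 1 = n + 1)).isZero_of_both_zeros
    (h2.eq_of_src _ _) (h1.eq_of_tgt _ _)

/-- `Hⁿ(X₃) = 0` and `Hⁿ⁺¹(X₂) = 0` imply `Hⁿ⁺¹(X₁) = 0`. -/
lemma isZero_X₁ {X : ShortComplex (Rep.{0} ℤ G)} (hX : X.ShortExact) (n : ℕ)
    (h3 : IsZero (groupCohomology X.X₃ n)) (h2 : IsZero (groupCohomology X.X₂ (n + 1))) :
    IsZero (groupCohomology X.X₁ (n + 1)) :=
  (mapShortComplex₁_exact hX (rfl : n + 1 = n + 1)).isZero_of_both_zeros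
    (h3.eq_of_src _ _) (h2.eq_of_tgt _ _)

/-- If `Hⁿ(X₃) = 0` then `Hⁿ⁺¹(X₁) → Hⁿ⁺¹(X₂)` is injective. -/
lemma injective_map_f {X : ShortComplex (Rep.{0} ℤ G)} (hX : X.ShortExact) (n : ℕ)
    (h3 : IsZero (groupCohomology X.X₃ n)) :
    Function.Injective (groupCohomology.map (MonoidHom.id G) X.f (n + 1)).hom := by
  have hmono : Mono (mapShortComplex₁ hX (rfl : n + 1 = n + 1)).g :=
    (mapShortComplex₁_exact hX (rfl : n + 1 = n + 1)).mono_g (h3.eq_of_src _ _)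
  exact (ModuleCat.mono_iff_injective _).1 hmono

/-- The map induced on cohomology by `m • 𝟙` is multiplication by `m`. -/
lemma map_nsmul_id (R : Rep.{0} ℤ G) (m n : ℕ) (x : groupCohomology R n) :
    (groupCohomology.map (MonoidHom.id G) (m • 𝟙 R) n).hom x = m • x := by
  have h : groupCohomology.map (MonoidHom.id G) (m • 𝟙 R) n = m • 𝟙 (groupCohomology R n) := by
    have h1 : (cochainsFunctor ℤ G ⋙ HomologicalComplex.homologyFunctor (ModuleCat ℤ) _ n).map
        (m • 𝟙 R) =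
        m • (cochainsFunctor ℤ G ⋙ HomologicalComplex.homologyFunctor (ModuleCat ℤ) _ n).map
          (𝟙 R) :=
      Functor.map_nsmul _
    rw [CategoryTheory.Functor.map_id] at h1
    exact h1
  rw [h]
  rfl

end Fermat.Agent.PT.CTaux
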