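import Fermat.Agent.PT.A.Plan2
import Fermat.Agent.PT.A.Sylow

/-!
# PT-A: `Hom_ℤ(N, Coind X) ≅ Coind (Hom_ℤ(N, X))`

For an abelian group `X` (trivial action) and any `G`-module `N`, the `G`-module
`Hom_ℤ(N, Coind_1^G X)` (conjugation action) is isomorphic to `Coind_1^G (Hom_ℤ(N, X))`, hence
acyclic.  Used by `CT.lean` (and available for `FpCT`).

* `homCoindIso N X : homRep N (coindTriv (Rep.trivial ℤ G X)) ≅ coindTriv (Rep.trivial ℤ G (N.V →+ X))`
* `isZero_homRep_coindTriv N X n : IsZero (groupCohomology (homRep N (coindTriv (Rep.trivial ℤ G X))) (n + 1))`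
-/

set_option autoImplicit false

namespace Fermat.Agent.PT.HomCoind

open CategoryTheory groupCohomology Limits
open Fermat.Agent.PT.SylowRes

attribute [local instance 1100] Rep.hV2

variable {G : Type} [Group G]

/-- Every function lies in the module coinduced from the trivial subgroup. -/
lemma mem_coindV_bot {X : Type} [AddCommGroup X] [Module ℤ X]
    (σ : Representation ℤ (⊥ : Subgroup G) X) (f : G → X) :
    f ∈ Representation.coindV (⊥ : Subgroup G).subtype σ := by
  intro s h
  have hs : s = 1 := Subsingleton.elim _ _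
  subst hs
  simp

/-- The trivial-coefficient coinduced module `Coind_1^G X`. -/
noncomputable abbrev cT (X : Type) [AddCommGroup X] : Rep.{0} ℤ G :=
  coindTriv (Rep.trivial ℤ G X)

lemma cT_ρ_apply (X : Type) [AddCommGroup X] (g : G) (f : (cT (G := G) X).V) (x : G) :
    ((cT (G := G) X).ρ g f).1 x = f.1 (x * g) := rfl

/-- Build an element of `Coind_1^G X` from a function. -/
noncomputable def mkCT (X : Type) [AddCommGroup X] (f : G → X) : (cT (G := G) X).V :=
  ⟨f, mem_coindV_bot _ f⟩

@[simp] lemma mkCT_val (X : Type) [AddCommGroup X] (f : G → X) (x : G) :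
    (mkCT (G := G) X f).1 x = f x := rfl

lemma cT_ext (X : Type) [AddCommGroup X] {f f' : (cT (G := G) X).V}
    (h : ∀ x, f.1 x = f'.1 x) : f = f' :=
  Subtype.ext (funext h)

variable (N : Rep.{0} ℤ G) (X : Type) [AddCommGroup X]

/-- `φ ↦ (x ↦ (n ↦ φ(x⁻¹ n)(x)))`. -/
noncomputable def homCoindAddEquiv :
    (N.V →+ (cT (G := G) X).V) ≃+ (cT (G := G) (N.V →+ X)).V where
  toFun φ := mkCT (N.V →+ X) fun x =>
    { toFun := fun n => (φ (N.ρ x⁻¹ n)).1 x
      map_zero' := by simp
      map_add' := fun a b => by simp }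
  invFun Ψ :=
    { toFun := fun n => mkCT X fun x => Ψ.1 x (N.ρ x n)
      map_zero' := by
        apply cT_ext
        intro x
        simp
      map_add' := fun a b => by
        apply cT_ext
        intro x
        simp }
  left_inv φ := by
    apply AddMonoidHom.ext
    intro n
    apply cT_ext
    intro x
    simp
  right_inv Ψ := by
    apply cT_ext
    intro x
    apply AddMonoidHom.ext
    intro n
    simp
  map_add' φ ψ := by
    apply cT_ext
    intro x
    apply AddMonoidHom.ext
    intro n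
    simp

lemma homCoindAddEquiv_apply (φ : N.V →+ (cT (G := G) X).V) (x : G) (n : N.V) :
    (homCoindAddEquiv N X φ).1 x n = (φ (N.ρ x⁻¹ n)).1 x := rfl

/-- The equivalence of representations `Hom(N, Coind X) ≃ Coind (Hom(N, X))`. -/
noncomputable def homCoindEquiv :
    Representation.Equiv (homRepρ N (cT (G := G) X)) (cT (G := G) (N.V →+ X)).ρ :=
  .mk (homCoindAddEquiv N X).toIntLinearEquiv fun g => by
    apply LinearMap.ext
    intro φ
    apply cT_ext
    intro x
    apply AddMonoidHom.ext
    intro n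
    change ((homRepρ N (cT (G := G) X) g φ) (N.ρ x⁻¹ n)).1 x =
      (φ (N.ρ (x * g)⁻¹ n)).1 (x * g)
    rw [homRepρ_apply, cT_ρ_apply, mul_inv_rev, map_mul]
    rfl

/-- `Hom_ℤ(N, Coind_1^G X) ≅ Coind_1^G (Hom_ℤ(N, X))`. -/
noncomputable def homCoindIso :
    homRep N (cT (G := G) X) ≅ cT (G := G) (N.V →+ X) :=
  Rep.mkIso (homCoindEquiv N X)

/-- `Hom_ℤ(N, Coind_1^G X)` is acyclic. -/
lemma isZero_homRep_coindTriv (n : ℕ) :
    IsZero (groupCohomology (homRep N (cT (G := G) X)) (n + 1)) :=
  (isZero_coindTriv (Rep.trivial ℤ G (N.V →+ X)) n).of_iso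
    ((groupCohomology.functor ℤ G (n + 1)).mapIso (homCoindIso N X))

end Fermat.Agent.PT.HomCoind
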