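import Fermat.Agent.PT.A.Plan2
import Fermat.Agent.PT.A.Sylow
import Fermat.Agent.PT.A.HomCoind
import Fermat.Agent.PT.A.CTAux

/-!
# PT-A piece CT: cohomological triviality (from `FpCT`, `KILL`, `HOMEX`)

`stmtCT_of : StmtFpCT → StmtKill → StmtHomEx → StmtCT`.

Route (4) of `NOTES/PT-A.md`: `F₀ := Coind_1^G (ℤ^(A)) ↠ A` with kernel `R` (`ℤ`-torsion-free);
`H²(R) = H³(R) = 0`, so `H²(R/p) = 0`; `FpCT` gives `H¹ = H² = 0` for `Hom(N, R/p)`, so `p` is
injective on `H²`, `H³` of `Hom(N, R)`, which are killed by `|G| = p^k`, hence vanish; and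
`Hom(N, F₀)` is acyclic, so `H¹ = H² = 0` for `Hom(N, A)`.
-/

set_option autoImplicit false

namespace Fermat.Agent.PT.CTpf

open CategoryTheory groupCohomology Limits
open Fermat.Agent.PT.SylowRes Fermat.Agent.PT.HomCoind Fermat.Agent.PT.CTaux

attribute [local instance 1100] Rep.hV2

variable {G : Type} [Group G]

/-! ### Functoriality of `homRepMap` -/

lemma homRepMap_comp' (N : Rep.{0} ℤ G) {X Y Z : Rep.{0} ℤ G} (f : X ⟶ Y) (g : Y ⟶ Z) :
    homRepMap N f ≫ homRepMap N g = homRepMap N (f ≫ g) := by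
  apply Rep.hom_ext
  ext φ n
  rfl

lemma homRepMap_zero' (N : Rep.{0} ℤ G) (X Y : Rep.{0} ℤ G) :
    homRepMap N (0 : X ⟶ Y) = 0 := by
  apply Rep.hom_ext
  ext φ n
  rfl

lemma homRepMap_w (N : Rep.{0} ℤ G) {X Y Z : Rep.{0} ℤ G} (f : X ⟶ Y) (g : Y ⟶ Z)
    (w : f ≫ g = 0) : homRepMap N f ≫ homRepMap N g = 0 := by
  rw [homRepMap_comp', w, homRepMap_zero']

lemma homRepMap_nsmul_id (N R : Rep.{0} ℤ G) (m : ℕ) :
    homRepMap N (m • 𝟙 R) = m • 𝟙 (homRep N R) := by
  apply Rep.hom_ext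
  ext φ n
  rfl

/-! ### The acyclic torsion-free cover `F₀ = Coind_1^G (ℤ^(A)) ↠ A` -/

section cover

variable [Fintype G] (A : Rep.{0} ℤ G)

/-- The additive map `ℤ^(A) → A` extending the identity. -/
noncomputable def piAdd : (A.V →₀ ℤ) →+ A.V :=
  Finsupp.liftAddHom (fun a : A.V => zmultiplesHom A.V a)

omit [Fintype G] in
lemma piAdd_single (a : A.V) : piAdd A (Finsupp.single a 1) = a := by
  simp [piAdd]

/-- `f ↦ ∑ₓ x⁻¹ • π (f x)`. -/
noncomputable def epsAdd : (cT (G := G) (A.V →₀ ℤ)).V →+ A.V where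
  toFun f := ∑ x : G, A.ρ x⁻¹ (piAdd A (f.1 x))
  map_zero' := by
    apply Finset.sum_eq_zero
    intro x _
    have : ((0 : (cT (G := G) (A.V →₀ ℤ)).V)).1 x = 0 := rfl
    rw [this, map_zero, map_zero]
  map_add' f g := by
    rw [← Finset.sum_add_distrib]
    apply Finset.sum_congr rfl
    intro x _
    have : (f + g).1 x = f.1 x + g.1 x := rfl
    rw [this, map_add, map_add]

lemma epsAdd_apply (f : (cT (G := G) (A.V →₀ ℤ)).V) :
    epsAdd A f = ∑ x : G, A.ρ x⁻¹ (piAdd A (f.1 x)) := rfl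

lemma epsAdd_equivariant (g : G) (f : (cT (G := G) (A.V →₀ ℤ)).V) :
    epsAdd A ((cT (G := G) (A.V →₀ ℤ)).ρ g f) = A.ρ g (epsAdd A f) := by
  rw [epsAdd_apply, epsAdd_apply, map_sum]
  refine Fintype.sum_equiv (Equiv.mulRight g) _ _ (fun x => ?_)
  rw [cT_ρ_apply]
  change _ = A.ρ g (A.ρ (x * g)⁻¹ (piAdd A (f.1 (x * g))))
  rw [← Module.End.mul_apply, ← map_mul, mul_inv_rev, mul_inv_cancel_left]

/-- The cover `ε : F₀ ⟶ A`. -/
noncomputable def eps : cT (G := G) (A.V →₀ ℤ) ⟶ A :=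
  ConcreteCategory.ofHom (C := Rep.{0} ℤ G) (X := cT (G := G) (A.V →₀ ℤ)) (Y := A)
   (LinearMap.intertwiningMap_of_isIntertwiningMap
    (ρ := (cT (G := G) (A.V →₀ ℤ)).ρ) (σ := A.ρ)
    (f := addToLin (epsAdd A))
    (fun g f => by
      simpa using epsAdd_equivariant A g f))

lemma eps_apply (f : (cT (G := G) (A.V →₀ ℤ)).V) : (eps A).hom f = epsAdd A f := rfl

lemma eps_surjective : Function.Surjective (eps A).hom := by
  classical
  intro a
  refine ⟨mkCT (A.V →₀ ℤ) (fun x => if x = 1 then Finsupp.single a 1 else 0), ?_⟩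
  rw [eps_apply, epsAdd_apply, Finset.sum_eq_single (1 : G)]
  · simp [piAdd_single]
  · intro x _ hx
    simp [hx]
  · intro h
    exact absurd (Finset.mem_univ _) h

omit [Fintype G] in
/-- `F₀` is `ℤ`-torsion-free. -/
lemma cT_finsupp_torsionFree (m : ℕ) (hm : m ≠ 0) (f : (cT (G := G) (A.V →₀ ℤ)).V)
    (hf : m • f = 0) : f = 0 := by
  apply cT_ext
  intro x
  have h1 : m • f.1 x = 0 := by
    have : (m • f).1 x = m • f.1 x := rfl
    rw [← this, hf]
    rfl
  apply Finsupp.ext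
  intro a
  have h2 : m • (f.1 x) a = 0 := by
    have : (m • f.1 x) a = m • (f.1 x) a := rfl
    rw [← this, h1]
    rfl
  have h3 : (m : ℤ) * (f.1 x) a = 0 := by
    rw [← h2]
    simp
  rcases mul_eq_zero.1 h3 with h | h
  · exact absurd (by exact_mod_cast h) hm
  · exact h

/-- The first short exact sequence `0 → R → F₀ → A → 0`. -/
noncomputable abbrev sc1 : ShortComplex (Rep.{0} ℤ G) :=
  ShortComplex.mk (kernel.ι (eps A)) (eps A) (kernel.condition _)

lemma sc1_shortExact : (sc1 A).ShortExact where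
  exact := ShortComplex.exact_kernel _
  mono_f := by dsimp [sc1]; infer_instance
  epi_g := (Rep.epi_iff_surjective _).2 (eps_surjective A)

/-- The kernel `R` of the cover. -/
noncomputable abbrev ker1 : Rep.{0} ℤ G := kernel (eps A)

lemma ker1_torsionFree (m : ℕ) (hm : m ≠ 0) (r : (ker1 A).V) (hr : m • r = 0) : r = 0 := by
  have hinj : Function.Injective (kernel.ι (eps A)).hom :=
    (Rep.mono_iff_injective _).1 inferInstance
  apply hinj
  rw [map_zero]
  apply cT_finsupp_torsionFree A m hm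
  rw [← map_nsmul, hr, map_zero]

end cover

/-- The second short exact sequence `0 → R → R → R/m → 0`. -/
noncomputable abbrev sc2 (R : Rep.{0} ℤ G) (m : ℕ) : ShortComplex (Rep.{0} ℤ G) :=
  ShortComplex.mk (m • 𝟙 R) (cokernel.π (m • 𝟙 R)) (cokernel.condition _)

lemma nsmul_id_hom_apply (R : Rep.{0} ℤ G) (m : ℕ) (r : R.V) : (m • 𝟙 R : R ⟶ R).hom r = m • r :=
  rfl

lemma sc2_shortExact (R : Rep.{0} ℤ G) (m : ℕ) (h : ∀ r : R.V, m • r = 0 → r = 0) :
    (sc2 R m).ShortExact where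
  exact := ShortComplex.exact_cokernel _
  mono_f := by
    refine (Rep.mono_iff_injective _).2 ?_
    intro a b hab
    have h1 : m • (a - b) = 0 := by
      have h2 : (m • 𝟙 R : R ⟶ R).hom (a - b) = 0 := by
        rw [map_sub, sub_eq_zero]
        exact hab
      rw [nsmul_id_hom_apply] at h2
      exact h2
    exact sub_eq_zero.1 (h _ h1)
  epi_g := by dsimp [sc2]; infer_instance

lemma sc2_killed (R : Rep.{0} ℤ G) (m : ℕ) (b : (cokernel (m • 𝟙 R)).V) : m • b = 0 := by
  obtain ⟨r, rfl⟩ := (Rep.epi_iff_surjective (cokernel.π (m • 𝟙 R))).1 inferInstance b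
  rw [← map_nsmul, ← nsmul_id_hom_apply]
  have := cokernel.condition (m • 𝟙 R)
  exact congr($(this).hom r)

/-- If `p` is injective on an abelian group killed by `p ^ k`, the group is trivial. -/
lemma eq_zero_of_pow_nsmul {M : Type} [AddCommGroup M] (p : ℕ)
    (hinj : ∀ x : M, p • x = 0 → x = 0) : ∀ (k : ℕ) (x : M), p ^ k • x = 0 → x = 0 := by
  intro k
  induction k with
  | zero => intro x hx; simpa using hx
  | succ k ih =>
    intro x hx
    apply ih
    apply hinj
    rw [← mul_nsmul', ← pow_succ']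
    exact hx

end Fermat.Agent.PT.CTpf

namespace Fermat.Agent.PT

open CategoryTheory groupCohomology Limits
open Fermat.Agent.PT.SylowRes Fermat.Agent.PT.HomCoind Fermat.Agent.PT.CTaux
  Fermat.Agent.PT.CTpf

/-- **(CT)** from `FpCT`, `KILL` and `HOMEX`. -/
theorem stmtCT_of : StmtFpCT → StmtKill → StmtHomEx → StmtCT := by
  intro hFp hK hH p hp G _ _ hG A h1A h2A N hN
  have hp0 : p ≠ 0 := (Fact.out : p.Prime).ne_zero
  obtain ⟨k, hk⟩ := (IsPGroup.iff_card (p := p) (G := G)).1 hG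
  rw [Nat.card_eq_fintype_card] at hk
  -- the two short exact sequences
  have hS1 := sc1_shortExact A
  have hS2 := sc2_shortExact (ker1 A) p (ker1_torsionFree A p hp0)
  -- `H²(R) = 0 = H³(R)`
  have hA1 : IsZero (groupCohomology A 1) := @ModuleCat.isZero_of_subsingleton _ _ _ h1A
  have hA2 : IsZero (groupCohomology A 2) := @ModuleCat.isZero_of_subsingleton _ _ _ h2A
  have hR2 : IsZero (groupCohomology (ker1 A) 2) :=
    isZero_X₁ hS1 1 hA1 (isZero_coindTriv _ 1)
  have hR3 : IsZero (groupCohomology (ker1 A) 3) :=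
    isZero_X₁ hS1 2 hA2 (isZero_coindTriv _ 2)
  -- `H²(R/p) = 0`
  have hB2 : IsZero (groupCohomology (cokernel (p • 𝟙 (ker1 A))) 2) :=
    isZero_X₃ hS2 2 hR2 hR3
  -- `FpCT`
  obtain ⟨hNB1, hNB2⟩ := hFp p G hG (cokernel (p • 𝟙 (ker1 A)))
    (fun b => sc2_killed (ker1 A) p b) (ModuleCat.subsingleton_of_isZero hB2) N hN
  have hNB1' : IsZero (groupCohomology (homRep N (cokernel (p • 𝟙 (ker1 A)))) 1) :=
    @ModuleCat.isZero_of_subsingleton _ _ _ hNB1
  have hNB2' : IsZero (groupCohomology (homRep N (cokernel (p • 𝟙 (ker1 A)))) 2) :=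
    @ModuleCat.isZero_of_subsingleton _ _ _ hNB2
  -- `Hom(N, -)` of the two sequences
  have hS2' := hH G N hN _ _ _ _ _ (cokernel.condition (p • 𝟙 (ker1 A)))
    (homRepMap_w N _ _ (cokernel.condition (p • 𝟙 (ker1 A)))) hS2
  have hS1' := hH G N hN _ _ _ _ _ (kernel.condition (eps A))
    (homRepMap_w N _ _ (kernel.condition (eps A))) hS1
  -- `p` is injective on `H²`, `H³` of `Hom(N, R)`
  have hinj : ∀ n : ℕ, IsZero (groupCohomology (homRep N (cokernel (p • 𝟙 (ker1 A)))) n) →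
      ∀ x : groupCohomology (homRep N (ker1 A)) (n + 1), p • x = 0 → x = 0 := by
    intro n hn x hx
    have h := injective_map_f hS2' n hn
    apply h
    rw [map_zero]
    have h3 : (groupCohomology.map (MonoidHom.id G) (homRepMap N (p • 𝟙 (ker1 A))) (n + 1)).hom x
        = p • x := by
      rw [homRepMap_nsmul_id]
      exact map_nsmul_id _ _ _ x
    exact h3.trans hx
  have hNR : ∀ n : ℕ, IsZero (groupCohomology (homRep N (cokernel (p • 𝟙 (ker1 A)))) n) →
      IsZero (groupCohomology (homRep N (ker1 A)) (n + 1)) := by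
    intro n hn
    have : Subsingleton (groupCohomology (homRep N (ker1 A)) (n + 1)) := by
      refine ⟨fun x y => ?_⟩
      have hx : x = 0 := eq_zero_of_pow_nsmul p (hinj n hn) k x (by
        have := hK G (homRep N (ker1 A)) n x
        rw [hk] at this
        exact this)
      have hy : y = 0 := eq_zero_of_pow_nsmul p (hinj n hn) k y (by
        have := hK G (homRep N (ker1 A)) n y
        rw [hk] at this
        exact this)
      rw [hx, hy]
    exact ModuleCat.isZero_of_subsingleton _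
  have hNR2 := hNR 1 hNB1'
  have hNR3 := hNR 2 hNB2'
  -- conclusion
  have hNA1 : IsZero (groupCohomology (homRep N A) 1) :=
    isZero_X₃ hS1' 1 (isZero_homRep_coindTriv N _ 0) hNR2
  have hNA2 : IsZero (groupCohomology (homRep N A) 2) :=
    isZero_X₃ hS1' 2 (isZero_homRep_coindTriv N _ 1) hNR3
  exact ⟨ModuleCat.subsingleton_of_isZero hNA1, ModuleCat.subsingleton_of_isZero hNA2⟩

end Fermat.Agent.PT
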