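/-
PT-A — shared definitions (helper9).  `Hom_ℤ(M, C)` as a representation, on the carrier
`M.V →+ C.V` (additive maps: no `Module ℤ` instance is involved, which avoids the
`AddCommGroup.toIntModule` / `Rep.hV2` diamond of `Rep ℤ G`).
-/
import Mathlib

set_option autoImplicit false

namespace Fermat.Agent.PT

open CategoryTheory

/-- An additive map is `ℤ`-linear for ANY two `ℤ`-module structures. -/
def addToLin {X Y : Type*} [AddCommGroup X] [AddCommGroup Y] [Module ℤ X] [Module ℤ Y]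
    (f : X →+ Y) : X →ₗ[ℤ] Y :=
  { f with
    map_smul' := fun n x => by
      have := map_intCast_smul f ℤ ℤ n x
      simpa using this }

@[simp] lemma addToLin_apply {X Y : Type*} [AddCommGroup X] [AddCommGroup Y] [Module ℤ X]
    [Module ℤ Y] (f : X →+ Y) (x : X) : addToLin f x = f x := rfl

variable {G : Type} [Group G]

/- For `k = ℤ` instance synthesis finds `AddCommGroup.toIntModule` before `Rep.hV2`, which breaks
every Mathlib function applied to `C.ρ`.  Piece owners: put this line at the top of your file. -/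
attribute [local instance 1100] Rep.hV2

/-- The action of `g` on an object of `Rep ℤ G`, as an additive map. -/
noncomputable def actAdd (C : Rep.{0} ℤ G) (g : G) : C.V →+ C.V :=
  (C.ρ g).toAddMonoidHom

@[simp] lemma actAdd_apply (C : Rep.{0} ℤ G) (g : G) (c : C.V) : actAdd C g c = C.ρ g c := rfl

/-- The additive map underlying a morphism of `Rep ℤ G`. -/
noncomputable def homAdd {A B : Rep.{0} ℤ G} (f : A ⟶ B) : A.V →+ B.V :=
  AddMonoidHom.mk' (fun a => f.hom a) (fun a b => map_add f.hom a b)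

@[simp] lemma homAdd_apply {A B : Rep.{0} ℤ G} (f : A ⟶ B) (a : A.V) : homAdd f a = f.hom a := rfl

/-- Conjugation action of `g` on additive maps `M → C`: `f ↦ g ∘ f ∘ g⁻¹`. -/
noncomputable def conjAdd (M C : Rep.{0} ℤ G) (g : G) : (M.V →+ C.V) →+ (M.V →+ C.V) where
  toFun f := (actAdd C g).comp (f.comp (actAdd M g⁻¹))
  map_zero' := by ext m; simp
  map_add' f₁ f₂ := by ext m; simp

@[simp] lemma conjAdd_apply (M C : Rep.{0} ℤ G) (g : G) (f : M.V →+ C.V) (m : M.V) :
    conjAdd M C g f m = C.ρ g (f (M.ρ g⁻¹ m)) := rfl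

/-- The representation of `G` on `Hom_ℤ(M, C) = (M.V →+ C.V)` by conjugation. -/
noncomputable def homRepρ (M C : Rep.{0} ℤ G) : Representation ℤ G (M.V →+ C.V) where
  toFun g := addToLin (conjAdd M C g)
  map_one' := by
    ext f m
    simp
  map_mul' g h := by
    ext f m
    simp [mul_inv_rev]

@[simp] lemma homRepρ_apply (M C : Rep.{0} ℤ G) (g : G) (f : M.V →+ C.V) (m : M.V) :
    homRepρ M C g f m = C.ρ g (f (M.ρ g⁻¹ m)) := rfl

/-- `Hom_ℤ(M, C)` with the conjugation action, as an object of `Rep ℤ G`. -/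
noncomputable abbrev homRep (M C : Rep.{0} ℤ G) : Rep.{0} ℤ G := Rep.of (homRepρ M C)

/-- Post-composition with a morphism `f : A ⟶ B`, as a morphism `Hom(N, A) ⟶ Hom(N, B)`. -/
noncomputable def homRepMap (N : Rep.{0} ℤ G) {A B : Rep.{0} ℤ G} (f : A ⟶ B) :
    homRep N A ⟶ homRep N B :=
  Rep.ofHom (LinearMap.intertwiningMap_of_isIntertwiningMap
    (ρ := homRepρ N A) (σ := homRepρ N B)
    (f := addToLin (AddMonoidHom.compHom (homAdd f)))
    (fun g φ => by
      ext n
      simp [Rep.hom_comm_apply]))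

@[simp] lemma homRepMap_apply (N : Rep.{0} ℤ G) {A B : Rep.{0} ℤ G} (f : A ⟶ B)
    (φ : N.V →+ A.V) (n : N.V) :
    ((homRepMap N f).hom φ : N.V →+ B.V) n = f.hom (φ n) := rfl

/-- Evaluation at a `G`-invariant element `m` of `M`, as a morphism `Hom(M, C) ⟶ C`. -/
noncomputable def evHom (M C : Rep.{0} ℤ G) (m : M.V) (hm : ∀ g : G, M.ρ g m = m) :
    homRep M C ⟶ C :=
  ConcreteCategory.ofHom (C := Rep.{0} ℤ G) (X := homRep M C) (Y := C)
   (LinearMap.intertwiningMap_of_isIntertwiningMap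
    (ρ := homRepρ M C) (σ := C.ρ)
    (f := addToLin (AddMonoidHom.eval m))
    (fun g f => by
      simp [hm]))

@[simp] lemma evHom_apply (M C : Rep.{0} ℤ G) (m : M.V) (hm : ∀ g : G, M.ρ g m = m)
    (f : M.V →+ C.V) : (evHom M C m hm).hom f = f m := rfl

/-- The additive map `c ↦ (m ↦ x m • c)` attached to an additive functional `x : M → ℤ`. -/
noncomputable def mulAdd (M C : Rep.{0} ℤ G) (x : M.V →+ ℤ) : C.V →+ (M.V →+ C.V) where
  toFun c :=
    { toFun := fun m => x m • c
      map_zero' := by simp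
      map_add' := fun m₁ m₂ => by
        rw [map_add]
        first | exact add_smul _ _ _ | exact add_zsmul _ _ _ }
  map_zero' := by
    ext m
    change x m • (0 : C.V) = 0
    first | exact smul_zero _ | exact zsmul_zero _
  map_add' c₁ c₂ := by
    ext m
    change x m • (c₁ + c₂) = x m • c₁ + x m • c₂
    first | exact smul_add _ _ _ | exact zsmul_add _ _ _

lemma mulAdd_apply (M C : Rep.{0} ℤ G) (x : M.V →+ ℤ) (c : C.V) (m : M.V) :
    mulAdd M C x c m = x m • c := rfl

/-- Multiplication by a `G`-invariant functional `x : M → ℤ`, as a morphism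
`C ⟶ Hom(M, C)`, `c ↦ (m ↦ x m • c)`. -/
noncomputable def mulHom (M C : Rep.{0} ℤ G) (x : M.V →+ ℤ)
    (hx : ∀ (g : G) (m : M.V), x (M.ρ g m) = x m) : C ⟶ homRep M C :=
  ConcreteCategory.ofHom (C := Rep.{0} ℤ G) (X := C) (Y := homRep M C)
   (LinearMap.intertwiningMap_of_isIntertwiningMap
    (ρ := C.ρ) (σ := homRepρ M C)
    (f := addToLin (mulAdd M C x))
    (fun g c => by
      ext m
      simp [hx, mulAdd_apply]))

lemma mulHom_apply (M C : Rep.{0} ℤ G) (x : M.V →+ ℤ)
    (hx : ∀ (g : G) (m : M.V), x (M.ρ g m) = x m) (c : C.V) (m : M.V) :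
    ((mulHom M C x hx).hom c : M.V →+ C.V) m = x m • c := rfl

/-- The norm `N_G h = ∑ γ, γ ∘ h ∘ γ⁻¹` of an additive map between two `G`-modules. -/
noncomputable def normAdd [Fintype G] (M C : Rep.{0} ℤ G) (h : M.V →+ C.V) : M.V →+ C.V :=
  ∑ γ : G, conjAdd M C γ h

lemma normAdd_apply [Fintype G] (M C : Rep.{0} ℤ G) (h : M.V →+ C.V) (m : M.V) :
    normAdd M C h m = ∑ γ : G, C.ρ γ (h (M.ρ γ⁻¹ m)) := by
  simp [normAdd]

/-- `x` is a norm: `x = ∑ γ, γ • a`. -/
def IsNormElt [Fintype G] (A : Rep.{0} ℤ G) (x : A.V) : Prop := ∃ a : A.V, x = ∑ γ : G, A.ρ γ a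

/-- The `G`-morphism `g : M ⟶ C` is the norm of an additive map. -/
def IsNormHom [Fintype G] {M C : Rep.{0} ℤ G} (g : M ⟶ C) : Prop :=
  ∃ h : M.V →+ C.V, ∀ m : M.V, g.hom m = normAdd M C h m

end Fermat.Agent.PT
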