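/-
PT-A (Tate cohomology of finite groups) — sub-captain's interface file (helper9).
Definitions and statements only; the proofs live in the other files of `Fermat/Agent/PT/A/`.
Piece table and mathematics: `NOTES/PT-A.md`.

WARNING (helper9): `StmtTN` of `Plan.lean` is FALSE as stated (counterexample: `p` odd,
`G = ℤ/p × ℤ/2`, `C = ℤ` with `ℤ/2` acting by `-1`, `M = ℤ` trivial: every `p`-subgroup `H` has
`H¹(H,C) = 0`, `H²(H,C) ≅ ℤ/|H|`, but `Hom_G(M,C) = 0` while `H²(G,M)` has `p`-torsion).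
What is missing is a GLOBAL class `u ∈ H²(G,C)` whose restrictions generate. `StmtTN'` below is
the corrected statement (Serre, Local Fields, IX §8, Thm. 13/14, `p`-primary part).

CONVENTION for the pieces: everything is stated WITHOUT `Module ℤ` instances on the carriers
(additive maps `M.V →+ C.V`, `IsZFree`), because for `Rep ℤ G` instance synthesis finds
`AddCommGroup.toIntModule` and not `Rep.hV2`.  Inside your proofs you may use
`attribute [local instance 1100] Rep.hV2`.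
-/
import Fermat.Agent.PT.A.Plan
import Fermat.Agent.PT.A.Defs

set_option autoImplicit false

namespace Fermat.Agent.PT

open CategoryTheory groupCohomology

variable {G : Type} [Group G]

/-- `u ∈ H²(G, C)` is a `p`-fundamental class: for every `p`-subgroup `H` of `G`,
`H¹(H, C) = 0` and `H²(H, C)` has order `|H|` and is generated by `res u`. -/
structure IsPFundClass (p : ℕ) (C : Rep.{0} ℤ G) (u : H2 C) : Prop where
  h1 : ∀ H : Subgroup G, IsPGroup p H → Subsingleton (H1 (Rep.res H.subtype C))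
  h2_card : ∀ H : Subgroup G, IsPGroup p H →
    Nat.card (H2 (Rep.res H.subtype C)) = Nat.card H
  h2_gen : ∀ H : Subgroup G, IsPGroup p H → ∀ x : H2 (Rep.res H.subtype C),
    ∃ n : ℤ, n • (resSub C H 2).hom u = x

/-- **Tate–Nakayama duality, degree (0,2), `p`-part** (corrected form of `StmtTN`). -/
def StmtTN' : Prop :=
  ∀ (p : ℕ) [Fact p.Prime] (G : Type) [Group G] [Fintype G] (C : Rep.{0} ℤ G) (u : H2 C),
    IsPFundClass p C u →
    ∀ (M : Rep.{0} ℤ G), Module.Free ℤ M.V → Module.Finite ℤ M.V →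
      (∀ y : H2 M, IsPTors p y → (∀ g : M ⟶ C, (push₂ g).hom y = 0) → y = 0) ∧
      (∀ g : M ⟶ C, (∀ y : H2 M, IsPTors p y → (push₂ g).hom y = 0) →
        ∃ (n : ℕ) (h : M.V →ₗ[ℤ] C.V), ¬ p ∣ n ∧
          ∀ m : M.V, n • g.hom m = normHom M C h m)

/-! ## The pieces (one `Prop` each; owners in `NOTES/PT-A.md`) -/

/-- `M` is free of finite rank as an abelian group (instance-free form). -/
def IsZFree (M : Rep.{0} ℤ G) : Prop := ∃ n : ℕ, Nonempty (M.V ≃+ (Fin n → ℤ))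

/-- `u` generates `H²(G, C)`, which has order `|G|`, and `H¹(G, C) = 0`. -/
structure IsFundClass (C : Rep.{0} ℤ G) (u : H2 C) : Prop where
  h1 : Subsingleton (H1 C)
  h2_card : Nat.card (H2 C) = Nat.card G
  h2_gen : ∀ x : H2 C, ∃ n : ℤ, n • u = x

/-- **(TNadd)** `StmtTN'` in instance-free form (additive maps, `IsZFree`). -/
def StmtTNadd : Prop :=
  ∀ (p : ℕ) [Fact p.Prime] (G : Type) [Group G] [Fintype G] (C : Rep.{0} ℤ G) (u : H2 C),
    IsPFundClass p C u → ∀ (M : Rep.{0} ℤ G), IsZFree M →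
      (∀ y : H2 M, IsPTors p y → (∀ g : M ⟶ C, (push₂ g).hom y = 0) → y = 0) ∧
      (∀ g : M ⟶ C, (∀ y : H2 M, IsPTors p y → (push₂ g).hom y = 0) →
        ∃ (n : ℕ) (h : M.V →+ C.V), ¬ p ∣ n ∧ ∀ m : M.V, n • g.hom m = normAdd M C h m)

/-- **(TNp)** Tate–Nakayama (0,2) for a `p`-group `G`. -/
def StmtTNp : Prop :=
  ∀ (p : ℕ) [Fact p.Prime] (G : Type) [Group G] [Fintype G], IsPGroup p G →
    ∀ (C : Rep.{0} ℤ G) (u : H2 C), IsFundClass C u → ∀ (M : Rep.{0} ℤ G), IsZFree M →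
      (∀ y : H2 M, (∀ g : M ⟶ C, (push₂ g).hom y = 0) → y = 0) ∧
      (∀ g : M ⟶ C, (∀ y : H2 M, (push₂ g).hom y = 0) → IsNormHom g)

/-- **(KILL)** `Hⁿ(G, X)` is killed by `|G|` for `n ≥ 1`. -/
def StmtKill : Prop :=
  ∀ (G : Type) [Group G] [Fintype G] (X : Rep.{0} ℤ G) (n : ℕ) (x : groupCohomology X (n + 1)),
    (Fintype.card G) • x = 0

/-- **(NORM0)** Push-forward along the norm of an additive map is zero on `H²`. -/
def StmtNormZero : Prop :=
  ∀ (G : Type) [Group G] [Fintype G] (M C : Rep.{0} ℤ G) (g : M ⟶ C),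
    IsNormHom g → ∀ y : H2 M, (push₂ g).hom y = 0

/-- **(D00)** Elementary duality in degree `(0,0)`: for `ℤ`-free f.g. `N` and `m ∈ N^G`, if
`|G|` divides `x m` for every `G`-invariant additive functional `x`, then `m` is a norm. -/
def StmtD00 : Prop :=
  ∀ (G : Type) [Group G] [Fintype G] (N : Rep.{0} ℤ G), IsZFree N →
    ∀ m : N.V, (∀ g : G, N.ρ g m = m) →
      (∀ x : N.V →+ ℤ, (∀ (g : G) (n : N.V), x (N.ρ g n) = x n) →
        (Fintype.card G : ℤ) ∣ x m) →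
      IsNormElt N m

/-- **(D00')** The same for functionals: if `|G|` divides `x m` for every `m ∈ N^G`, then the
`G`-invariant functional `x` is the norm of a functional. -/
def StmtD00' : Prop :=
  ∀ (G : Type) [Group G] [Fintype G] (N : Rep.{0} ℤ G), IsZFree N →
    ∀ x : N.V →+ ℤ, (∀ (g : G) (n : N.V), x (N.ρ g n) = x n) →
      (∀ m : N.V, (∀ g : G, N.ρ g m = m) → (Fintype.card G : ℤ) ∣ x m) →
      ∃ ξ : N.V →+ ℤ, ∀ n : N.V, x n = ∑ γ : G, ξ (N.ρ γ n)

/-- **(FpCT)** Cohomological triviality over `𝔽_p`: `G` a `p`-group, `p • B = 0`, `H²(G, B) = 0`.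
Then `H¹` and `H²` of `Hom(N, B)` vanish for every `ℤ`-free f.g. `N`.
(Proof: `B⁺ := Coind B / B` has `H¹ = 0`, hence `B⁺ ≅ Coind((B⁺)^G)` is free over `𝔽_p[G]`,
so `B` is a direct summand of `Coind B`, and `Hom(N, Coind B) ≅ Coind (Hom(N, B))`.) -/
def StmtFpCT : Prop :=
  ∀ (p : ℕ) [Fact p.Prime] (G : Type) [Group G] [Fintype G], IsPGroup p G →
    ∀ (B : Rep.{0} ℤ G), (∀ b : B.V, p • b = 0) → Subsingleton (H2 B) →
    ∀ (N : Rep.{0} ℤ G), IsZFree N →
      Subsingleton (H1 (homRep N B)) ∧ Subsingleton (H2 (homRep N B))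

/-- **(CT)** Cohomological triviality: `G` a `p`-group, `H¹(G, A) = H²(G, A) = 0`.
Then `H¹` and `H²` of `Hom(N, A)` vanish for every `ℤ`-free f.g. `N`. -/
def StmtCT : Prop :=
  ∀ (p : ℕ) [Fact p.Prime] (G : Type) [Group G] [Fintype G], IsPGroup p G →
    ∀ (A : Rep.{0} ℤ G), Subsingleton (H1 A) → Subsingleton (H2 A) →
    ∀ (N : Rep.{0} ℤ G), IsZFree N →
      Subsingleton (H1 (homRep N A)) ∧ Subsingleton (H2 (homRep N A))

/-- **(HOMEX)** `Hom(N, -)` preserves short exact sequences when `N` is `ℤ`-free. -/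
def StmtHomEx : Prop :=
  ∀ (G : Type) [Group G] (N : Rep.{0} ℤ G), IsZFree N →
    ∀ (X Y Z : Rep.{0} ℤ G) (f : X ⟶ Y) (g : Y ⟶ Z) (w : f ≫ g = 0)
      (w' : homRepMap N f ≫ homRepMap N g = 0),
      (ShortComplex.mk f g w).ShortExact →
      (ShortComplex.mk (homRepMap N f) (homRepMap N g) w').ShortExact

/-- **(SM)** Splitting module: for a finite group `G` and a fundamental class `u` of `C` there
are short exact sequences `0 → C → A → I → 0` and `0 → I → F → ℤ → 0` with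
`H¹(G, A) = H²(G, A) = 0` and `H¹(G, Hom(N, F)) = 0` for all `ℤ`-free f.g. `N`
(`A = C(u)`, `I = I_G`, `F = ℤ[G]`). -/
def StmtSM : Prop :=
  ∀ (G : Type) [Group G] [Fintype G] (C : Rep.{0} ℤ G) (u : H2 C), IsFundClass C u →
    ∃ (A I F : Rep.{0} ℤ G) (ι : C ⟶ A) (π : A ⟶ I) (j : I ⟶ F)
      (e : F ⟶ Rep.trivial ℤ G ℤ) (w₁ : ι ≫ π = 0) (w₂ : j ≫ e = 0),
      (ShortComplex.mk ι π w₁).ShortExact ∧ (ShortComplex.mk j e w₂).ShortExact ∧
      Subsingleton (H1 A) ∧ Subsingleton (H2 A) ∧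
      ∀ N : Rep.{0} ℤ G, IsZFree N → Subsingleton (H1 (homRep N F))

/-- **(TN0)** Tate–Nakayama in degree `0`, surjectivity: for a `p`-group `G` with fundamental
class `u`, every class of `H²(G, Hom(N, C))` is `x ∪ u` for a `G`-invariant functional `x`. -/
def StmtTN0 : Prop :=
  ∀ (p : ℕ) [Fact p.Prime] (G : Type) [Group G] [Fintype G], IsPGroup p G →
    ∀ (C : Rep.{0} ℤ G) (u : H2 C), IsFundClass C u → ∀ (N : Rep.{0} ℤ G), IsZFree N →
    ∀ ζ : H2 (homRep N C), ∃ (x : N.V →+ ℤ) (hx : ∀ (g : G) (m : N.V), x (N.ρ g m) = x m),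
      ζ = (push₂ (mulHom N C x hx)).hom u

/-- **(DS)** Double dimension shift with compatibility: for a finite group `G`, a `ℤ`-free f.g.
`M` and any `C` there are a `ℤ`-free f.g. `M₂` and maps `dM : M₂^G → H²(G, M)`,
`dH : Hom_G(M, C) → H²(G, Hom(M₂, C))`, both SURJECTIVE, vanishing exactly on norms, such that
`ev_m (dH g) = ε • g_* (dM m)` for a fixed sign `ε = ±1`. -/
def StmtDS : Prop :=
  ∀ (G : Type) [Group G] [Fintype G] (M C : Rep.{0} ℤ G), IsZFree M →
    ∃ (M₂ : Rep.{0} ℤ G) (dM : {m : M₂.V // ∀ g : G, M₂.ρ g m = m} → H2 M)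
      (dH : (M ⟶ C) → H2 (homRep M₂ C)) (ε : ℤ),
      IsZFree M₂ ∧ (ε = 1 ∨ ε = -1) ∧ Function.Surjective dM ∧ Function.Surjective dH ∧
      (∀ m, dM m = 0 ↔ IsNormElt M₂ m.1) ∧
      (∀ g : M ⟶ C, dH g = 0 ↔ IsNormHom g) ∧
      (∀ (g : M ⟶ C) (m : {m : M₂.V // ∀ g : G, M₂.ρ g m = m}),
        (push₂ (evHom M₂ C m.1 m.2)).hom (dH g) = ε • (push₂ g).hom (dM m))

/-- **(RedR)** Sylow reduction, right kernel: if `y ∈ H²(G, M)` is killed by all `G`-morphisms
`M ⟶ C`, then `res_P y` is killed by all `P`-morphisms (`P` a Sylow `p`-subgroup, `u` a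
`p`-fundamental class).  (Proof: `(N_{G/P} g')_* = cor ∘ g'_* ∘ res`, `cor ∘ res = [G:P]`.) -/
def StmtRedR : Prop :=
  ∀ (p : ℕ) [Fact p.Prime] (G : Type) [Group G] [Fintype G] (P : Sylow p G)
    (C : Rep.{0} ℤ G) (u : H2 C), IsPFundClass p C u → ∀ (M : Rep.{0} ℤ G) (y : H2 M),
    (∀ g : M ⟶ C, (push₂ g).hom y = 0) →
    ∀ g' : Rep.res (P : Subgroup G).subtype M ⟶ Rep.res (P : Subgroup G).subtype C,
      (push₂ g').hom ((resSub M (P : Subgroup G) 2).hom y) = 0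

/-- **(RedL)** Sylow reduction, left kernel: if the `G`-morphism `g : M ⟶ C` kills the
`p`-primary part of `H²(G, M)`, then its restriction to `P` kills `H²(P, M)`.
(Proof: `cor` is natural, `cor y'` is `p`-torsion, `cor ∘ res = [G:P]`.) -/
def StmtRedL : Prop :=
  ∀ (p : ℕ) [Fact p.Prime] (G : Type) [Group G] [Fintype G] (P : Sylow p G)
    (C : Rep.{0} ℤ G) (u : H2 C), IsPFundClass p C u → ∀ (M : Rep.{0} ℤ G) (g : M ⟶ C),
    (∀ y : H2 M, IsPTors p y → (push₂ g).hom y = 0) →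
    ∀ y' : H2 (Rep.res (P : Subgroup G).subtype M),
      (push₂ ((Rep.resFunctor (P : Subgroup G).subtype).map g)).hom y' = 0

end Fermat.Agent.PT
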