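import Fermat.Agent.PT.A.DSDefs
import Fermat.Agent.PT.A.HomCoind

/-!
# PT-A piece DS-Coind: `Coind_1^G A` is weakly injective, and `A → Coind_1^G A` is additively
split.

* `stmtCoindWI : StmtCoindWI`
* `coindTriv_retraction A : ∃ r : (coindTriv A).V →+ A.V, ∀ a, r ((unitHom A).hom a) = a`
-/

set_option autoImplicit false

namespace Fermat.Agent.PT.DSCoind

open CategoryTheory groupCohomology
open Fermat.Agent.PT.SylowRes Fermat.Agent.PT.HomCoind

attribute [local instance 1100] Rep.hV2

variable {G : Type} [Group G]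

/-- Build an element of `Coind_1^G A` from a function. -/
noncomputable def mkCoind (A : Rep.{0} ℤ G) (f : G → A.V) : (coindTriv A).V :=
  ⟨f, mem_coindV_bot _ f⟩

@[simp] lemma mkCoind_val (A : Rep.{0} ℤ G) (f : G → A.V) (x : G) :
    (mkCoind A f).1 x = f x := rfl

lemma coindTriv_ρ_apply (A : Rep.{0} ℤ G) (g : G) (f : (coindTriv A).V) (x : G) :
    ((coindTriv A).ρ g f).1 x = f.1 (x * g) := rfl

lemma coindTriv_ext (A : Rep.{0} ℤ G) {f f' : (coindTriv A).V}
    (h : ∀ x, f.1 x = f'.1 x) : f = f' :=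
  Subtype.ext (funext h)

lemma unitHom_apply (A : Rep.{0} ℤ G) (a : A.V) (x : G) :
    ((unitHom A).hom a).1 x = A.ρ x a := rfl

/-- Evaluation at `x`, as an additive map `Coind_1^G A → A`. -/
noncomputable def evalAt (A : Rep.{0} ℤ G) (x : G) : (coindTriv A).V →+ A.V where
  toFun f := f.1 x
  map_zero' := rfl
  map_add' _ _ := rfl

@[simp] lemma evalAt_apply (A : Rep.{0} ℤ G) (x : G) (f : (coindTriv A).V) :
    evalAt A x f = f.1 x := rfl

lemma sum_val_apply {ι : Type} (A : Rep.{0} ℤ G) (s : Finset ι) (F : ι → (coindTriv A).V)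
    (x : G) : (∑ i ∈ s, F i).1 x = ∑ i ∈ s, (F i).1 x :=
  map_sum (evalAt A x) F s

/-- `f ↦ f 1 • δ₁`. -/
noncomputable def deltaOne [DecidableEq G] (A : Rep.{0} ℤ G) :
    (coindTriv A).V →+ (coindTriv A).V where
  toFun f := mkCoind A (fun x => if x = 1 then f.1 1 else 0)
  map_zero' := by
    apply coindTriv_ext
    intro x
    change (if x = 1 then (0 : A.V) else 0) = 0
    simp
  map_add' f g := by
    apply coindTriv_ext
    intro x
    change (if x = 1 then (f.1 1 + g.1 1) else 0) =
      (if x = 1 then f.1 1 else 0) + (if x = 1 then g.1 1 else 0)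
    split_ifs <;> simp

lemma deltaOne_apply [DecidableEq G] (A : Rep.{0} ℤ G) (f : (coindTriv A).V) (x : G) :
    (deltaOne A f).1 x = if x = 1 then f.1 1 else 0 := rfl

end Fermat.Agent.PT.DSCoind

namespace Fermat.Agent.PT

open CategoryTheory groupCohomology
open Fermat.Agent.PT.SylowRes Fermat.Agent.PT.HomCoind Fermat.Agent.PT.DSCoind

attribute [local instance 1100] Rep.hV2

/-- The unit `A → Coind_1^G A` is additively split (evaluation at `1`). -/
theorem coindTriv_retraction {G : Type} [Group G] (A : Rep.{0} ℤ G) :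
    ∃ r : (coindTriv A).V →+ A.V, ∀ a : A.V, r ((unitHom A).hom a) = a := by
  refine ⟨evalAt A 1, fun a => ?_⟩
  rw [evalAt_apply, unitHom_apply, map_one]
  rfl

/-- **(DS-CoindWI)** `Coind_1^G A` is weakly injective. -/
theorem stmtCoindWI : StmtCoindWI := by
  classical
  intro G _ _ A
  refine ⟨deltaOne A, fun f => ?_⟩
  apply coindTriv_ext
  intro x
  rw [sum_val_apply, Finset.sum_eq_single (x⁻¹ : G)]
  · rw [coindTriv_ρ_apply, deltaOne_apply, if_pos (mul_inv_cancel x), coindTriv_ρ_apply,
      inv_inv, one_mul]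
  · intro γ _ hγ
    rw [coindTriv_ρ_apply, deltaOne_apply, if_neg]
    intro h
    exact hγ (eq_inv_of_mul_eq_one_right h)
  · intro h
    exact absurd (Finset.mem_univ _) h

end Fermat.Agent.PT
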