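/-
PT-A piece `DS` (double dimension shift) — interface of the sub-pieces (helper79).

`IsWI X` ("weakly injective"): the identity of `X` is the norm of an additive endomorphism.
Such `X` have `H¹ = H² = 0` and all their invariants are norms; `Coind_1^G A` and
`Hom(E, C)` for `E` weakly injective are weakly injective.

`StmtDSAbs`: the statement of `StmtDS` for ANY pair of short exact sequences
`0 → M → E → M₁ → 0`, `0 → M₁ → E₁ → M₂ → 0` with `E`, `E₁` weakly injective and additively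
split.  `StmtDS` follows with `E = Coind_1^G M`, `E₁ = Coind_1^G M₁`.
-/
import Fermat.Agent.PT.A.Plan2
import Fermat.Agent.PT.A.Sylow

set_option autoImplicit false

namespace Fermat.Agent.PT

open CategoryTheory groupCohomology

attribute [local instance 1100] Rep.hV2

variable {G : Type} [Group G]

/-- `X` is weakly injective: the identity of `X` is the norm of an additive endomorphism. -/
def IsWI [Fintype G] (X : Rep.{0} ℤ G) : Prop :=
  ∃ h : X.V →+ X.V, ∀ x : X.V, ∑ γ : G, X.ρ γ (h (X.ρ γ⁻¹ x)) = x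

/-- Pre-composition with an additive map, as an additive map of Hom groups. -/
noncomputable def preAdd {X Y : Type} [AddCommGroup X] [AddCommGroup Y] (Z : Type)
    [AddCommGroup Z] (f : X →+ Y) : (Y →+ Z) →+ (X →+ Z) :=
  AddMonoidHom.mk' (fun φ => φ.comp f) (fun φ ψ => by ext x; rfl)

@[simp] lemma preAdd_apply {X Y : Type} [AddCommGroup X] [AddCommGroup Y] (Z : Type)
    [AddCommGroup Z] (f : X →+ Y) (φ : Y →+ Z) (x : X) : preAdd Z f φ x = φ (f x) := rfl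

/-- Pre-composition with a morphism `f : A ⟶ B`, as a morphism `Hom(B, C) ⟶ Hom(A, C)`. -/
noncomputable def homRepPre {A B : Rep.{0} ℤ G} (f : A ⟶ B) (C : Rep.{0} ℤ G) :
    homRep B C ⟶ homRep A C :=
  Rep.ofHom (LinearMap.intertwiningMap_of_isIntertwiningMap
    (ρ := homRepρ B C) (σ := homRepρ A C)
    (f := addToLin (preAdd C.V (homAdd f)))
    (fun g φ => by
      ext a
      simp [Rep.hom_comm_apply]))

@[simp] lemma homRepPre_apply {A B : Rep.{0} ℤ G} (f : A ⟶ B) (C : Rep.{0} ℤ G)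
    (φ : B.V →+ C.V) (a : A.V) :
    ((homRepPre f C).hom φ : A.V →+ C.V) a = φ (f.hom a) := rfl

/-! ## The sub-pieces of `DS` (one `Prop` each) -/

/-- **(DS-WI0)** In a weakly injective module every invariant is a norm. -/
def StmtWI0 : Prop :=
  ∀ (G : Type) [Group G] [Fintype G] (X : Rep.{0} ℤ G), IsWI X →
    ∀ x : X.V, (∀ g : G, X.ρ g x = x) → IsNormElt X x

/-- **(DS-WI1)** `H¹` of a weakly injective module vanishes.
(For a cocycle `y` put `c = ∑ γ, γ • h (γ⁻¹ • y γ)`; then `y σ = c - σ • c`.) -/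
def StmtWI1 : Prop :=
  ∀ (G : Type) [Group G] [Fintype G] (X : Rep.{0} ℤ G), IsWI X → Subsingleton (H1 X)

/-- **(DS-WI2)** `H²` of a weakly injective module vanishes (`stmtNormZero` for `𝟙 X`). -/
def StmtWI2 : Prop :=
  ∀ (G : Type) [Group G] [Fintype G] (X : Rep.{0} ℤ G), IsWI X → Subsingleton (H2 X)

/-- **(DS-CoindWI)** `Coind_1^G A` is weakly injective (`h f = f 1 • δ₁`). -/
def StmtCoindWI : Prop :=
  ∀ (G : Type) [Group G] [Fintype G] (A : Rep.{0} ℤ G), IsWI (SylowRes.coindTriv A)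

/-- **(DS-HomWI)** `Hom(E, C)` is weakly injective when `E` is (`φ ↦ φ ∘ h`). -/
def StmtHomWI : Prop :=
  ∀ (G : Type) [Group G] [Fintype G] (E C : Rep.{0} ℤ G), IsWI E → IsWI (homRep E C)

/-- **(DS-ShiftFree)** The cokernel of `A → Coind_1^G A` is `ℤ`-free of finite rank when `A` is
(`G` finite). -/
def StmtShiftFree : Prop :=
  ∀ (G : Type) [Group G] [Fintype G] (A : Rep.{0} ℤ G), IsZFree A →
    IsZFree (SylowRes.shiftSC A).X₃

/-- **(DS-HomPre)** `Hom(-, C)` turns an additively split short exact sequence into a short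
exact sequence. -/
def StmtHomPre : Prop :=
  ∀ (G : Type) [Group G] (C X Y Z : Rep.{0} ℤ G) (f : X ⟶ Y) (g : Y ⟶ Z) (w : f ≫ g = 0)
    (w' : homRepPre g C ≫ homRepPre f C = 0),
    (ShortComplex.mk f g w).ShortExact →
    (∃ r : Y.V →+ X.V, ∀ x : X.V, r (f.hom x) = x) →
    (ShortComplex.mk (homRepPre g C) (homRepPre f C) w').ShortExact

/-- **(DS-Abs)** The statement of `StmtDS` for ANY two short exact sequences
`0 → M → E → M₁ → 0`, `0 → M₁ → E₁ → M₂ → 0` which are additively split and have weakly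
injective middle terms (sign `ε = -1`). -/
def StmtDSAbs : Prop :=
  ∀ (G : Type) [Group G] [Fintype G] (M C E M₁ E₁ M₂ : Rep.{0} ℤ G)
    (ι : M ⟶ E) (π : E ⟶ M₁) (ι₁ : M₁ ⟶ E₁) (π₁ : E₁ ⟶ M₂) (w : ι ≫ π = 0) (w₁ : ι₁ ≫ π₁ = 0),
    (ShortComplex.mk ι π w).ShortExact → (ShortComplex.mk ι₁ π₁ w₁).ShortExact →
    IsWI E → IsWI E₁ →
    (∃ r : E.V →+ M.V, ∀ x : M.V, r (ι.hom x) = x) →
    (∃ r₁ : E₁.V →+ M₁.V, ∀ x : M₁.V, r₁ (ι₁.hom x) = x) →
    ∃ (dM : {m : M₂.V // ∀ g : G, M₂.ρ g m = m} → H2 M)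
      (dH : (M ⟶ C) → H2 (homRep M₂ C)),
      Function.Surjective dM ∧ Function.Surjective dH ∧
      (∀ m, dM m = 0 ↔ IsNormElt M₂ m.1) ∧
      (∀ g : M ⟶ C, dH g = 0 ↔ IsNormHom g) ∧
      (∀ (g : M ⟶ C) (m : {m : M₂.V // ∀ g : G, M₂.ρ g m = m}),
        (push₂ (evHom M₂ C m.1 m.2)).hom (dH g) = (-1 : ℤ) • (push₂ g).hom (dM m))

/-- **(DS-Compat)** The cocycle identity behind the compatibility of the two double shifts:
with lifts `e₁ ↦ m`, `ι₁ ∘ a = d e₁`, `π ∘ ẽ = a`, `ι ∘ y = d ẽ` on the module side and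
`g̃ ∘ ι = g`, `b σ ∘ π = (d g̃) σ`, `b̃ σ ∘ ι₁ = b σ`, `z (σ, τ) ∘ π₁ = (d b̃) (σ, τ)` on the `Hom`
side, `z (σ, τ) m = - g (y (σ, τ)) + (d c) (σ, τ)` for
`c σ = b̃ σ e₁ + b σ (a σ) + g̃ (ẽ σ)`. -/
def StmtDSCompat : Prop :=
  ∀ (G : Type) [Group G] (M C E M₁ E₁ M₂ : Rep.{0} ℤ G)
    (ι : M ⟶ E) (π : E ⟶ M₁) (ι₁ : M₁ ⟶ E₁) (π₁ : E₁ ⟶ M₂),
    Function.Injective ι₁.hom → Function.Surjective π.hom →
    ∀ (e₁ : E₁.V) (a : G → M₁.V) (et : G → E.V) (y : G × G → M.V)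
      (g : M ⟶ C) (gt : E.V →+ C.V) (b : G → (M₁.V →+ C.V)) (bt : G → (E₁.V →+ C.V))
      (z : G × G → (M₂.V →+ C.V)),
      (∀ σ : G, ι₁.hom (a σ) = E₁.ρ σ e₁ - e₁) →
      (∀ σ : G, π.hom (et σ) = a σ) →
      (∀ σ τ : G, ι.hom (y (σ, τ)) = E.ρ σ (et τ) - et (σ * τ) + et σ) →
      (∀ m : M.V, gt (ι.hom m) = g.hom m) →
      (∀ (σ : G) (x : E.V), b σ (π.hom x) = C.ρ σ (gt (E.ρ σ⁻¹ x)) - gt x) →
      (∀ (σ : G) (x : M₁.V), bt σ (ι₁.hom x) = b σ x) →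
      (∀ (σ τ : G) (x : E₁.V), z (σ, τ) (π₁.hom x) =
        C.ρ σ (bt τ (E₁.ρ σ⁻¹ x)) - bt (σ * τ) x + bt σ x) →
      ∃ c : G → C.V, ∀ σ τ : G,
        z (σ, τ) (π₁.hom e₁) = - g.hom (y (σ, τ)) + (C.ρ σ (c τ) - c (σ * τ) + c σ)

end Fermat.Agent.PT
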