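/-
PT-A piece `DS`, final assembly (helper9):
`stmtDS_of : StmtDSAbs → StmtCoindWI → StmtShiftFree → StmtDS`
(`E = Coind_1^G M`, `M₁ = E / M`, `E₁ = Coind_1^G M₁`, `M₂ = E₁ / M₁`, sign `ε = -1`).
-/
import Fermat.Agent.PT.A.DSDefs
import Fermat.Agent.PT.A.DSCoind

set_option autoImplicit false

namespace Fermat.Agent.PT

open CategoryTheory groupCohomology

attribute [local instance 1100] Rep.hV2

theorem stmtDS_of (hAbs : StmtDSAbs) (hWI : StmtCoindWI) (hFree : StmtShiftFree) : StmtDS := by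
  intro G _ _ M C hM
  have hM₁ : IsZFree (SylowRes.shiftSC M).X₃ := hFree G M hM
  have hM₂ : IsZFree (SylowRes.shiftSC (SylowRes.shiftSC M).X₃).X₃ := hFree G _ hM₁
  obtain ⟨dM, dH, h1, h2, h3, h4, h5⟩ :=
    hAbs G M C (SylowRes.coindTriv M) (SylowRes.shiftSC M).X₃
      (SylowRes.coindTriv (SylowRes.shiftSC M).X₃)
      (SylowRes.shiftSC (SylowRes.shiftSC M).X₃).X₃
      (SylowRes.shiftSC M).f (SylowRes.shiftSC M).g
      (SylowRes.shiftSC (SylowRes.shiftSC M).X₃).f (SylowRes.shiftSC (SylowRes.shiftSC M).X₃).g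
      (SylowRes.shiftSC M).zero (SylowRes.shiftSC (SylowRes.shiftSC M).X₃).zero
      (SylowRes.shiftSC_shortExact M) (SylowRes.shiftSC_shortExact _)
      (hWI G M) (hWI G _)
      (coindTriv_retraction M) (coindTriv_retraction _)
  exact ⟨_, dM, dH, -1, hM₂, Or.inr rfl, h1, h2, h3, h4, h5⟩

end Fermat.Agent.PT
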