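import Fermat.Agent.PT.A.Plan2

/-!
# PT-A piece HOMEX: `Hom_ℤ(N, -)` preserves short exact sequences of `G`-modules when `N` is
`ℤ`-free of finite rank.

`stmtHomEx : StmtHomEx`.
-/

set_option autoImplicit false

namespace Fermat.Agent.PT

open CategoryTheory groupCohomology

attribute [local instance 1100] Rep.hV2

variable {G : Type} [Group G]

/-- Exactness of a short complex of `Rep ℤ G`, elementwise. -/
lemma homEx_exact_iff (S : ShortComplex (Rep.{0} ℤ G)) :
    S.Exact ↔ ∀ y : S.X₂.V, S.g.hom y = 0 → ∃ x : S.X₁.V, S.f.hom x = y := by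
  rw [← ShortComplex.exact_map_iff_of_faithful S (forget₂ (Rep.{0} ℤ G) (ModuleCat ℤ)),
    ShortComplex.moduleCat_exact_iff]
  rfl

/-- An additive map out of `Fin n → ℤ` with prescribed values on the standard basis. -/
noncomputable def homEx_lift {Y : Type} [AddCommGroup Y] (n : ℕ) (y : Fin n → Y) :
    (Fin n → ℤ) →+ Y :=
  ∑ i : Fin n, (zmultiplesHom Y (y i)).comp (Pi.evalAddMonoidHom (fun _ : Fin n => ℤ) i)

lemma homEx_lift_single {Y : Type} [AddCommGroup Y] (n : ℕ) (y : Fin n → Y) (i : Fin n) :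
    homEx_lift n y (Pi.single i 1) = y i := by
  classical
  simp only [homEx_lift, AddMonoidHom.finset_sum_apply, AddMonoidHom.comp_apply,
    Pi.evalAddMonoidHom_apply, zmultiplesHom_apply]
  rw [Finset.sum_eq_single i]
  · simp
  · intro j _ hj
    simp [Pi.single_eq_of_ne hj]
  · intro h; exact absurd (Finset.mem_univ i) h

/-- Two additive maps out of `Fin n → ℤ` agreeing on the standard basis are equal. -/
lemma homEx_ext {Y : Type} [AddCommGroup Y] (n : ℕ) (a b : (Fin n → ℤ) →+ Y)
    (h : ∀ i, a (Pi.single i 1) = b (Pi.single i 1)) : a = b := by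
  classical
  apply AddMonoidHom.functions_ext
  intro i k
  have h1 : ∀ c : (Fin n → ℤ) →+ Y, c (Pi.single i k) = k • c (Pi.single i 1) := by
    intro c
    rw [← map_zsmul c, ← Pi.single_smul, smul_eq_mul, mul_one]
  rw [h1 a, h1 b, h i]

/-- **(HOMEX)** -/
theorem stmtHomEx : StmtHomEx := by
  intro G _ N hN X Y Z f g w w' hS
  obtain ⟨n, ⟨e⟩⟩ := hN
  have hinj : Function.Injective f.hom := (Rep.mono_iff_injective f).1 hS.mono_f
  have hsurj : Function.Surjective g.hom := (Rep.epi_iff_surjective g).1 hS.epi_g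
  have hex : ∀ y : Y.V, g.hom y = 0 → ∃ x : X.V, f.hom x = y :=
    (homEx_exact_iff (ShortComplex.mk f g w)).1 hS.exact
  refine { exact := ?_, mono_f := ?_, epi_g := ?_ }
  · -- exactness in the middle
    rw [homEx_exact_iff]
    intro (ψ : N.V →+ Y.V) hψ
    have hψ' : ∀ m : N.V, g.hom (ψ m) = 0 := fun m => by
      have := DFunLike.congr_fun (show ((homRepMap N g).hom ψ : N.V →+ Z.V) = 0 from hψ) m
      exact this
    choose φ hφ using fun m => hex (ψ m) (hψ' m)
    refine ⟨(AddMonoidHom.mk' φ (fun a b => hinj ?_) : N.V →+ X.V), ?_⟩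
    · rw [map_add, hφ, hφ, hφ, map_add]
    · apply AddMonoidHom.ext
      intro m
      exact hφ m
  · -- mono
    refine (Rep.mono_iff_injective _).2 ?_
    intro (φ₁ : N.V →+ X.V) (φ₂ : N.V →+ X.V) h
    apply AddMonoidHom.ext
    intro m
    apply hinj
    have := DFunLike.congr_fun (show ((homRepMap N f).hom φ₁ : N.V →+ Y.V)
      = (homRepMap N f).hom φ₂ from h) m
    exact this
  · -- epi
    refine (Rep.epi_iff_surjective _).2 ?_
    intro (χ : N.V →+ Z.V)
    choose y hy using fun i : Fin n => hsurj (χ (e.symm (Pi.single i 1)))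
    refine ⟨((homEx_lift n y).comp e.toAddMonoidHom : N.V →+ Y.V), ?_⟩
    apply AddMonoidHom.ext
    intro m
    change g.hom (homEx_lift n y (e m)) = χ m
    have h1 : (homAdd g).comp (homEx_lift n y) = χ.comp e.symm.toAddMonoidHom := by
      apply homEx_ext
      intro i
      simp only [AddMonoidHom.comp_apply, homEx_lift_single, homAdd_apply, hy]
      rfl
    have h2 := DFunLike.congr_fun h1 (e m)
    simpa using h2

end Fermat.Agent.PT
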