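/-
PT-A piece `DS-Abs` (helper79): the double dimension shift for two additively split short exact
sequences `0 → M → E → M₁ → 0`, `0 → M₁ → E₁ → M₂ → 0` with weakly injective middle terms.

`dsMap h h₁ : A₂^G → H²(A₀)` is `δ₁ ∘ δ₀ ∘ H0Iso⁻¹`; it is computed on explicit lifts
(`IsDSLift`, `dsMap_eq_of_lift`), is surjective when `H¹(E₁) = H²(E) = 0` and, when `H¹(E) = 0`,
vanishes exactly on the images of the invariants of `E₁`.
`stmtDSAbs_of` : the sub-pieces `WI0, WI1, WI2, HomWI, HomPre, DSCompat` imply `StmtDSAbs`.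
-/
import Fermat.Agent.PT.A.DSDefs
import Fermat.Agent.PT.A.HomEx

set_option autoImplicit false

namespace Fermat.Agent.PT

open CategoryTheory groupCohomology

attribute [local instance 1100] Rep.hV2

variable {G : Type} [Group G]

section shift

variable {X : ShortComplex (Rep.{0} ℤ G)} (hX : X.ShortExact)

include hX in
/-- pointwise lifting along `X.g` -/
lemma dsAbs_exists_lift_g (z : X.X₃.V) : ∃ y : X.X₂.V, X.g.hom y = z :=
  (Rep.epi_iff_surjective X.g).1 hX.epi_g z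

include hX in
lemma dsAbs_exists_lift_f (y : X.X₂.V) (hy : X.g.hom y = 0) : ∃ x : X.X₁.V, X.f.hom x = y :=
  (homEx_exact_iff X).1 hX.exact y hy

include hX in
lemma dsAbs_f_injective : Function.Injective X.f.hom :=
  (Rep.mono_iff_injective X.f).1 hX.mono_f

include hX in
/-- Lifts for `δ₀`. -/
lemma dsAbs_exists_lift₀ (z : X.X₃.V) (hz : ∀ g : G, X.X₃.ρ g z = z) :
    ∃ (y : X.X₂.V) (x : G → X.X₁.V), X.g.hom y = z ∧ X.f.hom ∘ x = d₀₁ X.X₂ y := by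
  obtain ⟨y, hy⟩ := dsAbs_exists_lift_g hX z
  have h1 : ∀ g : G, X.g.hom (X.X₂.ρ g y - y) = 0 := by
    intro g
    rw [map_sub, Rep.hom_comm_apply, hy, hz, sub_self]
  choose x hx using fun g => dsAbs_exists_lift_f hX _ (h1 g)
  refine ⟨y, x, hy, ?_⟩
  funext g
  simp [hx]

include hX in
/-- Lifts for `δ₁`. -/
lemma dsAbs_exists_lift₁ (z : G → X.X₃.V) (hz : z ∈ cocycles₁ X.X₃) :
    ∃ (y : G → X.X₂.V) (x : G × G → X.X₁.V), X.g.hom ∘ y = z ∧ X.f.hom ∘ x = d₁₂ X.X₂ y := by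
  choose y hy using fun g => dsAbs_exists_lift_g hX (z g)
  have h1 : ∀ p : G × G, X.g.hom (d₁₂ X.X₂ y p) = 0 := by
    intro p
    have := (mem_cocycles₁_def z).1 hz p.1 p.2
    simp only [d₁₂_hom_apply, map_add, map_sub, Rep.hom_comm_apply, hy]
    rw [this]
  choose x hx using fun p => dsAbs_exists_lift_f hX _ (h1 p)
  exact ⟨y, x, funext hy, funext hx⟩

include hX in
/-- The connecting map `δ₀` vanishes exactly on the images of invariants. -/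
lemma dsAbs_δ₀_eq_zero_iff (z : X.X₃.ρ.invariants) :
    (δ hX 0 1 rfl).hom ((H0Iso X.X₃).inv.hom z) = 0 ↔
      ∃ y : X.X₂.V, (∀ g : G, X.X₂.ρ g y = y) ∧ X.g.hom y = z.1 := by
  constructor
  · intro h0
    obtain ⟨y, x, hy, hx⟩ := dsAbs_exists_lift₀ hX z.1 (fun g => z.2 g)
    have h1 := δ₀_apply hX z y hy x hx
    have h2 : H1π X.X₁ ⟨x, mem_cocycles₁_of_comp_eq_d₀₁ hX hx⟩ = 0 := by
      rw [← h1]; exact h0
    rw [H1π_eq_zero_iff] at h2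
    obtain ⟨x₀, hx₀⟩ := h2
    refine ⟨y - X.f.hom x₀, fun g => ?_, ?_⟩
    · have h3 := congrFun hx g
      have h4 := congrFun hx₀ g
      simp only [Function.comp_apply, d₀₁_hom_apply] at h3 h4
      change X.X₁.ρ g x₀ - x₀ = x g at h4
      rw [← h4, map_sub, Rep.hom_comm_apply] at h3
      rw [map_sub]
      have h5 : X.X₂.ρ g y = X.X₂.ρ g (X.f.hom x₀) - X.f.hom x₀ + y := by rw [h3]; abel
      rw [h5]; abel
    · rw [map_sub]
      have : X.g.hom (X.f.hom x₀) = 0 := by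
        have := X.zero
        have h5 := congrArg (fun φ => φ.hom x₀) this
        exact h5
      rw [this, sub_zero, hy]
  · rintro ⟨y, hy, hyz⟩
    have hx : X.f.hom ∘ (0 : G → X.X₁.V) = d₀₁ X.X₂ y := by
      funext g
      simp [hy g]
    have h1 := δ₀_apply hX z y hyz 0 hx
    refine Eq.trans h1 ?_
    have : (⟨0, mem_cocycles₁_of_comp_eq_d₀₁ hX hx⟩ : cocycles₁ X.X₁) = 0 := rfl
    rw [this, map_zero]

include hX in
lemma dsAbs_δ₀_surjective (h1 : Subsingleton (H1 X.X₂)) (c : H1 X.X₁) :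
    ∃ z : X.X₃.ρ.invariants, (δ hX 0 1 rfl).hom ((H0Iso X.X₃).inv.hom z) = c := by
  have : Epi (δ hX 0 1 rfl) := epi_δ_of_isZero hX 0 (ModuleCat.isZero_of_subsingleton _)
  obtain ⟨c', hc'⟩ := (ModuleCat.epi_iff_surjective (δ hX 0 1 rfl)).1 inferInstance c
  refine ⟨(H0Iso X.X₃).hom.hom c', ?_⟩
  rw [← hc']
  congr 1
  exact Iso.hom_inv_id_apply (H0Iso X.X₃) c'

include hX in
lemma dsAbs_δ₁_surjective (h2 : Subsingleton (H2 X.X₂)) :
    Function.Surjective (δ hX 1 2 rfl).hom := by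
  have : Epi (δ hX 1 2 rfl) := epi_δ_of_isZero hX 1 (ModuleCat.isZero_of_subsingleton _)
  exact (ModuleCat.epi_iff_surjective (δ hX 1 2 rfl)).1 inferInstance

include hX in
lemma dsAbs_δ₁_injective (h1 : Subsingleton (H1 X.X₂)) :
    Function.Injective (δ hX 1 2 rfl).hom := by
  have : Mono (δ hX 1 2 rfl) := mono_δ_of_isZero hX 1 (ModuleCat.isZero_of_subsingleton _)
  exact (ModuleCat.mono_iff_injective (δ hX 1 2 rfl)).1 inferInstance

end shift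

section double

variable {A₀ E A₁ E₁ A₂ : Rep.{0} ℤ G} {f : A₀ ⟶ E} {g : E ⟶ A₁} {f₁ : A₁ ⟶ E₁} {g₁ : E₁ ⟶ A₂}
  {w : f ≫ g = 0} {w₁ : f₁ ≫ g₁ = 0}
  (h : (ShortComplex.mk f g w).ShortExact) (h₁ : (ShortComplex.mk f₁ g₁ w₁).ShortExact)

/-- The double connecting map `A₂^G → H²(A₀)`. -/
noncomputable def dsMap (m : {m : A₂.V // ∀ γ : G, A₂.ρ γ m = m}) : H2 A₀ :=
  (δ h 1 2 rfl).hom ((δ h₁ 0 1 rfl).hom ((H0Iso A₂).inv.hom ⟨m.1, m.2⟩))

lemma dsMap_surjective (h1 : Subsingleton (H1 E₁)) (h2 : Subsingleton (H2 E)) :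
    Function.Surjective (dsMap h h₁) := by
  intro c
  obtain ⟨c₁, hc₁⟩ := dsAbs_δ₁_surjective h h2 c
  obtain ⟨z, hz⟩ := dsAbs_δ₀_surjective h₁ h1 c₁
  refine ⟨⟨z.1, z.2⟩, ?_⟩
  rw [← hc₁, ← hz]
  rfl

lemma dsMap_eq_zero_iff (h1 : Subsingleton (H1 E)) (m : {m : A₂.V // ∀ γ : G, A₂.ρ γ m = m}) :
    dsMap h h₁ m = 0 ↔ ∃ y : E₁.V, (∀ γ : G, E₁.ρ γ y = y) ∧ g₁.hom y = m.1 := by
  rw [← dsAbs_δ₀_eq_zero_iff h₁ ⟨m.1, m.2⟩]
  constructor
  · intro h0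
    apply dsAbs_δ₁_injective h h1
    rw [map_zero]
    exact h0
  · intro h0
    unfold dsMap
    rw [h0, map_zero]

/-- A system of lifts computing the double connecting map. -/
def IsDSLift (f : A₀ ⟶ E) (g : E ⟶ A₁) (f₁ : A₁ ⟶ E₁) (g₁ : E₁ ⟶ A₂) (m : A₂.V) (e₁ : E₁.V)
    (a : G → A₁.V) (et : G → E.V) (y : G × G → A₀.V) : Prop :=
  g₁.hom e₁ = m ∧ (∀ σ : G, f₁.hom (a σ) = E₁.ρ σ e₁ - e₁) ∧ (∀ σ : G, g.hom (et σ) = a σ) ∧
    (∀ σ τ : G, f.hom (y (σ, τ)) = E.ρ σ (et τ) - et (σ * τ) + et σ)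

include h h₁ in
lemma dsMap_exists_lift (m : {m : A₂.V // ∀ γ : G, A₂.ρ γ m = m}) :
    ∃ (e₁ : E₁.V) (a : G → A₁.V) (et : G → E.V) (y : G × G → A₀.V),
      IsDSLift f g f₁ g₁ m.1 e₁ a et y := by
  obtain ⟨e₁, a, he₁, ha⟩ := dsAbs_exists_lift₀ h₁ m.1 m.2
  have hac : a ∈ cocycles₁ A₁ := mem_cocycles₁_of_comp_eq_d₀₁ h₁ ha
  obtain ⟨et, y, het, hy⟩ := dsAbs_exists_lift₁ h a hac
  refine ⟨e₁, a, et, y, he₁, fun σ => ?_, fun σ => congrFun het σ, fun σ τ => ?_⟩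
  · have := congrFun ha σ
    simpa using this
  · have := congrFun hy (σ, τ)
    simpa using this

lemma dsMap_eq_of_lift (m : {m : A₂.V // ∀ γ : G, A₂.ρ γ m = m}) (e₁ : E₁.V)
    (a : G → A₁.V) (et : G → E.V) (y : G × G → A₀.V) (hl : IsDSLift f g f₁ g₁ m.1 e₁ a et y) :
    ∃ hy : y ∈ cocycles₂ A₀, dsMap h h₁ m = H2π A₀ ⟨y, hy⟩ := by
  obtain ⟨he₁, ha, het, hy⟩ := hl
  have ha' : (ShortComplex.mk f₁ g₁ w₁).f.hom ∘ a = d₀₁ (ShortComplex.mk f₁ g₁ w₁).X₂ e₁ := by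
    funext σ
    simpa using ha σ
  have k1 := δ₀_apply h₁ ⟨m.1, m.2⟩ e₁ he₁ a ha'
  have het' : (ShortComplex.mk f g w).g.hom ∘ et =
      (⟨a, mem_cocycles₁_of_comp_eq_d₀₁ h₁ ha'⟩ : cocycles₁ A₁) := funext het
  have hy' : (ShortComplex.mk f g w).f.hom ∘ y = d₁₂ (ShortComplex.mk f g w).X₂ et := by
    funext p
    simpa using hy p.1 p.2
  have k2 := δ₁_apply h ⟨a, mem_cocycles₁_of_comp_eq_d₀₁ h₁ ha'⟩ et het' y hy'
  refine ⟨mem_cocycles₂_of_comp_eq_d₁₂ h hy', ?_⟩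
  unfold dsMap
  refine Eq.trans ?_ k2
  congr 1

end double

section apply

lemma dsAbs_comp_zero {X Y Z : Rep.{0} ℤ G} (f : X ⟶ Y) (g : Y ⟶ Z) (w : f ≫ g = 0)
    (C : Rep.{0} ℤ G) : homRepPre g C ≫ homRepPre f C = 0 := by
  have hw : ∀ x, g.hom (f.hom x) = 0 := fun x => congrArg (fun φ => φ.hom x) w
  ext φ a
  change (φ : Z.V →+ C.V) (g.hom (f.hom a)) = 0
  rw [hw, map_zero]

/-- The push-forward of the class of a cocycle. -/
lemma dsAbs_push_H2π {A B : Rep.{0} ℤ G} (φ : A ⟶ B) (y : G × G → A.V) (hy : y ∈ cocycles₂ A) :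
    ∃ hy' : (fun p => φ.hom (y p)) ∈ cocycles₂ B,
      (push₂ φ).hom (H2π A ⟨y, hy⟩) = H2π B ⟨fun p => φ.hom (y p), hy'⟩ := by
  have key := H2π_comp_map_apply (MonoidHom.id G) φ ⟨y, hy⟩
  refine ⟨(mapCocycles₂ (MonoidHom.id G) φ ⟨y, hy⟩).2, ?_⟩
  exact key

/-- Two cocycles differing by a coboundary, up to sign. -/
lemma dsAbs_H2π_eq_neg (B : Rep.{0} ℤ G) (u v : G × G → B.V) (hu : u ∈ cocycles₂ B)
    (hv : v ∈ cocycles₂ B) (c : G → B.V)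
    (huv : ∀ σ τ : G, u (σ, τ) = - v (σ, τ) + (B.ρ σ (c τ) - c (σ * τ) + c σ)) :
    H2π B ⟨u, hu⟩ = (-1 : ℤ) • H2π B ⟨v, hv⟩ := by
  rw [← map_zsmul, H2π_eq_iff]
  refine ⟨c, ?_⟩
  funext p
  obtain ⟨σ, τ⟩ := p
  simp only [d₁₂_hom_apply]
  have := huv σ τ
  change B.ρ σ (c τ) - c (σ * τ) + c σ = u (σ, τ) - ((-1 : ℤ) • v) (σ, τ)
  rw [this]
  simp

/-- The morphism of representations attached to an invariant additive map. -/
noncomputable def dsAbs_mkHom (M C : Rep.{0} ℤ G) (φ : M.V →+ C.V)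
    (hφ : ∀ γ : G, (homRep M C).ρ γ φ = φ) : M ⟶ C :=
  ConcreteCategory.ofHom (C := Rep.{0} ℤ G) (X := M) (Y := C)
    (LinearMap.intertwiningMap_of_isIntertwiningMap (ρ := M.ρ) (σ := C.ρ) (f := addToLin φ)
      (fun γ m => by
        have := DFunLike.congr_fun (hφ γ) (M.ρ γ m)
        have h2 : C.ρ γ (φ (M.ρ γ⁻¹ (M.ρ γ m))) = φ (M.ρ γ m) := this
        have h3 : M.ρ γ⁻¹ (M.ρ γ m) = m := by
          rw [← Module.End.mul_apply, ← map_mul, inv_mul_cancel, map_one, Module.End.one_apply]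
        rw [h3] at h2
        exact h2.symm))

lemma dsAbs_mkHom_apply (M C : Rep.{0} ℤ G) (φ : M.V →+ C.V)
    (hφ : ∀ γ : G, (homRep M C).ρ γ φ = φ) (m : M.V) :
    (dsAbs_mkHom M C φ hφ).hom m = φ m := rfl

lemma dsAbs_homAdd_invariant {M C : Rep.{0} ℤ G} (g : M ⟶ C) (γ : G) :
    (homRep M C).ρ γ (homAdd g) = homAdd g := by
  apply AddMonoidHom.ext
  intro m
  change C.ρ γ (g.hom (M.ρ γ⁻¹ m)) = g.hom m
  rw [← Rep.hom_comm_apply, ← Module.End.mul_apply, ← map_mul, mul_inv_cancel, map_one,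
    Module.End.one_apply]

variable [Fintype G]

/-- A norm is invariant. -/
lemma dsAbs_norm_invariant (X : Rep.{0} ℤ G) (a : X.V) (σ : G) :
    X.ρ σ (∑ γ : G, X.ρ γ a) = ∑ γ : G, X.ρ γ a := by
  rw [map_sum]
  refine Fintype.sum_equiv (Equiv.mulLeft σ) _ _ fun γ => ?_
  simp only [Equiv.coe_mulLeft, map_mul, Module.End.mul_apply]

/-- **(DS-Abs)** from the sub-pieces. -/
theorem stmtDSAbs_of (h0 : StmtWI0) (h1 : StmtWI1) (h2 : StmtWI2) (hHW : StmtHomWI)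
    (hHP : StmtHomPre) (hC : StmtDSCompat) : StmtDSAbs := by
  intro G _ _ M C E M₁ E₁ M₂ ι π ι₁ π₁ w w₁ h h₁ hE hE₁ hr hr₁
  have w' : homRepPre π C ≫ homRepPre ι C = 0 := dsAbs_comp_zero ι π w C
  have w₁' : homRepPre π₁ C ≫ homRepPre ι₁ C = 0 := dsAbs_comp_zero ι₁ π₁ w₁ C
  have hH := hHP G C M E M₁ ι π w w' h hr
  have hH₁ := hHP G C M₁ E₁ M₂ ι₁ π₁ w₁ w₁' h₁ hr₁
  have e1 : Subsingleton (H1 E) := h1 G E hE
  have e2 : Subsingleton (H2 E) := h2 G E hE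
  have e1' : Subsingleton (H1 E₁) := h1 G E₁ hE₁
  have hHE : IsWI (homRep E C) := hHW G E C hE
  have hHE₁ : IsWI (homRep E₁ C) := hHW G E₁ C hE₁
  have f1 : Subsingleton (H1 (homRep E C)) := h1 G _ hHE
  have f1' : Subsingleton (H1 (homRep E₁ C)) := h1 G _ hHE₁
  have f2' : Subsingleton (H2 (homRep E₁ C)) := h2 G _ hHE₁
  refine ⟨dsMap h h₁, fun g => dsMap hH₁ hH ⟨homAdd g, dsAbs_homAdd_invariant g⟩,
    dsMap_surjective h h₁ e1' e2, ?_, ?_, ?_, ?_⟩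
  · -- surjectivity of dH
    intro c
    obtain ⟨⟨φ, hφ⟩, hc⟩ := dsMap_surjective hH₁ hH f1 f2' c
    refine ⟨dsAbs_mkHom M C φ hφ, ?_⟩
    rw [← hc]
    rfl
  · -- kernel of dM
    intro m
    rw [dsMap_eq_zero_iff h h₁ e1 m]
    constructor
    · rintro ⟨y, hy, hym⟩
      obtain ⟨a, ha⟩ := h0 G E₁ hE₁ y hy
      refine ⟨π₁.hom a, ?_⟩
      rw [← hym, ha, map_sum]
      refine Finset.sum_congr rfl fun γ _ => ?_
      rw [Rep.hom_comm_apply]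
    · rintro ⟨a', ha'⟩
      obtain ⟨e, he⟩ := dsAbs_exists_lift_g h₁ a'
      refine ⟨∑ γ : G, E₁.ρ γ e, dsAbs_norm_invariant E₁ e, ?_⟩
      rw [map_sum, ha']
      refine Finset.sum_congr rfl fun γ _ => ?_
      rw [Rep.hom_comm_apply]
      exact congrArg _ he
  · -- kernel of dH
    intro g
    rw [dsMap_eq_zero_iff hH₁ hH f1' ⟨homAdd g, dsAbs_homAdd_invariant g⟩]
    constructor
    · rintro ⟨φ, hφ, hφg⟩
      obtain ⟨ψ, hψ⟩ := h0 G (homRep E C) hHE φ hφ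
      refine ⟨(ψ : E.V →+ C.V).comp (homAdd ι), fun m => ?_⟩
      have k1 : g.hom m = (φ : E.V →+ C.V) (ι.hom m) := (DFunLike.congr_fun hφg m).symm
      rw [k1, normAdd_apply, hψ]
      have k2 : ((∑ γ : G, (homRep E C).ρ γ ψ : (homRep E C).V) : E.V →+ C.V) (ι.hom m) =
          ∑ γ : G, ((homRep E C).ρ γ ψ : E.V →+ C.V) (ι.hom m) :=
        AddMonoidHom.finsetSum_apply _ _ _
      refine k2.trans ?_
      refine Finset.sum_congr rfl fun γ _ => ?_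
      change C.ρ γ ((ψ : E.V →+ C.V) (E.ρ γ⁻¹ (ι.hom m))) = _
      rw [← Rep.hom_comm_apply]
      rfl
    · rintro ⟨hh, hg⟩
      obtain ⟨r, hr⟩ := hr
      refine ⟨∑ γ : G, (homRep E C).ρ γ (hh.comp r : E.V →+ C.V),
        dsAbs_norm_invariant (homRep E C) _, ?_⟩
      apply AddMonoidHom.ext
      intro m
      change ((∑ γ : G, (homRep E C).ρ γ (hh.comp r : E.V →+ C.V) : (homRep E C).V) :
        E.V →+ C.V) (ι.hom m) = g.hom m
      have k2 : ((∑ γ : G, (homRep E C).ρ γ (hh.comp r : E.V →+ C.V) : (homRep E C).V) :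
          E.V →+ C.V) (ι.hom m) =
          ∑ γ : G, ((homRep E C).ρ γ (hh.comp r : E.V →+ C.V) : E.V →+ C.V) (ι.hom m) :=
        AddMonoidHom.finsetSum_apply _ _ _
      rw [k2, hg m, normAdd_apply]
      refine Finset.sum_congr rfl fun γ _ => ?_
      change C.ρ γ (hh (r (E.ρ γ⁻¹ (ι.hom m)))) = _
      rw [← Rep.hom_comm_apply, hr]
  · -- compatibility
    intro g m
    obtain ⟨e₁, a, et, y, hl⟩ := dsMap_exists_lift h h₁ m
    obtain ⟨gt, b, bt, z, hl'⟩ :=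
      dsMap_exists_lift hH₁ hH ⟨homAdd g, dsAbs_homAdd_invariant g⟩
    obtain ⟨hy, hdM⟩ := dsMap_eq_of_lift h h₁ m e₁ a et y hl
    obtain ⟨hz, hdH⟩ := dsMap_eq_of_lift hH₁ hH _ gt b bt z hl'
    obtain ⟨hy', k1⟩ := dsAbs_push_H2π g y hy
    obtain ⟨hz', k2⟩ := dsAbs_push_H2π (evHom M₂ C m.1 m.2) z hz
    change (push₂ (evHom M₂ C m.1 m.2)).hom (dsMap hH₁ hH ⟨homAdd g, _⟩) =
      (-1 : ℤ) • (push₂ g).hom (dsMap h h₁ m)
    rw [hdM, hdH, k1, k2]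
    obtain ⟨c, hc⟩ := hC G M C E M₁ E₁ M₂ ι π ι₁ π₁ (dsAbs_f_injective h₁)
      ((Rep.epi_iff_surjective π).1 h.epi_g) e₁ a et y g gt b bt z hl.2.1 hl.2.2.1 hl.2.2.2
      (fun x => DFunLike.congr_fun hl'.1 x)
      (fun σ x => DFunLike.congr_fun (hl'.2.1 σ) x)
      (fun σ x => DFunLike.congr_fun (hl'.2.2.1 σ) x)
      (fun σ τ x => DFunLike.congr_fun (hl'.2.2.2 σ τ) x)
    apply dsAbs_H2π_eq_neg C _ _ hz' hy' c
    intro σ τ
    have := hc σ τ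
    rw [hl.1] at this
    exact this

end apply

end Fermat.Agent.PT
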