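/-
PT-A piece `DS-Compat` (helper60): the cocycle identity behind the compatibility of the two
double dimension shifts.

With `d f (σ, τ) = σ • f τ - f (σ τ) + f σ`:
 1. `a`, `b` are cocycles (`ι₁` injective, `π` surjective) and `a σ⁻¹ = - σ⁻¹ • a σ`;
 2. `σ⁻¹ • e₁ = e₁ + ι₁ (a σ⁻¹)`, so `z (σ, τ) (π₁ e₁) = d β - P` with `β σ = b̃ σ e₁` and
    `P = σ • b τ (σ⁻¹ • a σ) = b (σ τ) (a σ) - b σ (a σ)`;
 3. with `w σ = b σ (a σ)` and `Q = b σ (σ • a τ)`: `P + Q = - d w`;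
 4. `Q = σ • g̃ (ẽ τ) - g̃ (σ • ẽ τ) = d γ - g (y)` with `γ σ = g̃ (ẽ σ)`.
Hence `z (σ, τ) (π₁ e₁) = - g (y (σ, τ)) + d (β + w + γ) (σ, τ)`.
-/
import Fermat.Agent.PT.A.DSDefs

set_option autoImplicit false

namespace Fermat.Agent.PT

open CategoryTheory groupCohomology

attribute [local instance 1100] Rep.hV2

/-- **(DS-Compat)** The cocycle identity behind the compatibility of the two double shifts. -/
theorem stmtDSCompat : StmtDSCompat := by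
  intro G _ M C E M₁ E₁ M₂ ι π ι₁ π₁ hι₁ hπ e₁ a et y g gt b bt z ha het hy hgt hb hbt hz
  -- `a` is a cocycle
  have ha_coc : ∀ σ τ : G, a (σ * τ) = M₁.ρ σ (a τ) + a σ := by
    intro σ τ
    apply hι₁
    rw [map_add, Rep.hom_comm_apply, ha, ha, ha, map_mul, Module.End.mul_apply, map_sub]
    abel
  -- `a σ⁻¹ = - σ⁻¹ • a σ`
  have ha_inv : ∀ σ : G, a σ⁻¹ = - M₁.ρ σ⁻¹ (a σ) := by
    intro σ
    apply hι₁
    rw [map_neg, Rep.hom_comm_apply, ha, ha, map_sub]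
    have : E₁.ρ σ⁻¹ (E₁.ρ σ e₁) = e₁ := by
      rw [← Module.End.mul_apply, ← map_mul, inv_mul_cancel, map_one, Module.End.one_apply]
    rw [this]
    abel
  -- `b` is a cocycle
  have hb_coc : ∀ (σ τ : G) (x : M₁.V),
      b (σ * τ) x = C.ρ σ (b τ (M₁.ρ σ⁻¹ x)) + b σ x := by
    intro σ τ x
    obtain ⟨x', rfl⟩ := hπ x
    rw [← Rep.hom_comm_apply, hb, hb, hb, map_sub, mul_inv_rev, map_mul (E.ρ),
      Module.End.mul_apply, map_mul (C.ρ), Module.End.mul_apply]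
    abel
  -- `σ⁻¹ • e₁ = e₁ + ι₁ (a σ⁻¹)`
  have he₁ : ∀ σ : G, E₁.ρ σ⁻¹ e₁ = e₁ + ι₁.hom (a σ⁻¹) := by
    intro σ
    rw [ha]
    abel
  refine ⟨fun σ => bt σ e₁ + b σ (a σ) + gt (et σ), ?_⟩
  intro σ τ
  -- the term `P`
  have hP : C.ρ σ (b τ (M₁.ρ σ⁻¹ (a σ))) = b (σ * τ) (a σ) - b σ (a σ) := by
    rw [hb_coc σ τ (a σ)]
    abel
  -- the term `Q`
  have hQ : b σ (M₁.ρ σ (a τ)) = C.ρ σ (gt (et τ)) - gt (E.ρ σ (et τ)) := by
    rw [← het τ, ← Rep.hom_comm_apply, hb]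
    have : E.ρ σ⁻¹ (E.ρ σ (et τ)) = et τ := by
      rw [← Module.End.mul_apply, ← map_mul, inv_mul_cancel, map_one, Module.End.one_apply]
    rw [this]
  -- `b (σ τ) (σ • a τ) = σ • b τ (a τ) + Q`
  have hR : b (σ * τ) (M₁.ρ σ (a τ)) = C.ρ σ (b τ (a τ)) + b σ (M₁.ρ σ (a τ)) := by
    rw [hb_coc σ τ]
    have : M₁.ρ σ⁻¹ (M₁.ρ σ (a τ)) = a τ := by
      rw [← Module.End.mul_apply, ← map_mul, inv_mul_cancel, map_one, Module.End.one_apply]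
    rw [this]
  -- `g (y (σ, τ))`
  have hg : g.hom (y (σ, τ)) = gt (E.ρ σ (et τ)) - gt (et (σ * τ)) + gt (et σ) := by
    rw [← hgt, hy, map_add, map_sub]
  -- the left-hand side
  have hz' : z (σ, τ) (π₁.hom e₁) =
      C.ρ σ (bt τ e₁) + C.ρ σ (b τ (a σ⁻¹)) - bt (σ * τ) e₁ + bt σ e₁ := by
    rw [hz, he₁ σ, map_add, hbt, map_add]
  have hw : b (σ * τ) (a (σ * τ)) = b (σ * τ) (M₁.ρ σ (a τ)) + b (σ * τ) (a σ) := by
    rw [ha_coc, map_add]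
  have hneg : C.ρ σ (b τ (a σ⁻¹)) = - C.ρ σ (b τ (M₁.ρ σ⁻¹ (a σ))) := by
    rw [ha_inv, map_neg, map_neg]
  rw [hz', hneg, hP, hg]
  simp only [map_add]
  rw [hw, hR, hQ]
  abel

end Fermat.Agent.PT
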