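import Fermat.Agent.PT.A.DSDefs
import Fermat.Agent.PT.A.DSCoind
import Fermat.Agent.PT.A.HomEx

/-!
# PT-A piece DS-Free: the cokernel of `A → Coind_1^G A` is `ℤ`-free of finite rank when `A` is.

`stmtShiftFree : StmtShiftFree`.

The additive map `f ↦ (x ↦ f x - x • f 1)` identifies the cokernel with the functions
`G ∖ {1} → A`.
-/

set_option autoImplicit false

namespace Fermat.Agent.PT.DSFree

open CategoryTheory groupCohomology Limits
open Fermat.Agent.PT.SylowRes Fermat.Agent.PT.HomCoind Fermat.Agent.PT.DSCoind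

attribute [local instance 1100] Rep.hV2

/-- Two surjective additive maps with the same kernel have isomorphic targets. -/
lemma addEquiv_of_surjective_of_ker {Y Z W : Type} [AddCommGroup Y] [AddCommGroup Z]
    [AddCommGroup W] (π : Y →+ Z) (q : Y →+ W) (hπ : Function.Surjective π)
    (hq : Function.Surjective q) (h : ∀ y, π y = 0 ↔ q y = 0) : Nonempty (Z ≃+ W) := by
  have hker : π.ker = q.ker := by
    ext y
    simp only [AddMonoidHom.mem_ker]
    exact h y
  exact ⟨(QuotientAddGroup.quotientKerEquivOfSurjective π hπ).symm.trans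
    ((QuotientAddGroup.quotientAddEquivOfEq hker).trans
      (QuotientAddGroup.quotientKerEquivOfSurjective q hq))⟩

/-- Functions from a finite type into a `ℤ`-free group of finite rank form a `ℤ`-free group of
finite rank. -/
lemma isZFree_pi (X : Type) [AddCommGroup X] (ι : Type) [Fintype ι]
    (hX : ∃ n : ℕ, Nonempty (X ≃+ (Fin n → ℤ))) :
    ∃ m : ℕ, Nonempty ((ι → X) ≃+ (Fin m → ℤ)) := by
  obtain ⟨n, ⟨e⟩⟩ := hX
  refine ⟨Fintype.card (ι × Fin n), ⟨?_⟩⟩
  have e1 : (ι → X) ≃+ (ι → Fin n → ℤ) := AddEquiv.piCongrRight (fun _ => e)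
  have e2 : (ι → Fin n → ℤ) ≃+ (ι × Fin n → ℤ) :=
    (LinearEquiv.curry ℤ ℤ ι (Fin n)).symm.toAddEquiv
  have e3 : (ι × Fin n → ℤ) ≃+ (Fin (Fintype.card (ι × Fin n)) → ℤ) :=
    (LinearEquiv.funCongrLeft ℤ ℤ (Fintype.equivFin (ι × Fin n)).symm).toAddEquiv
  exact e1.trans (e2.trans e3)

variable {G : Type} [Group G]

/-- `f ↦ (x ↦ f x - x • f 1)` on `G ∖ {1}`. -/
noncomputable def qAdd (A : Rep.{0} ℤ G) : (coindTriv A).V →+ ({x : G // x ≠ 1} → A.V) where
  toFun f := fun x => f.1 x.1 - A.ρ x.1 (f.1 1)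
  map_zero' := by
    funext x
    change (0 : A.V) - A.ρ x.1 (0 : A.V) = 0
    simp
  map_add' f g := by
    funext x
    change (f.1 x.1 + g.1 x.1) - A.ρ x.1 (f.1 1 + g.1 1) =
      (f.1 x.1 - A.ρ x.1 (f.1 1)) + (g.1 x.1 - A.ρ x.1 (g.1 1))
    rw [map_add]
    abel

lemma qAdd_apply (A : Rep.{0} ℤ G) (f : (coindTriv A).V) (x : {x : G // x ≠ 1}) :
    qAdd A f x = f.1 x.1 - A.ρ x.1 (f.1 1) := rfl

lemma qAdd_surjective (A : Rep.{0} ℤ G) : Function.Surjective (qAdd A) := by
  classical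
  intro w
  refine ⟨mkCoind A (fun x => if h : x = 1 then 0 else w ⟨x, h⟩), ?_⟩
  funext x
  rw [qAdd_apply, mkCoind_val, mkCoind_val, dif_neg x.2, dif_pos rfl, map_zero, sub_zero]

lemma qAdd_eq_zero_iff (A : Rep.{0} ℤ G) (f : (coindTriv A).V) :
    qAdd A f = 0 ↔ ∃ a : A.V, (unitHom A).hom a = f := by
  constructor
  · intro h
    refine ⟨f.1 1, ?_⟩
    apply coindTriv_ext
    intro x
    rw [unitHom_apply]
    by_cases hx : x = 1
    · subst hx
      rw [map_one]
      rfl
    · have := congrFun h ⟨x, hx⟩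
      rw [qAdd_apply] at this
      exact (sub_eq_zero.1 this).symm
  · rintro ⟨a, rfl⟩
    funext x
    rw [qAdd_apply, unitHom_apply, unitHom_apply, map_one]
    change A.ρ x.1 a - A.ρ x.1 a = 0
    exact sub_self _

end Fermat.Agent.PT.DSFree

namespace Fermat.Agent.PT

open CategoryTheory groupCohomology Limits
open Fermat.Agent.PT.SylowRes Fermat.Agent.PT.HomCoind Fermat.Agent.PT.DSCoind
  Fermat.Agent.PT.DSFree

attribute [local instance 1100] Rep.hV2

/-- **(DS-ShiftFree)** -/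
theorem stmtShiftFree : StmtShiftFree := by
  classical
  intro G _ _ A hA
  have hS := shiftSC_shortExact A
  have hsurj : Function.Surjective (cokernel.π (unitHom A)).hom :=
    (Rep.epi_iff_surjective _).1 hS.epi_g
  have hex : ∀ y : (coindTriv A).V, (cokernel.π (unitHom A)).hom y = 0 →
      ∃ x : A.V, (unitHom A).hom x = y :=
    (homEx_exact_iff (shiftSC A)).1 hS.exact
  have hzero : ∀ a : A.V, (cokernel.π (unitHom A)).hom ((unitHom A).hom a) = 0 := by
    intro a
    have := cokernel.condition (unitHom A)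
    exact congr($(this).hom a)
  obtain ⟨e⟩ := addEquiv_of_surjective_of_ker (homAdd (cokernel.π (unitHom A))) (qAdd A)
    hsurj (qAdd_surjective A) (fun y => by
      rw [qAdd_eq_zero_iff]
      constructor
      · intro h
        exact hex y h
      · rintro ⟨a, rfl⟩
        exact hzero a)
  obtain ⟨m, ⟨e'⟩⟩ := isZFree_pi A.V {x : G // x ≠ 1} hA
  exact ⟨m, ⟨e.trans e'⟩⟩

end Fermat.Agent.PT
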