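/-
PT-A piece `DS`, sub-piece `DS-HomPre` (helper9): `Hom(-, C)` turns an additively split short
exact sequence into a short exact sequence.  `stmtHomPre : StmtHomPre`.
-/
import Fermat.Agent.PT.A.DSDefs

set_option autoImplicit false

namespace Fermat.Agent.PT

open CategoryTheory groupCohomology

attribute [local instance 1100] Rep.hV2

variable {G : Type} [Group G]

/-- Exactness of a short complex of `Rep ℤ G`, elementwise. -/
lemma homPre_exact_iff (S : ShortComplex (Rep.{0} ℤ G)) :
    S.Exact ↔ ∀ y : S.X₂.V, S.g.hom y = 0 → ∃ x : S.X₁.V, S.f.hom x = y := by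
  rw [← ShortComplex.exact_map_iff_of_faithful S (forget₂ (Rep.{0} ℤ G) (ModuleCat ℤ)),
    ShortComplex.moduleCat_exact_iff]
  rfl

/-- **(DS-HomPre)** -/
theorem stmtHomPre : StmtHomPre := by
  intro G _ C X Y Z f g w w' hS hr
  obtain ⟨r, hr⟩ := hr
  have hsurj : Function.Surjective g.hom := (Rep.epi_iff_surjective g).1 hS.epi_g
  have hex : ∀ y : Y.V, g.hom y = 0 → ∃ x : X.V, f.hom x = y :=
    (homPre_exact_iff (ShortComplex.mk f g w)).1 hS.exact
  refine { exact := ?_, mono_f := ?_, epi_g := ?_ }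
  · -- exactness in the middle
    rw [homPre_exact_iff]
    intro (ψ : Y.V →+ C.V) hψ
    have hψ' : ∀ x : X.V, ψ (f.hom x) = 0 := fun x => by
      have := DFunLike.congr_fun (show ((homRepPre f C).hom ψ : X.V →+ C.V) = 0 from hψ) x
      exact this
    have hker : ∀ y : Y.V, g.hom y = 0 → ψ y = 0 := by
      intro y hy
      obtain ⟨x, rfl⟩ := hex y hy
      exact hψ' x
    choose s hs using hsurj
    have hwd : ∀ y : Y.V, ψ (s (g.hom y)) = ψ y := by
      intro y
      have : ψ (s (g.hom y) - y) = 0 := hker _ (by rw [map_sub, hs, sub_self])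
      rw [map_sub, sub_eq_zero] at this
      exact this
    refine ⟨(AddMonoidHom.mk' (fun z => ψ (s z)) (fun a b => ?_) : Z.V →+ C.V), ?_⟩
    · have : ψ (s (a + b) - s a - s b) = 0 :=
        hker _ (by rw [map_sub, map_sub, hs, hs, hs]; abel)
      rw [map_sub, map_sub, sub_sub, sub_eq_zero] at this
      exact this
    · apply AddMonoidHom.ext
      intro y
      exact hwd y
  · -- mono
    refine (Rep.mono_iff_injective _).2 ?_
    intro (φ₁ : Z.V →+ C.V) (φ₂ : Z.V →+ C.V) h
    apply AddMonoidHom.ext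
    intro z
    obtain ⟨y, rfl⟩ := hsurj z
    have := DFunLike.congr_fun (show ((homRepPre g C).hom φ₁ : Y.V →+ C.V)
      = (homRepPre g C).hom φ₂ from h) y
    exact this
  · -- epi
    refine (Rep.epi_iff_surjective _).2 ?_
    intro (χ : X.V →+ C.V)
    refine ⟨(χ.comp r : Y.V →+ C.V), ?_⟩
    apply AddMonoidHom.ext
    intro x
    change χ (r (f.hom x)) = χ x
    rw [hr]

end Fermat.Agent.PT
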