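/-
PT-A piece `NORM0` (helper60): push-forward along the norm of an additive map is zero on `H²`.

For a `2`-cocycle `y` of `M` and `g = N(h) = ∑ γ, γ ∘ h ∘ γ⁻¹` put
`b σ = ∑ γ, γ • h (y (γ⁻¹, σ))`. The cocycle identity at `(γ⁻¹, σ, τ)` gives
`γ⁻¹ • y (σ, τ) = y (γ⁻¹ σ, τ) - y (γ⁻¹, σ τ) + y (γ⁻¹, σ)`, hence
`g (y (σ, τ)) = σ • b τ - b (σ τ) + b σ`, i.e. `g ∘ y = d b`.
-/
import Fermat.Agent.PT.A.Plan2

set_option autoImplicit false

namespace Fermat.Agent.PT

open CategoryTheory groupCohomology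

attribute [local instance 1100] Rep.hV2

/-- The `1`-cochain `b σ = ∑ γ, γ • h (y (γ⁻¹, σ))` bounding `N(h) ∘ y`. -/
noncomputable def normZeroCochain {G : Type} [Group G] [Fintype G] (M C : Rep.{0} ℤ G)
    (h : M.V →+ C.V) (y : G × G → M.V) : G → C.V :=
  fun σ => ∑ γ : G, C.ρ γ (h (y (γ⁻¹, σ)))

/-- The key identity `N(h) (y (σ, τ)) = σ • b τ - b (σ τ) + b σ` for a `2`-cocycle `y`. -/
theorem normZero_key {G : Type} [Group G] [Fintype G] (M C : Rep.{0} ℤ G)
    (h : M.V →+ C.V) (y : G × G → M.V) (hy : y ∈ cocycles₂ M) (σ τ : G) :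
    normAdd M C h (y (σ, τ)) =
      C.ρ σ (normZeroCochain M C h y τ) - normZeroCochain M C h y (σ * τ) +
        normZeroCochain M C h y σ := by
  have hcoc : ∀ γ : G, M.ρ γ⁻¹ (y (σ, τ)) =
      y (γ⁻¹ * σ, τ) - y (γ⁻¹, σ * τ) + y (γ⁻¹, σ) := by
    intro γ
    have := (mem_cocycles₂_def y).1 hy γ⁻¹ σ τ
    rw [sub_eq_zero] at this
    rw [← sub_eq_zero, ← this]
    abel
  have h1 : C.ρ σ (normZeroCochain M C h y τ) =
      ∑ γ : G, C.ρ γ (h (y (γ⁻¹ * σ, τ))) := by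
    simp only [normZeroCochain, map_sum]
    refine Fintype.sum_equiv (Equiv.mulLeft σ) _ _ fun δ => ?_
    simp only [Equiv.coe_mulLeft, mul_inv_rev, inv_mul_cancel_right, map_mul,
      Module.End.mul_apply]
  rw [normAdd_apply, h1]
  simp only [normZeroCochain, ← Finset.sum_sub_distrib, ← Finset.sum_add_distrib]
  refine Finset.sum_congr rfl fun γ _ => ?_
  rw [hcoc γ]
  simp only [map_add, map_sub]

/-- **(NORM0)** Push-forward along the norm of an additive map is zero on `H²`. -/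
theorem stmtNormZero : StmtNormZero := by
  intro G _ _ M C g hg y
  obtain ⟨h, hgh⟩ := hg
  induction y using H2_induction_on with
  | h x =>
    have key := H2π_comp_map_apply (MonoidHom.id G) g x
    rw [key, H2π_eq_zero_iff]
    refine ⟨normZeroCochain M C h x, ?_⟩
    funext στ
    obtain ⟨σ, τ⟩ := στ
    have h2 := normZero_key M C h x x.2 σ τ
    simp only [d₁₂_hom_apply]
    rw [← h2, ← hgh]
    rfl

end Fermat.Agent.PT
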