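/-
PT-A piece `DS`, sub-piece `DS-WI` (helper9): weakly injective modules.
`stmtWI0`, `stmtWI1`, `stmtWI2`, `stmtHomWI`.
-/
import Fermat.Agent.PT.A.DSDefs
import Fermat.Agent.PT.A.NormZero

set_option autoImplicit false

namespace Fermat.Agent.PT

open CategoryTheory groupCohomology

attribute [local instance 1100] Rep.hV2

/-- **(DS-WI0)** In a weakly injective module every invariant is a norm. -/
theorem stmtWI0 : StmtWI0 := by
  intro G _ _ X hX x hx
  obtain ⟨h, hh⟩ := hX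
  refine ⟨h x, ?_⟩
  have := hh x
  simp only [hx] at this
  exact this.symm

/-- **(DS-WI1)** `H¹` of a weakly injective module vanishes. -/
theorem stmtWI1 : StmtWI1 := by
  intro G _ _ X hX
  obtain ⟨h, hh⟩ := hX
  refine ⟨fun a b => ?_⟩
  suffices H : ∀ x : H1 X, x = 0 by rw [H a, H b]
  intro x
  induction x using H1_induction_on with
  | h y =>
    rw [H1π_eq_zero_iff]
    have hcoc : ∀ σ τ : G, y (σ * τ) = X.ρ σ (y τ) + y σ := (mem_cocycles₁_iff y).1 y.2
    refine ⟨-∑ γ : G, X.ρ γ (h (X.ρ γ⁻¹ (y γ))), ?_⟩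
    funext σ
    have h1 : X.ρ σ (∑ γ : G, X.ρ γ (h (X.ρ γ⁻¹ (y γ)))) =
        ∑ γ : G, X.ρ γ (h (X.ρ γ⁻¹ (y γ - y σ))) := by
      rw [map_sum]
      refine Fintype.sum_equiv (Equiv.mulLeft σ) _ _ fun δ => ?_
      have e1 : y (σ * δ) - y σ = X.ρ σ (y δ) := by rw [hcoc]; abel
      simp only [Equiv.coe_mulLeft, e1, mul_inv_rev, map_mul, Module.End.mul_apply]
      congr 2
      rw [← Module.End.mul_apply, ← map_mul]
      simp
    have h2 : ∑ γ : G, X.ρ γ (h (X.ρ γ⁻¹ (y γ - y σ))) =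
        ∑ γ : G, X.ρ γ (h (X.ρ γ⁻¹ (y γ))) - y σ := by
      simp only [map_sub, Finset.sum_sub_distrib]
      rw [hh (y σ)]
    simp only [d₀₁_hom_apply, map_neg]
    rw [h1, h2]
    abel

/-- **(DS-WI2)** `H²` of a weakly injective module vanishes. -/
theorem stmtWI2 : StmtWI2 := by
  intro G _ _ X hX
  obtain ⟨h, hh⟩ := hX
  have hN : IsNormHom (𝟙 X) := by
    refine ⟨h, fun m => ?_⟩
    rw [normAdd_apply, hh m]
    rfl
  have key := stmtNormZero G X X (𝟙 X) hN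
  refine ⟨fun a b => ?_⟩
  suffices H : ∀ x : H2 X, x = 0 by rw [H a, H b]
  intro x
  have hx := key x
  have hid : push₂ (𝟙 X) = 𝟙 (H2 X) := groupCohomology.map_id 2
  rw [hid] at hx
  exact hx

/-- **(DS-HomWI)** `Hom(E, C)` is weakly injective when `E` is. -/
theorem stmtHomWI : StmtHomWI := by
  intro G _ _ E C hE
  obtain ⟨h, hh⟩ := hE
  refine ⟨preAdd C.V h, fun φ => ?_⟩
  change ∑ γ : G, (homRepρ E C γ) (preAdd C.V h ((homRepρ E C γ⁻¹) φ)) = φ
  ext e
  rw [AddMonoidHom.finsetSum_apply]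
  have : ∀ γ : G, ((homRepρ E C γ) (preAdd C.V h ((homRepρ E C γ⁻¹) φ))) e =
      φ (E.ρ γ (h (E.ρ γ⁻¹ e))) := by
    intro γ
    simp only [homRepρ_apply, preAdd_apply, inv_inv]
    rw [← Module.End.mul_apply, ← map_mul]
    simp
  simp only [this]
  rw [← map_sum, hh e]

end Fermat.Agent.PT
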