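/-
PT-A piece `DS` (double dimension shift with compatibility), unconditional:
`stmtDSAbs : StmtDSAbs` and `stmtDS : StmtDS`, assembled from the sub-pieces
`DSWI` (helper9), `DSHomPre` (helper9), `DSCompat` (helper60), `DSCoind`, `DSFree` (helper87),
`DSAbs` (helper79) and `DS` (`stmtDS_of`, helper9).
-/
import Fermat.Agent.PT.A.DSAbs
import Fermat.Agent.PT.A.DSWI
import Fermat.Agent.PT.A.DSHomPre
import Fermat.Agent.PT.A.DSCompat
import Fermat.Agent.PT.A.DSCoind
import Fermat.Agent.PT.A.DSFree
import Fermat.Agent.PT.A.DS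

set_option autoImplicit false

namespace Fermat.Agent.PT

/-- **(DS-Abs)**, unconditional. -/
theorem stmtDSAbs : StmtDSAbs :=
  stmtDSAbs_of stmtWI0 stmtWI1 stmtWI2 stmtHomWI stmtHomPre stmtDSCompat

/-- **(DS)** Double dimension shift with compatibility, unconditional. -/
theorem stmtDS : StmtDS :=
  stmtDS_of stmtDSAbs stmtCoindWI stmtShiftFree

end Fermat.Agent.PT
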