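/-
PT-A piece `FpCT`, part 1 (helper32): linear algebra over `𝔽_p` and the fixed point lemma for
finite `p`-groups (a nonzero stable subgroup of a module killed by `p` contains a nonzero
invariant).
-/
import Fermat.Agent.PT.A.Plan2
import Fermat.Agent.PT.A.Sylow

set_option autoImplicit false
set_option linter.style.haveILetI false

namespace Fermat.Agent.PT.FpCT

open CategoryTheory groupCohomology Limits

attribute [local instance 1100] Rep.hV2

lemma nsmul_eq_zero_of_zmod {p : ℕ} {V : Type} [AddCommGroup V] [Module (ZMod p) V] (v : V) :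
    p • v = 0 := by
  have h := Nat.cast_smul_eq_nsmul (ZMod p) p v
  rw [← h, ZMod.natCast_self, zero_smul]

theorem exists_fixed_ne_zero_aux {p : ℕ} [Fact p.Prime] {G : Type} [Group G] [Finite G]
    (hG : IsPGroup p G) {V : Type} [AddCommGroup V] [Module ℤ V] [Module (ZMod p) V]
    (ρ : Representation ℤ G V)
    (K : AddSubgroup V) (hK : ∀ (g : G) (v : V), v ∈ K → ρ g v ∈ K)
    {x : V} (hxK : x ∈ K) (hx : x ≠ 0) :
    ∃ y : V, y ∈ K ∧ y ≠ 0 ∧ ∀ g : G, ρ g y = y := by
  classical
  let W : Submodule (ZMod p) V := Submodule.span (ZMod p) (Set.range fun g : G => ρ g x)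
  have hWfin : Module.Finite (ZMod p) ↥W :=
    Module.Finite.span_of_finite (ZMod p) (Set.finite_range fun g : G => ρ g x)
  have hfin : Finite ↥W := Module.finite_of_finite (ZMod p)
  have hWK : ∀ w ∈ W, w ∈ K := by
    intro w hw
    have : W ≤ AddSubgroup.toZModSubmodule p K := by
      apply Submodule.span_le.2
      rintro _ ⟨g, rfl⟩
      exact hK g x hxK
    exact this hw
  have hstab : ∀ (g : G) (w : V), w ∈ W → ρ g w ∈ W := by
    intro g w hw
    induction hw using Submodule.span_induction with
    | mem v hv =>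
      obtain ⟨h, rfl⟩ := hv
      apply Submodule.subset_span
      refine ⟨g * h, ?_⟩
      simp
    | zero => simp
    | add a b _ _ ha hb => rw [map_add]; exact W.add_mem ha hb
    | smul c a _ ha =>
      have : ρ g (c • a) = c • ρ g a := ZMod.map_smul (ρ g).toAddMonoidHom c a
      rw [this]
      exact W.smul_mem c ha
  letI : MulAction G ↥W :=
    { smul := fun g w => ⟨ρ g w.1, hstab g w.1 w.2⟩
      one_smul := fun w => by
        apply Subtype.ext
        change ρ 1 w.1 = w.1
        simp
      mul_smul := fun g h w => by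
        apply Subtype.ext
        change ρ (g * h) w.1 = ρ g (ρ h w.1)
        simp }
  have hxW : x ∈ W := Submodule.subset_span ⟨1, by simp⟩
  have hdvd : p ∣ Nat.card ↥W := by
    have h1 : addOrderOf (⟨x, hxW⟩ : ↥W) = p := by
      apply addOrderOf_eq_prime
      · apply Subtype.ext
        simpa using nsmul_eq_zero_of_zmod (p := p) x
      · intro h
        exact hx (congrArg Subtype.val h)
    have h2 := addOrderOf_dvd_natCard (⟨x, hxW⟩ : ↥W)
    rwa [h1] at h2
  have h0 : (0 : ↥W) ∈ MulAction.fixedPoints G ↥W := by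
    intro g
    apply Subtype.ext
    change ρ g 0 = 0
    simp
  obtain ⟨b, hb, hb0⟩ := hG.exists_fixed_point_of_prime_dvd_card_of_fixed_point ↥W hdvd h0
  refine ⟨b.1, hWK _ b.2, ?_, ?_⟩
  · intro h
    exact hb0 (Subtype.ext h.symm)
  · intro g
    exact congrArg Subtype.val (hb g)

/-- **Fixed point lemma**: a finite `p`-group acting additively on an abelian group killed by
`p` fixes a nonzero element of every nonzero stable subgroup. -/
theorem exists_fixed_ne_zero {p : ℕ} [Fact p.Prime] {G : Type} [Group G] [Finite G]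
    (hG : IsPGroup p G) {V : Type} [AddCommGroup V] [Module ℤ V] (ρ : Representation ℤ G V)
    (hp : ∀ v : V, p • v = 0) (K : AddSubgroup V) (hK : ∀ (g : G) (v : V), v ∈ K → ρ g v ∈ K)
    {x : V} (hxK : x ∈ K) (hx : x ≠ 0) :
    ∃ y : V, y ∈ K ∧ y ≠ 0 ∧ ∀ g : G, ρ g y = y :=
  @exists_fixed_ne_zero_aux p _ G _ _ hG V _ _ (AddCommGroup.zmodModule hp) ρ K hK x hxK hx


lemma exists_add_section_aux {p : ℕ} [Fact p.Prime] {A B : Type} [AddCommGroup A]
    [AddCommGroup B] [Module (ZMod p) A] [Module (ZMod p) B] (f : A →+ B)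
    (hf : Function.Surjective f) : ∃ s : B →+ A, ∀ b, f (s b) = b := by
  obtain ⟨g, hg⟩ := LinearMap.exists_rightInverse_of_surjective
    (AddMonoidHom.toZModLinearMap p f) (LinearMap.range_eq_top.2 hf)
  refine ⟨g.toAddMonoidHom, fun b => ?_⟩
  have := LinearMap.congr_fun hg b
  simpa using this

/-- An additive surjection between abelian groups killed by `p` has an additive section. -/
lemma exists_add_section {p : ℕ} [Fact p.Prime] {A B : Type} [AddCommGroup A]
    [AddCommGroup B] (hA : ∀ a : A, p • a = 0) (hB : ∀ b : B, p • b = 0) (f : A →+ B)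
    (hf : Function.Surjective f) : ∃ s : B →+ A, ∀ b, f (s b) = b :=
  @exists_add_section_aux p _ A B _ _ (AddCommGroup.zmodModule hA) (AddCommGroup.zmodModule hB)
    f hf

lemma exists_add_retraction_aux {p : ℕ} [Fact p.Prime] {V : Type} [AddCommGroup V]
    [Module (ZMod p) V] (S : AddSubgroup V) :
    ∃ r : V →+ V, (∀ v, r v ∈ S) ∧ ∀ v ∈ S, r v = v := by
  obtain ⟨C, hC⟩ := Submodule.exists_isCompl (AddSubgroup.toZModSubmodule p S)
  refine ⟨((AddSubgroup.toZModSubmodule p S).subtype.comp
    (Submodule.projectionOnto _ C hC)).toAddMonoidHom, fun v => ?_, fun v hv => ?_⟩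
  · exact (Submodule.projectionOnto _ C hC v).2
  · have := Submodule.projectionOnto_apply_left hC ⟨v, hv⟩
    exact congrArg Subtype.val this

/-- A subgroup of an abelian group killed by `p` is the image of an additive idempotent. -/
lemma exists_add_retraction {p : ℕ} [Fact p.Prime] {V : Type} [AddCommGroup V]
    (hV : ∀ v : V, p • v = 0) (S : AddSubgroup V) :
    ∃ r : V →+ V, (∀ v, r v ∈ S) ∧ ∀ v ∈ S, r v = v :=
  @exists_add_retraction_aux p _ V _ (AddCommGroup.zmodModule hV) S

end Fermat.Agent.PT.FpCT
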