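/-
PT-A piece `FpCT` (helper32): cohomological triviality over `𝔽_p`.

`G` a finite `p`-group, `B` killed by `p` with `H²(G, B) = 0`.  Then `H¹` and `H²` of
`Hom(N, B)` vanish (for every `N`).

Route (`NOTES/PT-A.md`, step 5):
* `X := Coind B / B` is killed by `p` and `H¹(G, X) ↪ H²(G, B) = 0`;
* structure lemma: `φ : X → Coind (X^G)`, `x ↦ (g ↦ r (g x))` (`r` an additive retraction onto
  the invariants) is bijective — injective because its kernel has no invariants, surjective
  because the invariants of its cokernel inject into `H¹(G, X)` (fixed point lemma for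
  `p`-groups, `FpCTCore.lean`);
* hence `Coind B → X` has an equivariant section (`Coind Y` is "free": `t ↦ ∑ g, g⁻¹ s₀ (t g)`),
  so `B` is a retract of `Coind B`;
* then `Hom(N, B)` is a retract of `Coind (Hom(N, B))`, which is acyclic.
-/
import Fermat.Agent.PT.A.Plan2
import Fermat.Agent.PT.A.Sylow
import Fermat.Agent.PT.A.FpCTCore

set_option autoImplicit false
set_option linter.style.haveILetI false

namespace Fermat.Agent.PT.FpCT

open CategoryTheory groupCohomology Limits
open Fermat.Agent.PT.SylowRes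

attribute [local instance 1100] Rep.hV2

variable {G : Type} [Group G]

/-! ### Morphisms of `Rep ℤ G` from additive maps -/

/-- A `G`-equivariant additive map, as a morphism of `Rep ℤ G`. -/
noncomputable def mkHom {A B : Rep.{0} ℤ G} (f : A.V →+ B.V)
    (hf : ∀ (g : G) (a : A.V), f (A.ρ g a) = B.ρ g (f a)) : A ⟶ B :=
  ConcreteCategory.ofHom (C := Rep.{0} ℤ G) (X := A) (Y := B)
    (LinearMap.intertwiningMap_of_isIntertwiningMap (ρ := A.ρ) (σ := B.ρ) (f := addToLin f) hf)

@[simp] lemma mkHom_apply {A B : Rep.{0} ℤ G} (f : A.V →+ B.V)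
    (hf : ∀ (g : G) (a : A.V), f (A.ρ g a) = B.ρ g (f a)) (a : A.V) :
    (mkHom f hf).hom a = f a := rfl

lemma hom_ext_apply {A B : Rep.{0} ℤ G} {f g : A ⟶ B} (h : ∀ a : A.V, f.hom a = g.hom a) :
    f = g :=
  Rep.hom_ext (Representation.IntertwiningMap.ext (LinearMap.ext h))

/-! ### Elements of `coindTriv Y` -/

/-- An element of `coindTriv Y` from an arbitrary function. -/
noncomputable def ctMk (Y : Rep.{0} ℤ G) (f : G → Y.V) : (coindTriv Y).V :=
  ⟨f, fun s h => by
    have hs : s = 1 := Subsingleton.elim _ _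
    subst hs
    simp⟩

@[simp] lemma ctMk_val (Y : Rep.{0} ℤ G) (f : G → Y.V) (g : G) : (ctMk Y f).1 g = f g := rfl

lemma ct_ext {Y : Rep.{0} ℤ G} {t t' : (coindTriv Y).V} (h : ∀ g, t.1 g = t'.1 g) : t = t' :=
  Subtype.ext (funext h)

@[simp] lemma ct_ρ_apply (Y : Rep.{0} ℤ G) (t : (coindTriv Y).V) (g h : G) :
    ((coindTriv Y).ρ g t).1 h = t.1 (h * g) := rfl

lemma ctMk_add (Y : Rep.{0} ℤ G) (f f' : G → Y.V) : ctMk Y (f + f') = ctMk Y f + ctMk Y f' :=
  rfl

lemma ctMk_zero (Y : Rep.{0} ℤ G) : ctMk Y (0 : G → Y.V) = 0 := rfl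

/-- Evaluation at `g`, as an additive map. -/
noncomputable def ctEval (Y : Rep.{0} ℤ G) (g : G) : (coindTriv Y).V →+ Y.V where
  toFun t := t.1 g
  map_zero' := rfl
  map_add' _ _ := rfl

@[simp] lemma ctEval_apply (Y : Rep.{0} ℤ G) (g : G) (t : (coindTriv Y).V) :
    ctEval Y g t = t.1 g := rfl

open Classical in
/-- The function supported at `1` with value `y`, as an additive map. -/
noncomputable def ctSingle (Y : Rep.{0} ℤ G) : Y.V →+ (coindTriv Y).V where
  toFun y := ctMk Y (Pi.single 1 y)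
  map_zero' := ct_ext (fun g => by simp)
  map_add' a b := ct_ext (fun g => by
    change (Pi.single 1 (a + b) : G → Y.V) g =
      (Pi.single 1 a : G → Y.V) g + (Pi.single 1 b : G → Y.V) g
    rw [Pi.single_add]
    rfl)

open Classical in
lemma ctSingle_val (Y : Rep.{0} ℤ G) (y : Y.V) (g : G) :
    (ctSingle Y y).1 g = if g = 1 then y else 0 := by
  change (Pi.single 1 y : G → Y.V) g = _
  rw [Pi.single_apply]

lemma ct_nsmul_eq_zero {p : ℕ} (Y : Rep.{0} ℤ G) (hp : ∀ y : Y.V, p • y = 0)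
    (t : (coindTriv Y).V) : p • t = 0 := by
  apply ct_ext
  intro g
  change p • t.1 g = 0
  exact hp _

/-! ### Injectivity and surjectivity criteria for `p`-groups -/

/-- A morphism out of a module killed by `p` (for a finite `p`-group) which is injective on
invariants is injective. -/
lemma injective_of_injective_on_invariants [Finite G] {p : ℕ} [Fact p.Prime]
    (hG : IsPGroup p G) {X T : Rep.{0} ℤ G} (φ : X ⟶ T) (hp : ∀ x : X.V, p • x = 0)
    (h : ∀ x : X.V, (∀ g : G, X.ρ g x = x) → φ.hom x = 0 → x = 0) :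
    Function.Injective φ.hom := by
  rw [injective_iff_map_eq_zero]
  intro x hx
  by_contra hx0
  let K : AddSubgroup X.V :=
    { carrier := {x | φ.hom x = 0}
      zero_mem' := map_zero _
      add_mem' := fun {a b} ha hb => by
        change φ.hom (a + b) = 0
        rw [map_add, ha, hb, add_zero]
      neg_mem' := fun {a} ha => by
        change φ.hom (-a) = 0
        rw [map_neg, ha, neg_zero] }
  obtain ⟨y, hyK, hy0, hy⟩ := exists_fixed_ne_zero hG X.ρ hp K
    (fun g v hv => by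
      change φ.hom (X.ρ g v) = 0
      rw [Rep.hom_comm_apply, hv, map_zero]) hx hx0
  exact hy0 (h y hy hyK)

/-- An injective morphism into a module killed by `p` (for a finite `p`-group), with source of
trivial `H¹`, whose range contains all invariants, is surjective. -/
lemma surjective_of_invariants_mem_range [Finite G] {p : ℕ} [Fact p.Prime]
    (hG : IsPGroup p G) {X T : Rep.{0} ℤ G} (φ : X ⟶ T) (hpT : ∀ t : T.V, p • t = 0)
    (h1 : Subsingleton (H1 X)) (hinj : Function.Injective φ.hom)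
    (h : ∀ t : T.V, (∀ g : G, T.ρ g t = t) → ∃ x, φ.hom x = t) :
    Function.Surjective φ.hom := by
  let I : Submodule ℤ T.V := LinearMap.range φ.hom.toLinearMap
  have hI : ∀ g, I ≤ I.comap (T.ρ g) := by
    rintro g _ ⟨x, rfl⟩
    exact ⟨X.ρ g x, Rep.hom_comm_apply φ g x⟩
  let Q : Rep.{0} ℤ G := Rep.quotient T I hI
  intro t
  by_contra ht
  have hpQ : ∀ q : Q.V, p • q = 0 := by
    intro q
    obtain ⟨t, rfl⟩ := Submodule.Quotient.mk_surjective _ q
    have := map_nsmul (Submodule.mkQ I) p t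
    rw [hpT, map_zero] at this
    exact this.symm
  have hq0 : (Submodule.Quotient.mk t : Q.V) ≠ 0 := by
    rw [Ne, Submodule.Quotient.mk_eq_zero]
    exact ht
  obtain ⟨y, -, hy0, hy⟩ := @exists_fixed_ne_zero p _ G _ _ hG Q.V _ Q.hV2 Q.ρ hpQ ⊤
    (fun _ _ _ => trivial) (Submodule.Quotient.mk t) (AddSubgroup.mem_top _) hq0
  obtain ⟨t', rfl⟩ := Submodule.Quotient.mk_surjective _ y
  apply hy0
  rw [Submodule.Quotient.mk_eq_zero]
  have hc : ∀ g : G, ∃ x, φ.hom x = T.ρ g t' - t' := by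
    intro g
    have h2 : (Submodule.Quotient.mk (T.ρ g t' - t') : T.V ⧸ I) = 0 := by
      rw [Submodule.Quotient.mk_sub, sub_eq_zero]
      exact hy g
    exact (Submodule.Quotient.mk_eq_zero _).1 h2
  choose c hc using hc
  have hcoc : c ∈ cocycles₁ X := by
    rw [mem_cocycles₁_iff]
    intro g h
    apply hinj
    rw [map_add, Rep.hom_comm_apply, hc, hc, hc, map_mul]
    simp
  have hcob : c ∈ coboundaries₁ X :=
    (H1π_eq_zero_iff (⟨c, hcoc⟩ : cocycles₁ X)).1 (Subsingleton.elim _ _)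
  obtain ⟨x, hx⟩ := hcob
  have hx' : ∀ g, X.ρ g x - x = c g := fun g => by
    rw [← hx]
    simp [d₀₁_hom_apply]
  obtain ⟨x₀, hx₀⟩ := h (t' - φ.hom x) (fun g => by
    rw [map_sub, ← Rep.hom_comm_apply]
    have := hc g
    rw [← hx' g, map_sub] at this
    rw [sub_eq_sub_iff_add_eq_add]
    rw [sub_eq_sub_iff_add_eq_add] at this
    rw [← this]
    abel)
  refine ⟨x + x₀, ?_⟩
  change φ.hom (x + x₀) = t'
  rw [map_add, hx₀]
  abel

/-! ### The structure lemma `X ≅ Coind (X^G)` -/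

/-- A module `Y` identified (via `ι`) with the invariants of `X`, together with an additive
retraction `r` of `X` onto it. -/
structure InvData (X Y : Rep.{0} ℤ G) where
  /-- the inclusion of the invariants -/
  ι : Y.V →+ X.V
  /-- the retraction onto the invariants -/
  r : X.V →+ Y.V
  r_ι : ∀ y, r (ι y) = y
  inv : ∀ (g : G) (y : Y.V), X.ρ g (ι y) = ι y
  ι_r : ∀ x : X.V, (∀ g : G, X.ρ g x = x) → ι (r x) = x

/-- The invariants of `X`, as an additive subgroup. -/
def invSub (X : Rep.{0} ℤ G) : AddSubgroup X.V where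
  carrier := {x | ∀ g : G, X.ρ g x = x}
  zero_mem' := fun g => map_zero _
  add_mem' := fun {a b} ha hb g => by rw [map_add, ha g, hb g]
  neg_mem' := fun {a} ha g => by rw [map_neg, ha g]

/-- The invariants of `X` with the trivial action. -/
noncomputable def invRep (X : Rep.{0} ℤ G) : Rep.{0} ℤ G := Rep.trivial ℤ G ↥(invSub X)

lemma exists_invData {p : ℕ} [Fact p.Prime] (X : Rep.{0} ℤ G) (hp : ∀ x : X.V, p • x = 0) :
    Nonempty (InvData X (invRep X)) := by
  obtain ⟨r₀, hr1, hr2⟩ := exists_add_retraction hp (invSub X)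
  exact ⟨{ ι := (invSub X).subtype
           r := r₀.codRestrict (invSub X) hr1
           r_ι := fun y => Subtype.ext (hr2 _ y.2)
           inv := fun g y => y.2 g
           ι_r := fun x hx => hr2 x hx }⟩

namespace InvData

variable {X Y : Rep.{0} ℤ G} (D : InvData X Y)

/-- `x ↦ (g ↦ r (g x))`. -/
noncomputable def phiAdd : X.V →+ (coindTriv Y).V where
  toFun x := ctMk Y (fun g => D.r (X.ρ g x))
  map_zero' := ct_ext (fun g => by simp)
  map_add' a b := ct_ext (fun g => by simp)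

lemma phiAdd_val (x : X.V) (g : G) : (D.phiAdd x).1 g = D.r (X.ρ g x) := rfl

lemma phiAdd_comm (g : G) (x : X.V) : D.phiAdd (X.ρ g x) = (coindTriv Y).ρ g (D.phiAdd x) := by
  apply ct_ext
  intro h
  change D.r (X.ρ h (X.ρ g x)) = D.r (X.ρ (h * g) x)
  rw [map_mul]
  rfl

/-- The comparison morphism `X ⟶ Coind (X^G)`. -/
noncomputable def phi : X ⟶ coindTriv Y := mkHom D.phiAdd D.phiAdd_comm

lemma phi_val (x : X.V) (g : G) : (D.phi.hom x).1 g = D.r (X.ρ g x) := rfl

lemma ι_injective : Function.Injective D.ι := fun a b h => by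
  rw [← D.r_ι a, ← D.r_ι b, h]

include D in
lemma nsmul_eq_zero {p : ℕ} (hp : ∀ x : X.V, p • x = 0) (y : Y.V) : p • y = 0 :=
  D.ι_injective (by rw [map_nsmul, hp, map_zero])

lemma phi_injective [Finite G] {p : ℕ} [Fact p.Prime] (hG : IsPGroup p G)
    (hp : ∀ x : X.V, p • x = 0) : Function.Injective D.phi.hom := by
  apply injective_of_injective_on_invariants hG D.phi hp
  intro x hx h0
  have h2 := congrArg (fun t : (coindTriv Y).V => t.1 1) h0
  have h3 : D.r (X.ρ 1 x) = 0 := h2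
  rw [← D.ι_r x hx]
  have h4 : D.r x = 0 := by simpa using h3
  rw [h4, map_zero]

lemma phi_surjective [Finite G] {p : ℕ} [Fact p.Prime] (hG : IsPGroup p G)
    (hp : ∀ x : X.V, p • x = 0) (h1 : Subsingleton (H1 X)) :
    Function.Surjective D.phi.hom := by
  apply surjective_of_invariants_mem_range hG D.phi
    (ct_nsmul_eq_zero Y (D.nsmul_eq_zero hp)) h1 (D.phi_injective hG hp)
  intro t ht
  refine ⟨D.ι (t.1 1), ?_⟩
  apply ct_ext
  intro g
  change D.r (X.ρ g (D.ι (t.1 1))) = t.1 g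
  rw [D.inv, D.r_ι]
  have := congrArg (fun t : (coindTriv Y).V => t.1 1) (ht g)
  have h3 : t.1 (1 * g) = t.1 1 := this
  rw [one_mul] at h3
  exact h3.symm

end InvData

/-! ### `Coind Y` is "free": sections of surjections onto it -/

section Section

variable [Fintype G] {E Y : Rep.{0} ℤ G} (s₀ : Y.V →+ E.V)

/-- `t ↦ ∑ g, g⁻¹ • s₀ (t g)`. -/
noncomputable def secAdd : (coindTriv Y).V →+ E.V :=
  ∑ g : G, (actAdd E g⁻¹).comp (s₀.comp (ctEval Y g))

lemma secAdd_apply (t : (coindTriv Y).V) :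
    secAdd s₀ t = ∑ g : G, E.ρ g⁻¹ (s₀ (t.1 g)) := by
  simp only [secAdd, AddMonoidHom.finsetSum_apply]
  rfl

lemma secAdd_comm (h : G) (t : (coindTriv Y).V) :
    secAdd s₀ ((coindTriv Y).ρ h t) = E.ρ h (secAdd s₀ t) := by
  rw [secAdd_apply, secAdd_apply, map_sum]
  refine Fintype.sum_equiv (Equiv.mulRight h) _ _ (fun g => ?_)
  change E.ρ g⁻¹ (s₀ (t.1 (g * h))) = E.ρ h (E.ρ (g * h)⁻¹ (s₀ (t.1 (g * h))))
  rw [← Module.End.mul_apply, ← map_mul]
  congr 2
  group

/-- The morphism `Coind Y ⟶ E` attached to an additive map `s₀ : Y → E`. -/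
noncomputable def sec : coindTriv Y ⟶ E := mkHom (secAdd s₀) (secAdd_comm s₀)

lemma sec_comp (q : E ⟶ coindTriv Y) (h : ∀ y, q.hom (s₀ y) = ctSingle Y y) :
    sec s₀ ≫ q = 𝟙 _ := by
  classical
  apply hom_ext_apply
  intro t
  change q.hom (secAdd s₀ t) = t
  rw [secAdd_apply, map_sum]
  apply ct_ext
  intro x
  have h1 : ∀ g : G, q.hom (E.ρ g⁻¹ (s₀ (t.1 g))) = (coindTriv Y).ρ g⁻¹ (ctSingle Y (t.1 g)) :=
    fun g => by rw [Rep.hom_comm_apply, h]
  simp only [h1]
  have h2 := map_sum (ctEval Y x) (fun g => (coindTriv Y).ρ g⁻¹ (ctSingle Y (t.1 g)))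
    Finset.univ
  change ctEval Y x _ = _
  rw [h2]
  have h3 : ∀ g : G, ctEval Y x ((coindTriv Y).ρ g⁻¹ (ctSingle Y (t.1 g))) =
      if g = x then t.1 g else 0 := by
    intro g
    change (ctSingle Y (t.1 g)).1 (x * g⁻¹) = _
    rw [ctSingle_val]
    by_cases hg : g = x
    · subst hg; simp
    · rw [if_neg hg, if_neg]
      intro h'
      apply hg
      rw [mul_inv_eq_one] at h'
      exact h'.symm
  simp only [h3]
  simp

/-- A surjection `E → Coind Y` of modules killed by `p` has an equivariant section. -/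
lemma exists_section_coind {p : ℕ} [Fact p.Prime] (hE : ∀ e : E.V, p • e = 0)
    (hY : ∀ y : Y.V, p • y = 0) (q : E ⟶ coindTriv Y) (hq : Function.Surjective q.hom) :
    ∃ s : coindTriv Y ⟶ E, s ≫ q = 𝟙 _ := by
  obtain ⟨σ, hσ⟩ := exists_add_section hE (ct_nsmul_eq_zero Y hY) (homAdd q) hq
  exact ⟨sec (σ.comp (ctSingle Y)), sec_comp _ q (fun y => hσ _)⟩

end Section

/-! ### Retracts of `Coind` -/

section HomRetract

variable (N : Rep.{0} ℤ G) {B : Rep.{0} ℤ G} (r : coindTriv B ⟶ B)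

/-- `n ↦ r (x ↦ Φ x (x n))`, for fixed `Φ`. -/
noncomputable def homRetrFun (Φ : (coindTriv (homRep N B)).V) : N.V →+ B.V where
  toFun n := r.hom (ctMk B (fun x => (Φ.1 x : N.V →+ B.V) (N.ρ x n)))
  map_zero' := by
    have : (fun x => (Φ.1 x : N.V →+ B.V) (N.ρ x 0)) = (0 : G → B.V) := by
      funext x; simp
    rw [this, ctMk_zero, map_zero]
  map_add' a b := by
    have : (fun x => (Φ.1 x : N.V →+ B.V) (N.ρ x (a + b))) =
        (fun x => (Φ.1 x : N.V →+ B.V) (N.ρ x a)) +
          (fun x => (Φ.1 x : N.V →+ B.V) (N.ρ x b)) := by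
      funext x; simp
    rw [this, ctMk_add, map_add]

/-- The retraction `Coind (Hom(N,B)) → Hom(N,B)` induced by a retraction `Coind B → B`. -/
noncomputable def homRetrAdd : (coindTriv (homRep N B)).V →+ (homRep N B).V where
  toFun Φ := homRetrFun N r Φ
  map_zero' := by
    ext n
    change r.hom (ctMk B
      (fun x => ((0 : (coindTriv (homRep N B)).V).1 x : N.V →+ B.V) (N.ρ x n))) = 0
    have : (fun x => ((0 : (coindTriv (homRep N B)).V).1 x : N.V →+ B.V) (N.ρ x n))
        = (0 : G → B.V) := by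
      funext x; rfl
    rw [this, ctMk_zero, map_zero]
  map_add' Φ Ψ := by
    ext n
    change r.hom (ctMk B (fun x => ((Φ + Ψ).1 x : N.V →+ B.V) (N.ρ x n))) =
      r.hom (ctMk B (fun x => (Φ.1 x : N.V →+ B.V) (N.ρ x n))) +
      r.hom (ctMk B (fun x => (Ψ.1 x : N.V →+ B.V) (N.ρ x n)))
    have : (fun x => ((Φ + Ψ).1 x : N.V →+ B.V) (N.ρ x n)) =
        (fun x => (Φ.1 x : N.V →+ B.V) (N.ρ x n)) +
          (fun x => (Ψ.1 x : N.V →+ B.V) (N.ρ x n)) := by
      funext x; rfl
    rw [this, ctMk_add, map_add]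

lemma homRetrAdd_apply (Φ : (coindTriv (homRep N B)).V) (n : N.V) :
    (homRetrAdd N r Φ : N.V →+ B.V) n =
      r.hom (ctMk B (fun x => (Φ.1 x : N.V →+ B.V) (N.ρ x n))) := rfl

lemma homRetrAdd_comm (h : G) (Φ : (coindTriv (homRep N B)).V) :
    homRetrAdd N r ((coindTriv (homRep N B)).ρ h Φ) = (homRep N B).ρ h (homRetrAdd N r Φ) := by
  ext n
  change r.hom (ctMk B (fun x => (Φ.1 (x * h) : N.V →+ B.V) (N.ρ x n))) =
    B.ρ h (r.hom (ctMk B (fun x => (Φ.1 x : N.V →+ B.V) (N.ρ x (N.ρ h⁻¹ n)))))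
  rw [← Rep.hom_comm_apply]
  congr 1
  apply ct_ext
  intro x
  change (Φ.1 (x * h) : N.V →+ B.V) (N.ρ x n) =
    (Φ.1 (x * h) : N.V →+ B.V) (N.ρ (x * h) (N.ρ h⁻¹ n))
  rw [← Module.End.mul_apply, ← map_mul]
  congr 2
  group

/-- The retraction `Coind (Hom(N,B)) ⟶ Hom(N,B)`. -/
noncomputable def homRetr : coindTriv (homRep N B) ⟶ homRep N B :=
  mkHom (homRetrAdd N r) (homRetrAdd_comm N r)

lemma unitHom_homRetr (hr : unitHom B ≫ r = 𝟙 B) :
    unitHom (homRep N B) ≫ homRetr N r = 𝟙 _ := by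
  apply hom_ext_apply
  intro a
  change homRetrAdd N r ((unitHom (homRep N B)).hom a) = a
  ext n
  rw [homRetrAdd_apply]
  have h1 : ctMk B (fun x => (((unitHom (homRep N B)).hom a).1 x : N.V →+ B.V) (N.ρ x n)) =
      (unitHom B).hom ((a : N.V →+ B.V) n) := by
    apply ct_ext
    intro x
    change B.ρ x ((a : N.V →+ B.V) (N.ρ x⁻¹ (N.ρ x n))) = B.ρ x ((a : N.V →+ B.V) n)
    rw [← Module.End.mul_apply, ← map_mul]
    simp
  rw [h1]
  have := congrArg (fun f : B ⟶ B => f.hom ((a : N.V →+ B.V) n)) hr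
  exact this

end HomRetract

/-- A retract of `Coind A` is acyclic. -/
lemma isZero_of_retract (A : Rep.{0} ℤ G) (r : coindTriv A ⟶ A) (hr : unitHom A ≫ r = 𝟙 A)
    (n : ℕ) : IsZero (groupCohomology A (n + 1)) := by
  have h0 : IsZero ((groupCohomology.functor ℤ G (n + 1)).obj (coindTriv A)) :=
    isZero_coindTriv A n
  have h1 : (groupCohomology.functor ℤ G (n + 1)).map (unitHom A) ≫
      (groupCohomology.functor ℤ G (n + 1)).map r = 𝟙 _ := by
    rw [← CategoryTheory.Functor.map_comp, hr, CategoryTheory.Functor.map_id]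
  have h2 : 𝟙 ((groupCohomology.functor ℤ G (n + 1)).obj A) = 0 := by
    rw [← h1, h0.eq_of_tgt ((groupCohomology.functor ℤ G (n + 1)).map (unitHom A)) 0,
      zero_comp]
  exact (IsZero.iff_id_eq_zero _).2 h2

/-! ### The splitting -/

/-- **Key step**: for a finite `p`-group `G` and `B` killed by `p` with `H²(G, B) = 0`,
`B` is a retract of `Coind B`. -/
theorem exists_retraction_coind [Fintype G] {p : ℕ} [Fact p.Prime] (hG : IsPGroup p G)
    (B : Rep.{0} ℤ G) (hpB : ∀ b : B.V, p • b = 0) (hH2 : Subsingleton (H2 B)) :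
    ∃ r : coindTriv B ⟶ B, unitHom B ≫ r = 𝟙 B := by
  have hS := shiftSC_shortExact B
  have hπ : Function.Surjective (shiftSC B).g.hom := (Rep.epi_iff_surjective _).1 hS.epi_g
  have hpE : ∀ e : (coindTriv B).V, p • e = 0 := ct_nsmul_eq_zero B hpB
  have hpX : ∀ x : (shiftSC B).X₃.V, p • x = 0 := by
    intro x
    obtain ⟨e, rfl⟩ := hπ x
    rw [← map_nsmul, hpE, map_zero]
  have hH1 : Subsingleton (H1 (shiftSC B).X₃) := by
    have hmono : Mono (δ hS 1 2 rfl) := mono_δ_of_isZero hS 1 (isZero_coindTriv B 0)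
    have hinj := (ModuleCat.mono_iff_injective _).1 hmono
    exact hinj.subsingleton
  obtain ⟨D⟩ := exists_invData (shiftSC B).X₃ hpX
  have hφi := D.phi_injective hG hpX
  have hφs := D.phi_surjective hG hpX hH1
  obtain ⟨s, hs⟩ := exists_section_coind hpE (D.nsmul_eq_zero hpX) ((shiftSC B).g ≫ D.phi)
    (hφs.comp hπ)
  have hmono : Mono D.phi := (Rep.mono_iff_injective _).2 hφi
  have hsec : (D.phi ≫ s) ≫ (shiftSC B).g = 𝟙 _ := by
    rw [← cancel_mono D.phi, Category.assoc, Category.assoc, hs, Category.comp_id,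
      Category.id_comp]
  exact ⟨(ShortComplex.Splitting.ofExactOfSection (shiftSC B) hS.exact _ hsec hS.mono_f).r,
    (ShortComplex.Splitting.ofExactOfSection (shiftSC B) hS.exact _ hsec hS.mono_f).f_r⟩

end Fermat.Agent.PT.FpCT

namespace Fermat.Agent.PT

open CategoryTheory groupCohomology Limits

/-- **(FpCT)** Cohomological triviality over `𝔽_p`. -/
theorem stmtFpCT : StmtFpCT := by
  intro p _ G _ _ hG B hpB hH2 N _
  obtain ⟨r, hr⟩ := FpCT.exists_retraction_coind hG B hpB hH2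
  have h := FpCT.isZero_of_retract (homRep N B) (FpCT.homRetr N r) (FpCT.unitHom_homRetr N r hr)
  exact ⟨ModuleCat.isZero_iff_subsingleton.1 (h 0), ModuleCat.isZero_iff_subsingleton.1 (h 1)⟩

end Fermat.Agent.PT
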