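/-
PT-A piece `KILL` (helper11): `Hⁿ(G, X)` is killed by `|G|` for `n ≥ 1`.
Immediate from `SylowRes.index_smul_eq_zero_of_res_eq_zero` with `H = ⊥`.
-/
import Fermat.Agent.PT.A.Plan2
import Fermat.Agent.PT.A.Sylow

set_option autoImplicit false

namespace Fermat.Agent.PT

open CategoryTheory groupCohomology Limits

/-- **(KILL)** `Hⁿ(G, X)` is killed by `|G|` for `n ≥ 1`. -/
theorem stmtKill : StmtKill := by
  intro G _ _ X n x
  have h0 : IsZero (groupCohomology (Rep.res (⊥ : Subgroup G).subtype X) (n + 1)) :=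
    isZero_groupCohomology_succ_of_subsingleton _ n
  have h1 : (resSub X (⊥ : Subgroup G) (n + 1)).hom x = 0 :=
    (ModuleCat.isZero_iff_subsingleton.1 h0).elim _ _
  have h2 := SylowRes.index_smul_eq_zero_of_res_eq_zero (⊥ : Subgroup G) n X x h1
  rwa [Subgroup.index_bot, Nat.card_eq_fintype_card] at h2

end Fermat.Agent.PT
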