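/-
PT-A (helper11): the EXPLICIT Shapiro map
  `shMap P Y n = map P.subtype ev₁ n : Hⁿ(G, Coind_P^G Y) ⟶ Hⁿ(P, Y)`   (`ev₁ F = F 1`)
is bijective in degrees 1 and 2 (`shMap_one_injective`, `shMap_one_surjective`,
`shMap_two_bijective`), for every subgroup `P ≤ G` and every `Y : Rep k P`.
Degree 1: cocycle computation.  Degree 2: dimension shifting along `0 → Y → Coind_1^P Y → Y' → 0`
(`shiftK`), using that `Coind_P^G` is exact (`coind_shortExact`) and that the connecting maps commute
with `shMap` (`δ_shMap`).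
-/
import Fermat.Agent.PT.A.Sylow

set_option autoImplicit false

namespace Fermat.Agent.PT.Red

open CategoryTheory groupCohomology Limits

variable {k : Type} [CommRing k] {G : Type} [Group G] (P : Subgroup G)

/-- evaluation at `1`: the counit `Res_P Coind_P^G Y ⟶ Y` -/
noncomputable def evC (Y : Rep.{0} k P) : Rep.res P.subtype (Rep.coind P.subtype Y) ⟶ Y :=
  (Rep.resCoindHomEquiv P.subtype (Rep.coind P.subtype Y) Y).symm (𝟙 _)

lemma evC_apply (Y : Rep.{0} k P) (F : (Rep.coind P.subtype Y).V) :
    (evC P Y).hom F = F.1 1 := rfl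

/-- the explicit Shapiro map `Hⁿ(G, Coind_P^G Y) ⟶ Hⁿ(P, Y)` -/
noncomputable def shMap (Y : Rep.{0} k P) (n : ℕ) :
    groupCohomology (Rep.coind P.subtype Y) n ⟶ groupCohomology Y n :=
  groupCohomology.map P.subtype (evC P Y) n

section DegreeOne

variable (Y : Rep.{0} k P)

lemma coind_mem (F : (Rep.coind P.subtype Y).V) (p : P) (x : G) :
    F.1 ((p : G) * x) = Y.ρ p (F.1 x) := F.2 p x

lemma coind_ρ_apply (F : (Rep.coind P.subtype Y).V) (g x : G) :
    ((Rep.coind P.subtype Y).ρ g F).1 x = F.1 (x * g) := rfl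

lemma cocycle_coind_apply (f : cocycles₁ (Rep.coind P.subtype Y)) (g h x : G) :
    (f (g * h)).1 x = (f h).1 (x * g) + (f g).1 x := by
  have := (mem_cocycles₁_iff f).1 f.2 g h
  rw [this]
  rfl

lemma shMap_H1π (f : cocycles₁ (Rep.coind P.subtype Y)) :
    (shMap P Y 1).hom (H1π _ f) = H1π Y (mapCocycles₁ P.subtype (evC P Y) f) :=
  H1π_comp_map_apply (A := Rep.coind P.subtype Y) (B := Y) P.subtype (evC P Y) f

lemma mapCocycles₁_evC_apply (f : cocycles₁ (Rep.coind P.subtype Y)) (h : P) :
    (mapCocycles₁ P.subtype (evC P Y) f) h = (f (h : G)).1 1 := rfl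

theorem shMap_one_injective : Function.Injective (shMap P Y 1).hom := by
  rw [injective_iff_map_eq_zero]
  intro x hx
  induction x using H1_induction_on with
  | h f =>
    rw [shMap_H1π, H1π_eq_zero_iff] at hx
    obtain ⟨y, hy⟩ := hx
    have hy' : ∀ p : P, (f (p : G)).1 1 = Y.ρ p y - y := by
      intro p
      have := congrFun hy p
      rw [d₀₁_hom_apply, mapCocycles₁_evC_apply] at this
      exact this.symm
    rw [H1π_eq_zero_iff]
    refine ⟨⟨fun g => y + (f g).1 1, ?_⟩, ?_⟩
    · intro p x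
      simp only
      change y + (f ((p : G) * x)).1 1 = Y.ρ p (y + (f x).1 1)
      rw [cocycle_coind_apply, hy', one_mul, map_add]
      have h2 : (f x).1 (p : G) = Y.ρ p ((f x).1 1) := by
        have := coind_mem P Y (f x) p 1
        rwa [mul_one] at this
      rw [h2]
      abel
    · funext g
      apply Subtype.ext
      funext x
      rw [d₀₁_hom_apply]
      change (y + (f (x * g)).1 1) - (y + (f x).1 1) = (f g).1 x
      rw [cocycle_coind_apply, one_mul]
      abel

/-- the `P`-component of `x` w.r.t. right cosets: `x = rPart x * r`, `r` a representative -/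
noncomputable def rPart (x : G) : P := (SylowRes.hPart P x⁻¹)⁻¹

lemma rPart_mul (p : P) (x : G) : rPart P ((p : G) * x) = p * rPart P x := by
  unfold rPart
  rw [mul_inv_rev]
  have := SylowRes.hPart_mul P x⁻¹ p⁻¹
  rw [Subgroup.coe_inv] at this
  rw [this, mul_inv_rev, inv_inv]

/-- extension of a cocycle of `P` to a function on `G` -/
noncomputable def extC (c : cocycles₁ Y) (x : G) : Y.V := c (rPart P x)

lemma extC_mul (c : cocycles₁ Y) (p : P) (x : G) :
    extC P Y c ((p : G) * x) = Y.ρ p (extC P Y c x) + c p := by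
  unfold extC
  rw [rPart_mul]
  exact (mem_cocycles₁_iff c).1 c.2 p (rPart P x)

/-- the lift of a cocycle of `P` with values in `Y` to a cocycle of `G` with values in
`Coind_P^G Y` -/
noncomputable def liftC (c : cocycles₁ Y) : cocycles₁ (Rep.coind P.subtype Y) :=
  ⟨fun g => ⟨fun x => extC P Y c (x * g) - extC P Y c x, by
      intro p x
      change extC P Y c ((p : G) * x * g) - extC P Y c ((p : G) * x) = Y.ρ p (_ - _)
      rw [mul_assoc, extC_mul, extC_mul, map_sub]
      abel⟩, by
    rw [mem_cocycles₁_iff]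
    intro g h
    apply Subtype.ext
    funext x
    change extC P Y c (x * (g * h)) - extC P Y c x =
      (extC P Y c (x * g * h) - extC P Y c (x * g)) + (extC P Y c (x * g) - extC P Y c x)
    rw [mul_assoc]
    abel⟩

lemma liftC_apply (c : cocycles₁ Y) (g x : G) :
    ((liftC P Y c) g).1 x = extC P Y c (x * g) - extC P Y c x := rfl

theorem shMap_one_surjective : Function.Surjective (shMap P Y 1).hom := by
  intro z
  induction z using H1_induction_on with
  | h c =>
    refine ⟨H1π _ (liftC P Y c), ?_⟩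
    rw [shMap_H1π, H1π_eq_iff]
    refine ⟨c (rPart P 1), ?_⟩
    funext h
    rw [d₀₁_hom_apply]
    change _ = (liftC P Y c (h : G)).1 1 - c h
    rw [liftC_apply, one_mul]
    have h1 : extC P Y c (h : G) = Y.ρ h (c (rPart P 1)) + c h := by
      have := extC_mul P Y c h 1
      rwa [mul_one] at this
    rw [h1]
    change _ = Y.ρ h (c (rPart P 1)) + c h - c (rPart P 1) - c h
    abel

end DegreeOne


section Shift

variable {Γ : Type} [Group Γ]

/-- the unit `Y ⟶ Coind_1^Γ Y` (generic coefficient ring) -/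
noncomputable abbrev unitK (Y : Rep.{0} k Γ) : Y ⟶ SylowRes.coindTriv Y :=
  Rep.resCoindToHom (⊥ : Subgroup Γ).subtype Y (Rep.res (⊥ : Subgroup Γ).subtype Y) (𝟙 _)

lemma unitK_injective (Y : Rep.{0} k Γ) : Function.Injective (unitK Y).hom := by
  intro x y h
  have := congrArg (fun f => f.1 (1 : Γ)) h
  simpa using this

instance unitK_mono (Y : Rep.{0} k Γ) : Mono (unitK Y) :=
  (Rep.mono_iff_injective _).2 (unitK_injective Y)

/-- the dimension shifting sequence `0 → Y → Coind_1^Γ Y → Y' → 0` -/
noncomputable abbrev shiftK (Y : Rep.{0} k Γ) : ShortComplex (Rep.{0} k Γ) :=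
  ShortComplex.mk (unitK Y) (cokernel.π (unitK Y)) (cokernel.condition _)

lemma shiftK_shortExact (Y : Rep.{0} k Γ) : (shiftK Y).ShortExact where
  exact := ShortComplex.exact_cokernel _
  mono_f := by dsimp [shiftK]; infer_instance
  epi_g := by dsimp [shiftK]; infer_instance

lemma isZero_coindTrivK (Y : Rep.{0} k Γ) (n : ℕ) :
    IsZero (groupCohomology (SylowRes.coindTriv Y) (n + 1)) :=
  (isZero_groupCohomology_succ_of_subsingleton
    (Rep.res (⊥ : Subgroup Γ).subtype Y) n).of_iso (groupCohomology.coindIso _ _)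

end Shift

section CoindExact

/-- `Coind_P^G` preserves short exact sequences -/
lemma coind_shortExact {S : ShortComplex (Rep.{0} k P)} (hS : S.ShortExact) :
    (S.map (Rep.coindFunctor k P.subtype)).ShortExact := by
  have hmono : Function.Injective S.f.hom := (Rep.mono_iff_injective _).1 hS.mono_f
  have hexact := (ShortComplex.moduleCat_exact_iff _).1
    (hS.exact.map (forget₂ (Rep.{0} k P) (ModuleCat k)))
  refine { exact := ?_, mono_f := ?_, epi_g := ?_ }
  · rw [← ShortComplex.exact_map_iff_of_faithful _ (forget₂ (Rep.{0} k G) (ModuleCat k)),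
      ShortComplex.moduleCat_exact_iff]
    intro F hF
    have hF' : ∀ x : G, S.g.hom (F.1 x) = 0 := by
      intro x
      have := congrArg (fun F' : (Rep.coind P.subtype S.X₃).V => F'.1 x) hF
      exact this
    have hexact' : ∀ y : S.X₂.V, S.g.hom y = 0 → ∃ x : S.X₁.V, S.f.hom x = y :=
      fun y hy => hexact y hy
    have hex2 : ∀ x : G, ∃ y : S.X₁.V, S.f.hom y = F.1 x := fun x => hexact' (F.1 x) (hF' x)
    choose F₀ hF₀ using hex2
    refine ⟨⟨F₀, ?_⟩, ?_⟩
    · intro p x
      apply hmono
      have h1 : S.f.hom (F₀ ((p : G) * x)) = F.1 ((p : G) * x) := hF₀ _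
      have h2 : S.f.hom (F₀ x) = F.1 x := hF₀ _
      have h3 : S.f.hom (S.X₁.ρ p (F₀ x)) = S.X₂.ρ p (S.f.hom (F₀ x)) :=
        Rep.hom_comm_apply S.f p (F₀ x)
      have h4 : F.1 ((p : G) * x) = S.X₂.ρ p (F.1 x) := F.2 p x
      exact h1.trans (h4.trans ((congrArg (S.X₂.ρ p) h2.symm).trans h3.symm))
    · apply Subtype.ext
      funext x
      exact hF₀ x
  · rw [Rep.mono_iff_injective]
    intro F F' h
    apply Subtype.ext
    funext x
    apply hmono
    have := congrArg (fun F' : (Rep.coind P.subtype S.X₂).V => F'.1 x) h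
    exact this
  · have := hS.epi_g
    exact inferInstanceAs (Epi ((Rep.coindFunctor k P.subtype).map S.g))

end CoindExact


section DeltaCompat

/-- the Shapiro maps as a morphism of short complexes of cochain complexes -/
noncomputable def shShortComplexHom (S : ShortComplex (Rep.{0} k P)) :
    (S.map (Rep.coindFunctor k P.subtype)).map (cochainsFunctor k G) ⟶
      S.map (cochainsFunctor k P) where
  τ₁ := cochainsMap P.subtype (evC P S.X₁)
  τ₂ := cochainsMap P.subtype (evC P S.X₂)
  τ₃ := cochainsMap P.subtype (evC P S.X₃)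
  comm₁₂ := by
    ext n f
    rfl
  comm₂₃ := by
    ext n f
    rfl

theorem δ_shMap {S : ShortComplex (Rep.{0} k P)} (hS : S.ShortExact) (i j : ℕ)
    (hij : i + 1 = j) :
    δ (coind_shortExact P hS) i j hij ≫ shMap P S.X₁ j = shMap P S.X₃ i ≫ δ hS i j hij :=
  HomologicalComplex.HomologySequence.δ_naturality (shShortComplexHom P S)
    (map_cochainsFunctor_shortExact (coind_shortExact P hS))
    (map_cochainsFunctor_shortExact hS) i j hij

end DeltaCompat

section DegreeTwo

variable (Y : Rep.{0} k P)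

lemma isZero_coind_coindTriv (n : ℕ) :
    IsZero (groupCohomology (Rep.coind P.subtype (SylowRes.coindTriv Y)) (n + 1)) :=
  (isZero_coindTrivK Y n).of_iso (groupCohomology.coindIso _ _)

theorem shMap_two_bijective : Function.Bijective (shMap P Y 2).hom := by
  have hS := shiftK_shortExact Y
  have hcS := coind_shortExact P hS
  have hisoG : IsIso (δ hcS 1 2 rfl) :=
    isIso_δ_of_isZero hcS 1 (isZero_coind_coindTriv P Y 0) (isZero_coind_coindTriv P Y 1)
  have hisoP : IsIso (δ hS 1 2 rfl) :=
    isIso_δ_of_isZero hS 1 (isZero_coindTrivK Y 0) (isZero_coindTrivK Y 1)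
  have hcomm := δ_shMap P hS 1 2 rfl
  have h1 : Function.Bijective (shMap P (shiftK Y).X₃ 1).hom :=
    ⟨shMap_one_injective P _, shMap_one_surjective P _⟩
  have hG : Function.Bijective (δ hcS 1 2 rfl).hom :=
    ⟨(ModuleCat.mono_iff_injective _).1 inferInstance,
      (ModuleCat.epi_iff_surjective _).1 inferInstance⟩
  have hP : Function.Bijective (δ hS 1 2 rfl).hom :=
    ⟨(ModuleCat.mono_iff_injective _).1 inferInstance,
      (ModuleCat.epi_iff_surjective _).1 inferInstance⟩
  have key : ∀ w, (shMap P Y 2).hom ((δ hcS 1 2 rfl).hom w) =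
      (δ hS 1 2 rfl).hom ((shMap P (shiftK Y).X₃ 1).hom w) := fun w => congr($(hcomm).hom w)
  constructor
  · intro a b hab
    obtain ⟨a', rfl⟩ := hG.2 a
    obtain ⟨b', rfl⟩ := hG.2 b
    rw [key, key] at hab
    rw [h1.1 (hP.1 hab)]
  · intro z
    obtain ⟨z', rfl⟩ := hP.2 z
    obtain ⟨w, rfl⟩ := h1.2 z'
    exact ⟨(δ hcS 1 2 rfl).hom w, key w⟩

end DegreeTwo

end Fermat.Agent.PT.Red
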