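/-
PT-A piece RED (helper11): Sylow reduction `stmtRedR : StmtRedR`, `stmtRedL : StmtRedL`.

No cochain-level transfer is used.  With `I X = Coind_P^G Res_P X`:
* `unitC P X : X ⟶ I X`, `trC P X : I X ⟶ X` (trace), `unitC ≫ trC = [G:P]` (`unitC_trC_eq`),
  `trC` natural (`trC_naturality`);
* the explicit Shapiro map `shMap` (Shapiro.lean) is bijective on `H²`, natural, and
  `unit_* ≫ Sh = res`  (`map_unit_shMap`),  `(unit ≫ Coind g')_* ≫ Sh = g'_* ∘ res`;
* core (`sh_eq_zero_of_tr_eq_zero`): `t_* w = 0 ⇒ Sh w = 0` when `H²(P, C)` is generated by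
  the restriction of a global class.
-/
import Fermat.Agent.PT.A.Shapiro
import Fermat.Agent.PT.A.Kill

set_option autoImplicit false

namespace Fermat.Agent.PT.Red

open CategoryTheory groupCohomology Limits

variable {k : Type} [CommRing k] {G : Type} [Group G] (P : Subgroup G)

section Trace

variable (X : Rep.{0} k G)

/-- the summand of the trace: `y ↦ y • F(y⁻¹)`, constant on left cosets of `P` -/
noncomputable def trTerm (F : (Rep.coind P.subtype (Rep.res P.subtype X)).V) (y : G) : X.V :=
  X.ρ y (F.1 y⁻¹)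

lemma trTerm_mul (F : (Rep.coind P.subtype (Rep.res P.subtype X)).V) (y : G) (p : P) :
    trTerm P X F (y * p) = trTerm P X F y := by
  unfold trTerm
  have h1 : F.1 ((y * (p : G))⁻¹) = X.ρ (p : G)⁻¹ (F.1 y⁻¹) := by
    rw [mul_inv_rev]
    exact F.2 p⁻¹ y⁻¹
  rw [h1, map_mul, Module.End.mul_apply, ← Module.End.mul_apply (X.ρ (p : G)), ← map_mul,
    mul_inv_cancel, map_one, Module.End.one_apply]

lemma trTerm_eq_of_coset (F : (Rep.coind P.subtype (Rep.res P.subtype X)).V) (y y' : G)
    (h : (y : G ⧸ P) = (y' : G ⧸ P)) : trTerm P X F y = trTerm P X F y' := by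
  have h1 : y⁻¹ * y' ∈ P := QuotientGroup.eq.1 h
  have := trTerm_mul P X F y ⟨_, h1⟩
  simpa using this.symm

lemma trTerm_smul (F : (Rep.coind P.subtype (Rep.res P.subtype X)).V) (g y : G) :
    trTerm P X ((Rep.coind P.subtype (Rep.res P.subtype X)).ρ g F) y =
      X.ρ g (trTerm P X F (g⁻¹ * y)) := by
  unfold trTerm
  change X.ρ y (F.1 (y⁻¹ * g)) = _
  rw [mul_inv_rev, inv_inv, ← Module.End.mul_apply, ← map_mul, mul_inv_cancel_left]

variable [P.FiniteIndex]

/-- the trace `Coind_P^G Res_P X → X` as a linear map -/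
noncomputable def trLin : (Rep.coind P.subtype (Rep.res P.subtype X)).V →ₗ[k] X.V :=
  letI : Fintype (G ⧸ P) := Subgroup.fintypeQuotientOfFiniteIndex
  { toFun := fun F => ∑ c : G ⧸ P, trTerm P X F c.out
    map_add' := fun F F' => by
      rw [← Finset.sum_add_distrib]
      refine Finset.sum_congr rfl fun c _ => ?_
      unfold trTerm
      rw [← map_add]
      rfl
    map_smul' := fun a F => by
      rw [RingHom.id_apply, Finset.smul_sum]
      refine Finset.sum_congr rfl fun c _ => ?_
      unfold trTerm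
      rw [← map_smul]
      rfl }

lemma trLin_apply (F : (Rep.coind P.subtype (Rep.res P.subtype X)).V) :
    letI : Fintype (G ⧸ P) := Subgroup.fintypeQuotientOfFiniteIndex
    trLin P X F = ∑ c : G ⧸ P, trTerm P X F c.out := rfl

lemma trLin_comm (g : G) (F : (Rep.coind P.subtype (Rep.res P.subtype X)).V) :
    trLin P X ((Rep.coind P.subtype (Rep.res P.subtype X)).ρ g F) = X.ρ g (trLin P X F) := by
  classical
  let _ : Fintype (G ⧸ P) := Subgroup.fintypeQuotientOfFiniteIndex
  rw [trLin_apply, trLin_apply, map_sum]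
  have h1 : ∀ c : G ⧸ P, trTerm P X ((Rep.coind P.subtype (Rep.res P.subtype X)).ρ g F) c.out =
      X.ρ g (trTerm P X F ((g⁻¹ • c).out)) := by
    intro c
    rw [trTerm_smul]
    congr 1
    apply trTerm_eq_of_coset
    rw [QuotientGroup.out_eq']
    conv_rhs => rw [← QuotientGroup.out_eq' c]
    rfl
  rw [Finset.sum_congr rfl (fun c _ => h1 c)]
  exact Fintype.sum_equiv (MulAction.toPerm g⁻¹) _ _ (fun c => rfl)

/-- the trace `Coind_P^G Res_P X ⟶ X` -/
noncomputable def trC : Rep.coind P.subtype (Rep.res P.subtype X) ⟶ X :=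
  ConcreteCategory.ofHom (C := Rep.{0} k G)
    (X := Rep.coind P.subtype (Rep.res P.subtype X)) (Y := X)
    (LinearMap.intertwiningMap_of_isIntertwiningMap
      (ρ := (Rep.coind P.subtype (Rep.res P.subtype X)).ρ) (σ := X.ρ) (f := trLin P X)
      (fun g F => trLin_comm P X g F))

lemma trC_apply (F : (Rep.coind P.subtype (Rep.res P.subtype X)).V) :
    (trC P X).hom F = trLin P X F := rfl

/-- the unit `X ⟶ Coind_P^G Res_P X` -/
noncomputable def unitC (P : Subgroup G) (X : Rep.{0} k G) :
    X ⟶ Rep.coind P.subtype (Rep.res P.subtype X) :=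
  Rep.resCoindHomEquiv P.subtype X (Rep.res P.subtype X) (𝟙 _)

omit [P.FiniteIndex] in
lemma unitC_apply (x : X.V) (g : G) : ((unitC P X).hom x).1 g = X.ρ g x := rfl

lemma trC_unitC_apply (x : X.V) : (trC P X).hom ((unitC P X).hom x) = P.index • x := by
  classical
  let _ : Fintype (G ⧸ P) := Subgroup.fintypeQuotientOfFiniteIndex
  rw [trC_apply, trLin_apply]
  have h1 : ∀ c : G ⧸ P, trTerm P X ((unitC P X).hom x) c.out = x := by
    intro c
    unfold trTerm
    rw [unitC_apply, ← Module.End.mul_apply, ← map_mul, mul_inv_cancel, map_one,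
      Module.End.one_apply]
  rw [Finset.sum_congr rfl (fun c _ => h1 c), Finset.sum_const, Finset.card_univ]
  congr 1
  rw [Subgroup.index, Nat.card_eq_fintype_card]

end Trace


section Naturality

variable [P.FiniteIndex]

/-- naturality of the trace -/
lemma trC_naturality {X X' : Rep.{0} k G} (g : X ⟶ X') :
    trC P X ≫ g = Rep.coindMap P.subtype ((Rep.resFunctor P.subtype).map g) ≫ trC P X' := by
  classical
  ext F
  change g.hom (trLin P X F) = trLin P X' _
  let _ : Fintype (G ⧸ P) := Subgroup.fintypeQuotientOfFiniteIndex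
  rw [trLin_apply, trLin_apply, map_sum]
  refine Finset.sum_congr rfl fun c _ => ?_
  unfold trTerm
  rw [Rep.hom_comm_apply]
  rfl

lemma unitC_trC (X : Rep.{0} k G) : ∀ x : X.V, (unitC P X ≫ trC P X).hom x = P.index • x :=
  fun x => trC_unitC_apply P X x

end Naturality

section ShapiroCompat

/-- `Sh ∘ (Coind g')_* ∘ unit_* = g'_* ∘ res` -/
lemma map_unit_coindMap_shMap {M C : Rep.{0} k G}
    (g' : Rep.res P.subtype M ⟶ Rep.res P.subtype C) (n : ℕ) :
    map (MonoidHom.id G) (unitC P M ≫ Rep.coindMap P.subtype g') n ≫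
      shMap P (Rep.res P.subtype C) n = map P.subtype g' n := by
  unfold shMap
  rw [← map_comp]
  refine map_congr (MonoidHom.id_comp _) ?_ n
  ext m
  change g'.hom (M.ρ (1 : G) m) = g'.hom m
  rw [map_one]
  rfl

/-- `g'_* ∘ res` as a single `map` -/
lemma map_res_push {M C : Rep.{0} k G}
    (g' : Rep.res P.subtype M ⟶ Rep.res P.subtype C) (n : ℕ) :
    map P.subtype (𝟙 (Rep.res P.subtype M)) n ≫ map (MonoidHom.id P) g' n =
      map P.subtype g' n := by
  rw [← map_comp]
  exact map_congr (MonoidHom.comp_id _) (by ext m; rfl) n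

/-- naturality of the Shapiro map -/
lemma shMap_naturality {Y Y' : Rep.{0} k P} (φ : Y ⟶ Y') (n : ℕ) :
    map (MonoidHom.id G) (Rep.coindMap P.subtype φ) n ≫ shMap P Y' n =
      shMap P Y n ≫ map (MonoidHom.id P) φ n := by
  unfold shMap
  rw [← map_comp, ← map_comp]
  exact map_congr ((MonoidHom.id_comp _).trans (MonoidHom.comp_id _).symm) (by ext F; rfl) n

end ShapiroCompat


section Additivity

lemma map_id_nsmul {X X' : Rep.{0} k G} (φ : X ⟶ X') (m n : ℕ) :
    map (MonoidHom.id G) (m • φ) n = m • map (MonoidHom.id G) φ n := by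
  have h1 : ∀ ψ : X ⟶ X', map (MonoidHom.id G) ψ n =
      (HomologicalComplex.homologyFunctor (ModuleCat k) _ n).map
        ((cochainsFunctor k G).map ψ) := fun ψ => rfl
  rw [h1, h1, Functor.map_nsmul, Functor.map_nsmul]
  rfl

lemma unitC_trC_eq [P.FiniteIndex] (X : Rep.{0} k G) :
    unitC P X ≫ trC P X = P.index • 𝟙 X := by
  ext x
  refine (unitC_trC P X x).trans ?_
  rw [Rep.nsmul_hom]
  rfl

lemma map_unit_tr [P.FiniteIndex] (X : Rep.{0} k G) (n : ℕ) (x : groupCohomology X n) :
    (map (MonoidHom.id G) (trC P X) n).hom ((map (MonoidHom.id G) (unitC P X) n).hom x) =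
      P.index • x := by
  have h1 : map (MonoidHom.id G) (unitC P X) n ≫ map (MonoidHom.id G) (trC P X) n =
      P.index • 𝟙 _ := by
    have h2 := unitC_trC_eq P X
    rw [← map_id_comp, h2, map_id_nsmul, map_id]
  have := congr($(h1).hom x)
  exact this

lemma map_unit_shMap (X : Rep.{0} k G) (n : ℕ) :
    map (MonoidHom.id G) (unitC P X) n ≫ shMap P (Rep.res P.subtype X) n =
      map P.subtype (𝟙 (Rep.res P.subtype X)) n := by
  unfold shMap
  rw [← map_comp]
  refine map_congr (MonoidHom.id_comp _) ?_ n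
  ext m
  change X.ρ (1 : G) m = m
  rw [map_one]
  rfl

end Additivity


section Final

variable {G : Type} [Group G]

/-- push-forward along a `G`-morphism (abbreviation fixing the elaboration order) -/
noncomputable abbrev pushG {X X' : Rep.{0} ℤ G} (φ : X ⟶ X') (n : ℕ) :
    groupCohomology X n ⟶ groupCohomology X' n :=
  map (MonoidHom.id G) φ n

/-- two coprime annihilators -/
lemma eq_zero_of_coprime_nsmul {X : Type*} [AddCommGroup X] (x : X) {a b : ℕ}
    (hab : Nat.Coprime a b) (ha : a • x = 0) (hb : b • x = 0) : x = 0 := by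
  have h1 : (Nat.gcd a b) • x = 0 := by
    have h2 : ((Nat.gcd a b : ℕ) : ℤ) • x = 0 := by
      rw [Nat.gcd_eq_gcd_ab, add_smul, mul_comm (a : ℤ), mul_comm (b : ℤ), mul_smul, mul_smul,
        natCast_zsmul, natCast_zsmul, ha, hb, smul_zero, smul_zero, add_zero]
    rwa [natCast_zsmul] at h2
  rw [hab.gcd_eq_one, one_nsmul] at h1
  exact h1

/-- **core of the Sylow reduction**: a class `w ∈ H²(G, Coind_P^G C)` with vanishing trace has
vanishing Shapiro image, if `H²(P, C)` is generated by the restriction of a global class. -/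
theorem sh_eq_zero_of_tr_eq_zero (p : ℕ) [Fact p.Prime] [Fintype G] (P : Sylow p G)
    (C : Rep.{0} ℤ G) (u : H2 C) (hu : IsPFundClass p C u)
    (w : groupCohomology
      (Rep.coind (P : Subgroup G).subtype (Rep.res (P : Subgroup G).subtype C)) 2)
    (hw : (map (MonoidHom.id G) (trC (P : Subgroup G) C) 2).hom w = 0) :
    (shMap (P : Subgroup G) (Rep.res (P : Subgroup G).subtype C) 2).hom w = 0 := by
  classical
  obtain ⟨n, hn⟩ := hu.h2_gen (P : Subgroup G) P.isPGroup'
    ((shMap (P : Subgroup G) (Rep.res (P : Subgroup G).subtype C) 2).hom w)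
  -- `res u = Sh (unit_* u)`
  have hres : (resSub C (P : Subgroup G) 2).hom u =
      (shMap (P : Subgroup G) (Rep.res (P : Subgroup G).subtype C) 2).hom
        ((map (MonoidHom.id G) (unitC (P : Subgroup G) C) 2).hom u) :=
    (congr($(map_unit_shMap (P : Subgroup G) C 2).hom u)).symm
  have hw' : w = n • (map (MonoidHom.id G) (unitC (P : Subgroup G) C) 2).hom u := by
    apply (shMap_two_bijective (P : Subgroup G) _).1
    rw [map_zsmul, ← hres, hn]
  -- `0 = t_* w = n • index • u`
  have h0 : n • ((P : Subgroup G).index • u) = 0 := by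
    rw [← map_unit_tr (P : Subgroup G) C 2 u, ← map_zsmul, ← hw', hw]
  -- restrict to `P`
  have h1 : (P : Subgroup G).index •
      (shMap (P : Subgroup G) (Rep.res (P : Subgroup G).subtype C) 2).hom w = 0 := by
    rw [← hn, smul_comm, ← map_nsmul, ← map_zsmul, h0, map_zero]
  have h2 : Fintype.card (P : Subgroup G) •
      (shMap (P : Subgroup G) (Rep.res (P : Subgroup G).subtype C) 2).hom w = 0 :=
    stmtKill (P : Subgroup G) _ 1 _
  obtain ⟨m, hm⟩ := IsPGroup.iff_card.1 P.isPGroup'
  rw [← Nat.card_eq_fintype_card, hm] at h2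
  have hcop : Nat.Coprime (p ^ m) (P : Subgroup G).index :=
    Nat.Coprime.pow_left m ((Nat.Prime.coprime_iff_not_dvd Fact.out).2 P.not_dvd_index)
  exact eq_zero_of_coprime_nsmul _ hcop h2 h1


end Final

end Fermat.Agent.PT.Red

namespace Fermat.Agent.PT

open CategoryTheory groupCohomology Limits Red

/-- **(RedR)** -/
theorem stmtRedR : StmtRedR := by
  intro p _ G _ _ P C u hu M y hy g'
  classical
  -- the `G`-morphism `N(g') = t ∘ Coind(g') ∘ unit`
  have h1 := hy (unitC (P : Subgroup G) M ≫ Rep.coindMap (P : Subgroup G).subtype g' ≫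
    trC (P : Subgroup G) C)
  set w := (map (MonoidHom.id G)
    (unitC (P : Subgroup G) M ≫ Rep.coindMap (P : Subgroup G).subtype g') 2).hom y with hw
  have h2 : (map (MonoidHom.id G) (trC (P : Subgroup G) C) 2).hom w = 0 := by
    have h3 : map (MonoidHom.id G) (unitC (P : Subgroup G) M ≫
        Rep.coindMap (P : Subgroup G).subtype g' ≫ trC (P : Subgroup G) C) 2 =
        map (MonoidHom.id G) (unitC (P : Subgroup G) M ≫
          Rep.coindMap (P : Subgroup G).subtype g') 2 ≫
        map (MonoidHom.id G) (trC (P : Subgroup G) C) 2 := by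
      rw [← map_id_comp, Category.assoc]
    have := congr($(h3).hom y)
    exact this.symm.trans h1
  have h4 := sh_eq_zero_of_tr_eq_zero p P C u hu w h2
  have h5 : (shMap (P : Subgroup G) (Rep.res (P : Subgroup G).subtype C) 2).hom w =
      (map (P : Subgroup G).subtype g' 2).hom y :=
    congr($(map_unit_coindMap_shMap (P : Subgroup G) g' 2).hom y)
  have h6 : (push₂ g').hom ((resSub M (P : Subgroup G) 2).hom y) =
      (map (P : Subgroup G).subtype g' 2).hom y :=
    congr($(map_res_push (P : Subgroup G) g' 2).hom y)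
  rw [h6, ← h5, h4]

/-- **(RedL)** -/
theorem stmtRedL : StmtRedL := by
  intro p _ G _ _ P C u hu M g hg y'
  classical
  obtain ⟨yt, hyt⟩ := (shMap_two_bijective (P : Subgroup G)
    (Rep.res (P : Subgroup G).subtype M)).2 y'
  -- `yt` is killed by `|P|`
  obtain ⟨m, hm⟩ := IsPGroup.iff_card.1 P.isPGroup'
  have h1 : (p ^ m) • yt = 0 := by
    apply (shMap_two_bijective (P : Subgroup G) (Rep.res (P : Subgroup G).subtype M)).1
    rw [map_nsmul, map_zero, hyt, ← hm, Nat.card_eq_fintype_card]
    exact stmtKill (P : Subgroup G) _ 1 _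
  -- so its trace is `p`-torsion
  have h2 : IsPTors p ((map (MonoidHom.id G) (trC (P : Subgroup G) M) 2).hom yt) :=
    ⟨m, by rw [← map_nsmul, h1, map_zero]⟩
  have h3 := hg _ h2
  -- naturality of the trace
  set w := (map (MonoidHom.id G) (Rep.coindMap (P : Subgroup G).subtype
    ((Rep.resFunctor (P : Subgroup G).subtype).map g)) 2).hom yt with hw
  have h4 : (map (MonoidHom.id G) (trC (P : Subgroup G) C) 2).hom w = 0 := by
    have h5 : pushG (trC (P : Subgroup G) M) 2 ≫ push₂ g =
        pushG (Rep.coindMap (P : Subgroup G).subtype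
          ((Rep.resFunctor (P : Subgroup G).subtype).map g)) 2 ≫
        pushG (trC (P : Subgroup G) C) 2 := by
      rw [← map_id_comp, ← map_id_comp, trC_naturality]
    have := congr($(h5).hom yt)
    exact this.symm.trans h3
  have h6 := sh_eq_zero_of_tr_eq_zero p P C u hu w h4
  have h7 : (shMap (P : Subgroup G) (Rep.res (P : Subgroup G).subtype C) 2).hom w =
      (push₂ ((Rep.resFunctor (P : Subgroup G).subtype).map g)).hom
        ((shMap (P : Subgroup G) (Rep.res (P : Subgroup G).subtype M) 2).hom yt) :=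
    congr($(shMap_naturality (P : Subgroup G)
      ((Rep.resFunctor (P : Subgroup G).subtype).map g) 2).hom yt)
  rw [← hyt, ← h7, h6]

end Fermat.Agent.PT
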