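/-
PT-A piece SM (helper86): the splitting module of a fundamental class.

For a finite group `G`, `C : Rep ℤ G` and a generator `u` of `H²(G, C)` (of order `|G|`, with
`H¹(G, C) = 0`) we construct short exact sequences `0 → C → A → I → 0`, `0 → I → F → ℤ → 0`
with `F = Map(G, ℤ)` (left regular), `I = ker (augmentation)`, `A = C × I` with the action
twisted by a 2-cocycle `c` of `u`:  `σ (a, f) = (σ a + ∑ τ, f τ • c (σ, τ), σ f)`,
and prove `H¹(A) = H²(A) = 0`, `H¹(Hom(N, F)) = 0` by explicit cocycle computations.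
-/
import Fermat.Agent.PT.A.Plan2

set_option autoImplicit false
set_option linter.style.haveILetI false
set_option linter.unusedSectionVars false

namespace Fermat.Agent.PT.SM

open CategoryTheory groupCohomology

attribute [local instance 1100] Rep.hV2

variable {G : Type} [Group G]

/-! ### The regular module `F = Map(G, ℤ)` -/

/-- left translation on functions `G → ℤ` -/
def transAdd (σ : G) : (G → ℤ) →+ (G → ℤ) where
  toFun f := fun x => f (σ⁻¹ * x)
  map_zero' := rfl
  map_add' _ _ := rfl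

@[simp] lemma transAdd_apply (σ : G) (f : G → ℤ) (x : G) : transAdd σ f x = f (σ⁻¹ * x) := rfl

/-- the left regular representation on `G → ℤ` -/
noncomputable def ρF : Representation ℤ G (G → ℤ) where
  toFun σ := addToLin (transAdd σ)
  map_one' := by
    ext f x
    simp
  map_mul' σ τ := by
    ext f x
    simp [mul_assoc]

@[simp] lemma ρF_apply (σ : G) (f : G → ℤ) (x : G) : ρF σ f x = f (σ⁻¹ * x) := rfl

/-- `F = Map(G, ℤ)` as an object of `Rep ℤ G` -/
noncomputable abbrev repF (G : Type) [Group G] : Rep.{0} ℤ G := Rep.of (ρF (G := G))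

variable [Fintype G]

/-- the augmentation `f ↦ ∑ x, f x` -/
def augAdd (G : Type) [Fintype G] : (G → ℤ) →+ ℤ where
  toFun f := ∑ x, f x
  map_zero' := by simp
  map_add' f g := by simp [Finset.sum_add_distrib]

@[simp] lemma augAdd_apply (f : G → ℤ) : augAdd G f = ∑ x, f x := rfl

lemma augAdd_trans (σ : G) (f : G → ℤ) : augAdd G (transAdd σ f) = augAdd G f := by
  simp only [augAdd_apply, transAdd_apply]
  exact Fintype.sum_equiv (Equiv.mulLeft σ⁻¹) _ _ (fun x => rfl)

/-- the augmentation as a morphism `F ⟶ ℤ` -/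
noncomputable def eHom (G : Type) [Group G] [Fintype G] : repF G ⟶ Rep.trivial ℤ G ℤ :=
  ConcreteCategory.ofHom (C := Rep.{0} ℤ G) (X := repF G) (Y := Rep.trivial ℤ G ℤ)
    (LinearMap.intertwiningMap_of_isIntertwiningMap
      (ρ := ρF) (σ := (Rep.trivial ℤ G ℤ).ρ)
      (f := addToLin (augAdd G))
      (fun g f => by
        have := augAdd_trans g f
        simpa using this))


/-! ### The augmentation ideal `I` -/

/-- the carrier of the augmentation ideal -/
abbrev IV (G : Type) [Fintype G] : AddSubgroup (G → ℤ) := (augAdd G).ker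

lemma mem_IV {f : G → ℤ} : f ∈ IV G ↔ ∑ x, f x = 0 := Iff.rfl

lemma IV_sum (f : IV G) : ∑ x, (f : G → ℤ) x = 0 := f.2

/-- translation on the augmentation ideal -/
def transI (σ : G) : IV G →+ IV G :=
  ((transAdd σ).comp (IV G).subtype).codRestrict (IV G) (fun f => by
    change augAdd G (transAdd σ (f : G → ℤ)) = 0
    rw [augAdd_trans]
    exact f.2)

@[simp] lemma transI_apply (σ : G) (f : IV G) (x : G) :
    (transI σ f : G → ℤ) x = (f : G → ℤ) (σ⁻¹ * x) := rfl

/-- the representation on the augmentation ideal -/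
noncomputable def ρI : Representation ℤ G (IV G) where
  toFun σ := addToLin (transI σ)
  map_one' := by
    ext f x
    simp
  map_mul' σ τ := by
    ext f x
    simp [mul_assoc]

@[simp] lemma ρI_apply (σ : G) (f : IV G) (x : G) :
    (ρI σ f : G → ℤ) x = (f : G → ℤ) (σ⁻¹ * x) := rfl

/-- the augmentation ideal as an object of `Rep ℤ G` -/
noncomputable abbrev repI (G : Type) [Group G] [Fintype G] : Rep.{0} ℤ G := Rep.of (ρI (G := G))

/-- the inclusion `I ⟶ F` -/
noncomputable def jHom (G : Type) [Group G] [Fintype G] : repI G ⟶ repF G :=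
  ConcreteCategory.ofHom (C := Rep.{0} ℤ G) (X := repI G) (Y := repF G)
    (LinearMap.intertwiningMap_of_isIntertwiningMap
      (ρ := ρI) (σ := ρF)
      (f := addToLin (IV G).subtype)
      (fun g f => by
        ext x
        simp))

@[simp] lemma jHom_apply (f : IV G) : (jHom G).hom f = (f : G → ℤ) := rfl

@[simp] lemma eHom_apply (f : G → ℤ) : (eHom G).hom f = ∑ x, f x := rfl


lemma jHom_comp_eHom (G : Type) [Group G] [Fintype G] : jHom G ≫ eHom G = 0 := by
  ext f
  exact f.2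

lemma shortExact_IF (G : Type) [Group G] [Fintype G] :
    (ShortComplex.mk (jHom G) (eHom G) (jHom_comp_eHom G)).ShortExact where
  exact := (forget₂ (Rep.{0} ℤ G) (ModuleCat ℤ)).reflects_exact_of_faithful _ <|
    (ShortComplex.moduleCat_exact_iff _).2 fun x hx => ⟨⟨x, hx⟩, rfl⟩
  mono_f := (Rep.mono_iff_injective _).2 fun _ _ h => Subtype.ext h
  epi_g := (Rep.epi_iff_surjective _).2 fun n => by
    classical
    refine ⟨Pi.single (1 : G) n, ?_⟩
    change ∑ x, (Pi.single (1 : G) n : G → ℤ) x = n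
    simp


/-! ### The splitting module `A = C × I` with twisted action -/

section Twist

variable (C : Rep.{0} ℤ G) (c : cocycles₂ C)

/-- `(∑ τ, f τ) • a = ∑ τ, f τ • a` for the canonical `ℤ`-action. -/
lemma sum_zsmul' {X : Type*} [AddCommGroup X] (f : G → ℤ) (a : X) :
    (∑ τ, f τ) • a = ∑ τ, f τ • a :=
  map_sum (zmultiplesHom X a) f Finset.univ

/-- `φ_σ(f) = ∑ τ, f τ • c (σ, τ)` -/
def phiAdd (σ : G) : (G → ℤ) →+ C.V where
  toFun f := ∑ τ, f τ • c (σ, τ)
  map_zero' := by simp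
  map_add' f g := by
    simp only [Pi.add_apply, add_zsmul, Finset.sum_add_distrib]

lemma phiAdd_apply (σ : G) (f : G → ℤ) : phiAdd C c σ f = ∑ τ, f τ • c (σ, τ) := rfl

lemma phiAdd_one (f : G → ℤ) : phiAdd C c 1 f = (∑ τ, f τ) • c (1, 1) := by
  rw [phiAdd_apply, sum_zsmul']
  refine Finset.sum_congr rfl fun τ _ => ?_
  rw [cocycles₂_map_one_fst c τ]

lemma phiAdd_mul (ρ σ : G) (f : G → ℤ) :
    phiAdd C c (ρ * σ) f + (∑ τ, f τ) • c (ρ, σ) =
      C.ρ ρ (phiAdd C c σ f) + phiAdd C c ρ (transAdd σ f) := by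
  have h1 : phiAdd C c ρ (transAdd σ f) = ∑ τ, f τ • c (ρ, σ * τ) := by
    rw [phiAdd_apply]
    refine Fintype.sum_equiv (Equiv.mulLeft σ⁻¹) _ _ (fun τ => ?_)
    simp
  rw [h1, phiAdd_apply, phiAdd_apply, map_sum, sum_zsmul', ← Finset.sum_add_distrib,
    ← Finset.sum_add_distrib]
  refine Finset.sum_congr rfl fun τ _ => ?_
  rw [map_zsmul, ← zsmul_add, ← zsmul_add]
  congr 1
  exact (mem_cocycles₂_iff c).1 c.2 ρ σ τ

/-- the twisted action on `C × I` -/
def actA (σ : G) : (C.V × IV G) →+ (C.V × IV G) where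
  toFun p := (C.ρ σ p.1 + phiAdd C c σ (p.2 : G → ℤ), transI σ p.2)
  map_zero' := by simp
  map_add' p q := by
    ext1
    · simp only [Prod.fst_add, Prod.snd_add, AddSubgroup.coe_add, map_add]
      abel
    · simp

@[simp] lemma actA_fst (σ : G) (p : C.V × IV G) :
    (actA C c σ p).1 = C.ρ σ p.1 + phiAdd C c σ (p.2 : G → ℤ) := rfl

@[simp] lemma actA_snd (σ : G) (p : C.V × IV G) : (actA C c σ p).2 = transI σ p.2 := rfl

/-- the representation on the splitting module -/
noncomputable def ρA : Representation ℤ G (C.V × IV G) where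
  toFun σ := addToLin (actA C c σ)
  map_one' := by
    apply LinearMap.ext
    intro p
    apply Prod.ext
    · simp [phiAdd_one, IV_sum]
    · ext x; simp
  map_mul' σ τ := by
    apply LinearMap.ext
    intro p
    apply Prod.ext
    · have h := phiAdd_mul C c σ τ (p.2 : G → ℤ)
      rw [IV_sum, zero_zsmul, add_zero] at h
      simp only [addToLin_apply, actA_fst, Module.End.mul_apply, actA_snd, map_mul, map_add, h]
      have : ((transI τ p.2 : IV G) : G → ℤ) = transAdd τ (p.2 : G → ℤ) := rfl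
      rw [this]
      abel
    · ext x
      simp [mul_assoc]

@[simp] lemma ρA_fst (σ : G) (p : C.V × IV G) :
    (ρA C c σ p).1 = C.ρ σ p.1 + phiAdd C c σ (p.2 : G → ℤ) := rfl

@[simp] lemma ρA_snd (σ : G) (p : C.V × IV G) : (ρA C c σ p).2 = transI σ p.2 := rfl

/-- the splitting module as an object of `Rep ℤ G` -/
noncomputable abbrev repA : Rep.{0} ℤ G := Rep.of (ρA C c)

/-- the inclusion `C ⟶ A` -/
noncomputable def ιHom : C ⟶ repA C c :=
  ConcreteCategory.ofHom (C := Rep.{0} ℤ G) (X := C) (Y := repA C c)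
    (LinearMap.intertwiningMap_of_isIntertwiningMap
      (ρ := C.ρ) (σ := ρA C c)
      (f := addToLin (AddMonoidHom.inl C.V (IV G)))
      (fun g a => by
        apply Prod.ext
        · simp
        · ext x; simp))

@[simp] lemma ιHom_apply (a : C.V) : (ιHom C c).hom a = (a, 0) := rfl

/-- the projection `A ⟶ I` -/
noncomputable def πHom : repA C c ⟶ repI G :=
  ConcreteCategory.ofHom (C := Rep.{0} ℤ G) (X := repA C c) (Y := repI G)
    (LinearMap.intertwiningMap_of_isIntertwiningMap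
      (ρ := ρA C c) (σ := ρI)
      (f := addToLin (AddMonoidHom.snd C.V (IV G)))
      (fun g p => by
        ext x; simp))

@[simp] lemma πHom_apply (p : C.V × IV G) : (πHom C c).hom p = p.2 := rfl

lemma ιHom_comp_πHom : ιHom C c ≫ πHom C c = 0 := by
  ext a
  rfl

lemma shortExact_CA :
    (ShortComplex.mk (ιHom C c) (πHom C c) (ιHom_comp_πHom C c)).ShortExact where
  exact := (forget₂ (Rep.{0} ℤ G) (ModuleCat ℤ)).reflects_exact_of_faithful _ <|
    (ShortComplex.moduleCat_exact_iff _).2 fun x hx => ⟨x.1, by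
      apply Prod.ext
      · rfl
      · exact hx.symm⟩
  mono_f := (Rep.mono_iff_injective _).2 fun a b h => congrArg Prod.fst h
  epi_g := (Rep.epi_iff_surjective _).2 fun f => ⟨(0, f), rfl⟩

end Twist


/-! ### `H¹(G, Hom(N, F)) = 0` -/

theorem subsingleton_H1_homRep_F (N : Rep.{0} ℤ G) :
    Subsingleton (H1 (homRep N (repF G))) := by
  refine ⟨fun a b => ?_⟩
  suffices h : ∀ a : H1 (homRep N (repF G)), a = 0 by rw [h a, h b]
  intro a
  induction a using H1_induction_on with | @h z =>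
  rw [H1π_eq_zero_iff]
  have hz : ∀ σ τ : G, z (σ * τ) = (homRep N (repF G)).ρ σ (z τ) + z σ :=
    (mem_cocycles₁_iff z).1 z.2
  -- the primitive
  let y : N.V →+ (G → ℤ) :=
    { toFun := fun n x => (z x⁻¹ : N.V →+ (G → ℤ)) (N.ρ x⁻¹ n) 1
      map_zero' := by
        funext x
        rw [map_zero, map_zero]
        rfl
      map_add' := fun n m => by
        funext x
        rw [map_add, map_add]
        rfl }
  refine ⟨y, ?_⟩
  funext σ
  apply AddMonoidHom.ext
  intro n
  funext x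
  have h1 := congrArg (fun φ : N.V →+ (G → ℤ) => φ (N.ρ x⁻¹ n) 1) (hz x⁻¹ σ)
  simp only [] at h1
  have e1 : (((homRep N (repF G)).ρ x⁻¹ (z σ) + z x⁻¹ : N.V →+ (G → ℤ))) (N.ρ x⁻¹ n) 1
      = (z σ : N.V →+ (G → ℤ)) n x + (z x⁻¹ : N.V →+ (G → ℤ)) (N.ρ x⁻¹ n) 1 := by
    change (repF G).ρ x⁻¹ ((z σ : N.V →+ (G → ℤ)) (N.ρ x⁻¹⁻¹ (N.ρ x⁻¹ n))) 1 + _ = _
    rw [inv_inv, ← Module.End.mul_apply, ← map_mul, mul_inv_cancel, map_one]
    simp
  rw [e1] at h1
  change (homRep N (repF G)).ρ σ y n x - y n x = (z σ : N.V →+ (G → ℤ)) n x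
  change (repF G).ρ σ (y (N.ρ σ⁻¹ n)) x - y n x = _
  change (z (σ⁻¹ * x)⁻¹ : N.V →+ (G → ℤ)) (N.ρ (σ⁻¹ * x)⁻¹ (N.ρ σ⁻¹ n)) 1 -
    (z x⁻¹ : N.V →+ (G → ℤ)) (N.ρ x⁻¹ n) 1 = _
  have e2 : (σ⁻¹ * x)⁻¹ = x⁻¹ * σ := by group
  rw [e2, ← Module.End.mul_apply, ← map_mul, mul_assoc, mul_inv_cancel, mul_one, h1]
  abel


/-! ### `H¹(G, A) = 0` -/

section H1A

variable (C : Rep.{0} ℤ G) (c : cocycles₂ C)

/-- the basic identity (★) for a 1-cocycle of `A` whose `I`-component is `σ y - y` -/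
lemma star_identity (z : G → C.V × IV G)
    (hz : ∀ σ τ : G, z (σ * τ) = ρA C c σ (z τ) + z σ)
    (y : G → ℤ) (hy : ∀ σ, ((z σ).2 : G → ℤ) = transAdd σ y - y) (σ τ : G) :
    (z (σ * τ)).1 - phiAdd C c (σ * τ) y =
      C.ρ σ ((z τ).1 - phiAdd C c τ y) + ((z σ).1 - phiAdd C c σ y) + (∑ x, y x) • c (σ, τ) := by
  have h1 := congrArg Prod.fst (hz σ τ)
  rw [Prod.fst_add, ρA_fst, hy τ, map_sub] at h1
  have h2 := phiAdd_mul C c σ τ y
  rw [h1, map_sub]
  linear_combination (norm := abel) -h2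

theorem subsingleton_H1_repA
    (hH1 : ∀ a : G → C.V, (∀ σ τ : G, a (σ * τ) = C.ρ σ (a τ) + a σ) →
      ∃ a₀ : C.V, ∀ σ, a σ = C.ρ σ a₀ - a₀)
    (hord : ∀ n : ℤ, (∃ b : G → C.V, ∀ σ τ : G,
      n • c (σ, τ) = C.ρ σ (b τ) - b (σ * τ) + b σ) → (Fintype.card G : ℤ) ∣ n) :
    Subsingleton (H1 (repA C c)) := by
  refine ⟨fun a b => ?_⟩
  suffices h : ∀ a : H1 (repA C c), a = 0 by rw [h a, h b]
  intro a
  induction a using H1_induction_on with | @h z =>
  rw [H1π_eq_zero_iff]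
  have hz : ∀ σ τ : G, z (σ * τ) = ρA C c σ (z τ) + z σ := (mem_cocycles₁_iff z).1 z.2
  -- the `I`-component is a coboundary in `F`
  set y₀ : G → ℤ := fun x => ((z x⁻¹).2 : G → ℤ) 1 with hy₀
  have hf : ∀ σ, ((z σ).2 : G → ℤ) = transAdd σ y₀ - y₀ := by
    intro σ
    funext x
    have h2 := congrArg (fun p : C.V × IV G => (p.2 : G → ℤ) 1) (hz x⁻¹ σ)
    simp only [Prod.snd_add, ρA_snd, AddSubgroup.coe_add, Pi.add_apply, transI_apply, inv_inv,
      mul_one] at h2
    simp only [Pi.sub_apply, transAdd_apply, hy₀]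
    have e2 : (σ⁻¹ * x)⁻¹ = x⁻¹ * σ := by group
    rw [e2, h2]
    abel
  -- `n • c` is a coboundary
  have hn : (Fintype.card G : ℤ) ∣ ∑ x, y₀ x := by
    apply hord
    refine ⟨fun σ => -((z σ).1 - phiAdd C c σ y₀), fun σ τ => ?_⟩
    have := star_identity C c z hz y₀ hf σ τ
    beta_reduce
    rw [map_neg]
    linear_combination (norm := abel) -this
  obtain ⟨k, hk⟩ := hn
  -- the corrected primitive lies in `I`
  have hy₂mem : (y₀ - fun _ => k) ∈ IV G := by
    rw [mem_IV]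
    simp only [Pi.sub_apply, Finset.sum_sub_distrib, Finset.sum_const, Finset.card_univ, hk]
    simp
  set y₂ : IV G := ⟨y₀ - fun _ => k, hy₂mem⟩ with hy₂
  have hf₂ : ∀ σ, ((z σ).2 : G → ℤ) = transAdd σ (y₂ : G → ℤ) - (y₂ : G → ℤ) := by
    intro σ
    rw [hf σ]
    funext x
    simp [hy₂]
  -- the `C`-component is a cocycle, hence a coboundary
  obtain ⟨a₀, ha₀⟩ := hH1 (fun σ => (z σ).1 - phiAdd C c σ (y₂ : G → ℤ)) (by
    intro σ τ
    have := star_identity C c z hz (y₂ : G → ℤ) hf₂ σ τ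
    rw [IV_sum, zero_zsmul, add_zero] at this
    exact this)
  refine ⟨((a₀, y₂) : C.V × IV G), ?_⟩
  funext σ
  change ρA C c σ (a₀, y₂) - (a₀, y₂) = z σ
  apply Prod.ext
  · have := ha₀ σ
    simp only [] at this
    rw [Prod.fst_sub, ρA_fst]
    linear_combination (norm := abel) -this
  · apply Subtype.ext
    rw [Prod.snd_sub, ρA_snd, AddSubgroup.coe_sub, hf₂ σ]
    rfl

end H1A


/-! ### `H²(G, A) = 0` -/

section H2A

variable (C : Rep.{0} ℤ G) (c : cocycles₂ C)

lemma phiAdd_single [DecidableEq G] (σ τ : G) (m : ℤ) :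
    phiAdd C c σ (Pi.single τ m) = m • c (σ, τ) := by
  rw [phiAdd_apply, Finset.sum_eq_single τ]
  · simp
  · intro ρ _ hρ
    simp [Pi.single_eq_of_ne hρ]
  · intro h
    exact absurd (Finset.mem_univ τ) h

/-- an additive function on a finite group with values in `ℤ` vanishes -/
lemma eq_zero_of_additive (s : G → ℤ) (hs : ∀ σ τ : G, s (σ * τ) = s σ + s τ) (σ : G) :
    s σ = 0 := by
  have h1 : s 1 = 0 := by
    have := hs 1 1
    rw [mul_one] at this
    omega
  have hpow : ∀ n : ℕ, s (σ ^ n) = n * s σ := by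
    intro n
    induction n with
    | zero => simp [h1]
    | succ n ih =>
      rw [pow_succ, hs, ih]
      push_cast
      ring
  have h2 := hpow (Fintype.card G)
  rw [pow_card_eq_one, h1] at h2
  have h3 : (Fintype.card G : ℤ) ≠ 0 := by
    exact_mod_cast Fintype.card_ne_zero
  rcases mul_eq_zero.1 h2.symm with h | h
  · exact absurd h h3
  · exact h

theorem subsingleton_H2_repA
    (hgen : ∀ a : G × G → C.V, a ∈ cocycles₂ C →
      ∃ (m : ℤ) (b : G → C.V), ∀ σ τ : G,
        a (σ, τ) = m • c (σ, τ) + (C.ρ σ (b τ) - b (σ * τ) + b σ)) :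
    Subsingleton (H2 (repA C c)) := by
  classical
  refine ⟨fun a b => ?_⟩
  suffices h : ∀ a : H2 (repA C c), a = 0 by rw [h a, h b]
  intro a
  induction a using H2_induction_on with | @h z =>
  rw [H2π_eq_zero_iff]
  have hz : ∀ ρ σ τ : G, z (ρ * σ, τ) + z (ρ, σ) = ρA C c ρ (z (σ, τ)) + z (ρ, σ * τ) :=
    (mem_cocycles₂_iff z).1 z.2
  -- the `I`-component is a coboundary in `F`
  set g : G → G → ℤ := fun σ x => ((z (x⁻¹, σ)).2 : G → ℤ) 1 with hg
  have hfg : ∀ σ τ : G, ((z (σ, τ)).2 : G → ℤ) = transAdd σ (g τ) - g (σ * τ) + g σ := by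
    intro σ τ
    funext x
    have h2 := congrArg (fun p : C.V × IV G => (p.2 : G → ℤ) 1) (hz x⁻¹ σ τ)
    simp only [Prod.snd_add, ρA_snd, AddSubgroup.coe_add, Pi.add_apply, transI_apply, inv_inv,
      mul_one] at h2
    simp only [Pi.sub_apply, Pi.add_apply, transAdd_apply, hg]
    have e2 : (σ⁻¹ * x)⁻¹ = x⁻¹ * σ := by group
    rw [e2]
    linear_combination (norm := abel) -h2
  -- `g σ` lies in `I`
  have hs : ∀ σ, ∑ x, g σ x = 0 := by
    apply eq_zero_of_additive
    intro σ τ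
    have h1 : ∑ x, ((z (σ, τ)).2 : G → ℤ) x = 0 := IV_sum _
    rw [hfg σ τ] at h1
    simp only [Pi.sub_apply, Pi.add_apply, Finset.sum_add_distrib, Finset.sum_sub_distrib] at h1
    have h2 : ∑ x, transAdd σ (g τ) x = ∑ x, g τ x := augAdd_trans σ (g τ)
    rw [h2] at h1
    omega
  set gI : G → IV G := fun σ => ⟨g σ, hs σ⟩ with hgI
  -- the `C`-component, corrected, is a 2-cocycle
  obtain ⟨m, b, hmb⟩ := hgen (fun p => (z p).1 - phiAdd C c p.1 (g p.2)) (by
    rw [mem_cocycles₂_iff]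
    intro ρ σ τ
    have h1 := congrArg Prod.fst (hz ρ σ τ)
    rw [Prod.fst_add, Prod.fst_add, ρA_fst, hfg σ τ, map_add, map_sub] at h1
    have h2 := phiAdd_mul C c ρ σ (g τ)
    rw [hs τ, zero_zsmul, add_zero] at h2
    rw [map_sub]
    linear_combination (norm := abel) h1 - h2)
  -- the primitive
  have hEmem : ∀ σ : G, (Pi.single σ (1 : ℤ) - Pi.single (1 : G) (1 : ℤ) : G → ℤ) ∈ IV G := by
    intro σ
    rw [mem_IV]
    simp [Finset.sum_sub_distrib]
  set E : G → IV G := fun σ => ⟨Pi.single σ (1 : ℤ) - Pi.single (1 : G) (1 : ℤ), hEmem σ⟩ with hE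
  refine ⟨(fun σ => ((m • c (1, 1) + b σ, gI σ + m • E σ) : C.V × IV G)), ?_⟩
  funext ⟨σ, τ⟩
  change ρA C c σ (m • c (1, 1) + b τ, gI τ + m • E τ)
    - (m • c (1, 1) + b (σ * τ), gI (σ * τ) + m • E (σ * τ))
    + (m • c (1, 1) + b σ, gI σ + m • E σ) = z (σ, τ)
  apply Prod.ext
  · have h1 := hmb σ τ
    dsimp only at h1
    have h3 : phiAdd C c σ ((gI τ + m • E τ : IV G) : G → ℤ) =
        phiAdd C c σ (g τ) + (m • c (σ, τ) - m • C.ρ σ (c (1, 1))) := by
      have : ((gI τ + m • E τ : IV G) : G → ℤ) =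
          g τ + (Pi.single τ m - Pi.single (1 : G) m) := by
        funext x
        simp only [AddSubgroup.coe_add, Pi.add_apply, hgI, hE, AddSubgroup.coe_zsmul,
          Pi.smul_apply, Pi.sub_apply, smul_eq_mul, Pi.single_apply]
        split_ifs <;> ring
      rw [this, map_add, map_sub, phiAdd_single, phiAdd_single, cocycles₂_map_one_snd c σ]
    rw [Prod.fst_add, Prod.fst_sub, ρA_fst, h3, map_add, map_zsmul]
    dsimp only
    linear_combination (norm := abel) -h1
  · apply Subtype.ext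
    rw [Prod.snd_add, Prod.snd_sub, ρA_snd, hfg σ τ]
    funext x
    simp only [AddSubgroup.coe_add, AddSubgroup.coe_sub, Pi.add_apply, Pi.sub_apply,
      transI_apply, transAdd_apply, hgI, hE, AddSubgroup.coe_zsmul, Pi.smul_apply, smul_eq_mul]
    have e1 : (Pi.single τ (1 : ℤ) : G → ℤ) (σ⁻¹ * x) = (Pi.single (σ * τ) (1 : ℤ) : G → ℤ) x := by
      simp only [Pi.single_apply]
      have : (σ⁻¹ * x = τ) ↔ (x = σ * τ) := by
        constructor
        · intro h; rw [← h]; group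
        · intro h; rw [h]; group
      simp only [this]
    have e2 : (Pi.single (1 : G) (1 : ℤ) : G → ℤ) (σ⁻¹ * x) = (Pi.single σ (1 : ℤ) : G → ℤ) x := by
      simp only [Pi.single_apply]
      have : (σ⁻¹ * x = 1) ↔ (x = σ) := by
        constructor
        · intro h
          have := congrArg (fun y => σ * y) h
          simpa using this
        · intro h; rw [h]; group
      simp only [this]
    rw [e1, e2]
    ring

end H2A


/-! ### Assembly -/

section Assembly

variable (C : Rep.{0} ℤ G)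

/-- the canonical `ℤ`-multiple of a 2-cocycle -/
lemma zsmul_mem_cocycles₂ (n : ℤ) (c : cocycles₂ C) :
    (fun p => n • c p : G × G → C.V) ∈ cocycles₂ C := by
  rw [mem_cocycles₂_iff]
  intro ρ σ τ
  have := (mem_cocycles₂_iff c).1 c.2 ρ σ τ
  rw [map_zsmul, ← zsmul_add, ← zsmul_add, this]

lemma H2π_zsmul (n : ℤ) (c : cocycles₂ C) :
    H2π C ⟨fun p => n • c p, zsmul_mem_cocycles₂ C n c⟩ = n • H2π C c := by
  have h : (⟨fun p => n • c p, zsmul_mem_cocycles₂ C n c⟩ : cocycles₂ C) = n • c := by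
    apply Subtype.ext
    funext p
    rfl
  rw [h]
  exact map_zsmul ((H2π C).hom).toAddMonoidHom n c

end Assembly

end Fermat.Agent.PT.SM

namespace Fermat.Agent.PT

open CategoryTheory groupCohomology SM

attribute [local instance 1100] Rep.hV2

theorem stmtSM : StmtSM := by
  intro G _ _ C u hu
  obtain ⟨c, rfl⟩ : ∃ c : cocycles₂ C, H2π C c = u := by
    induction u using H2_induction_on with | @h c => exact ⟨c, rfl⟩
  have hH1 : ∀ a : G → C.V, (∀ σ τ : G, a (σ * τ) = C.ρ σ (a τ) + a σ) →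
      ∃ a₀ : C.V, ∀ σ, a σ = C.ρ σ a₀ - a₀ := by
    intro a ha
    have hmem : a ∈ cocycles₁ C := (mem_cocycles₁_iff a).2 ha
    have h0 : H1π C ⟨a, hmem⟩ = 0 := @Subsingleton.elim _ hu.h1 _ _
    rw [H1π_eq_zero_iff] at h0
    obtain ⟨a₀, ha₀⟩ := h0
    refine ⟨a₀, fun σ => ?_⟩
    have := congrFun ha₀ σ
    simp only [d₀₁_hom_apply] at this
    exact this.symm
  have hord : ∀ n : ℤ, (∃ b : G → C.V, ∀ σ τ : G,
      n • c (σ, τ) = C.ρ σ (b τ) - b (σ * τ) + b σ) → (Fintype.card G : ℤ) ∣ n := by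
    rintro n ⟨b, hb⟩
    have h1 : H2π C ⟨fun p => n • c p, zsmul_mem_cocycles₂ C n c⟩ = 0 := by
      rw [H2π_eq_zero_iff]
      refine ⟨b, ?_⟩
      funext ⟨σ, τ⟩
      rw [d₁₂_hom_apply]
      exact (hb σ τ).symm
    rw [H2π_zsmul] at h1
    have hord' : addOrderOf (H2π C c) = Nat.card (H2 C) := by
      apply addOrderOf_eq_card_of_forall_mem_zmultiples
      intro x
      rw [AddSubgroup.mem_zmultiples_iff]
      exact hu.h2_gen x
    rw [hu.h2_card, Nat.card_eq_fintype_card] at hord'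
    rw [← hord']
    exact addOrderOf_dvd_iff_zsmul_eq_zero.2 h1
  have hgen : ∀ a : G × G → C.V, a ∈ cocycles₂ C →
      ∃ (m : ℤ) (b : G → C.V), ∀ σ τ : G,
        a (σ, τ) = m • c (σ, τ) + (C.ρ σ (b τ) - b (σ * τ) + b σ) := by
    intro a ha
    obtain ⟨m, hm⟩ := hu.h2_gen (H2π C ⟨a, ha⟩)
    have h1 : H2π C ⟨a, ha⟩ = H2π C ⟨fun p => m • c p, zsmul_mem_cocycles₂ C m c⟩ := by
      rw [H2π_zsmul]
      exact hm.symm
    rw [H2π_eq_iff] at h1
    obtain ⟨b, hb⟩ := h1
    refine ⟨m, b, fun σ τ => ?_⟩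
    have := congrFun hb (σ, τ)
    rw [d₁₂_hom_apply] at this
    simp only [Pi.sub_apply] at this
    change C.ρ σ (b τ) - b (σ * τ) + b σ = a (σ, τ) - m • c (σ, τ) at this
    rw [this]
    abel
  exact ⟨repA C c, repI G, repF G, ιHom C c, πHom C c, jHom G, eHom G, ιHom_comp_πHom C c,
    jHom_comp_eHom G, shortExact_CA C c, shortExact_IF G, subsingleton_H1_repA C c hH1 hord,
    subsingleton_H2_repA C c hgen, fun N _ => subsingleton_H1_homRep_F N⟩

end Fermat.Agent.PT
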