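/-
PT-A, piece TN0 (helper81): Tate–Nakayama in degree `0`, surjectivity.
`stmtTN0_of : StmtSM → StmtCT → StmtHomEx → StmtTN0`.
-/
import Fermat.Agent.PT.A.Plan2

set_option autoImplicit false
set_option linter.unusedVariables false
set_option linter.unusedSectionVars false

namespace Fermat.Agent.PT

open CategoryTheory groupCohomology

attribute [local instance 1100] Rep.hV2

variable {G : Type} [Group G]

/-! ### functoriality of `homRepMap`, `mulHom` -/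

theorem tn0_homRepMap_comp (N : Rep.{0} ℤ G) {X Y Z : Rep.{0} ℤ G} (f : X ⟶ Y) (g : Y ⟶ Z) :
    homRepMap N (f ≫ g) = homRepMap N f ≫ homRepMap N g := by
  apply Rep.hom_ext
  ext φ n
  rfl

theorem tn0_homRepMap_zero (N : Rep.{0} ℤ G) (X Y : Rep.{0} ℤ G) :
    homRepMap N (0 : X ⟶ Y) = 0 := by
  apply Rep.hom_ext
  ext φ n
  rfl

theorem tn0_homRepMap_comp_zero (N : Rep.{0} ℤ G) {X Y Z : Rep.{0} ℤ G} (f : X ⟶ Y) (g : Y ⟶ Z)
    (w : f ≫ g = 0) : homRepMap N f ≫ homRepMap N g = 0 := by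
  rw [← tn0_homRepMap_comp, w, tn0_homRepMap_zero]

theorem tn0_mulHom_comm (N : Rep.{0} ℤ G) {X Y : Rep.{0} ℤ G} (f : X ⟶ Y) (x : N.V →+ ℤ)
    (hx : ∀ (g : G) (m : N.V), x (N.ρ g m) = x m) :
    mulHom N X x hx ≫ homRepMap N f = f ≫ mulHom N Y x hx := by
  apply Rep.hom_ext
  ext c n
  show f.hom (x n • c) = x n • f.hom c
  exact map_zsmul _ _ _

/-- the morphism of short complexes `S ⟶ Hom(N, S)` given by multiplication with `x` -/
noncomputable def tn0_mulSC (N : Rep.{0} ℤ G) {X Y Z : Rep.{0} ℤ G} (f : X ⟶ Y) (g : Y ⟶ Z)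
    (w : f ≫ g = 0) (x : N.V →+ ℤ) (hx : ∀ (g : G) (m : N.V), x (N.ρ g m) = x m) :
    ShortComplex.mk f g w ⟶
      ShortComplex.mk (homRepMap N f) (homRepMap N g) (tn0_homRepMap_comp_zero N f g w) where
  τ₁ := mulHom N X x hx
  τ₂ := mulHom N Y x hx
  τ₃ := mulHom N Z x hx
  comm₁₂ := tn0_mulHom_comm N f x hx
  comm₂₃ := tn0_mulHom_comm N g x hx

/-! ### additivity of the push-forward in the morphism -/

theorem tn0_map_add {M C : Rep.{0} ℤ G} (f g : M ⟶ C) (n : ℕ) :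
    groupCohomology.map (MonoidHom.id G) (f + g) n =
      groupCohomology.map (MonoidHom.id G) f n + groupCohomology.map (MonoidHom.id G) g n := by
  have h1 : cochainsMap (MonoidHom.id G) (f + g) =
      cochainsMap (MonoidHom.id G) f + cochainsMap (MonoidHom.id G) g :=
    (cochainsFunctor ℤ G).map_add
  unfold groupCohomology.map
  rw [h1]
  exact HomologicalComplex.homologyMap_add _ _ _

/-- the push-forward as an additive map in the morphism -/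
noncomputable def tn0_mapHom (M C : Rep.{0} ℤ G) (n : ℕ) :
    (M ⟶ C) →+ (groupCohomology M n ⟶ groupCohomology C n) :=
  AddMonoidHom.mk' (fun f => groupCohomology.map (MonoidHom.id G) f n)
    (fun f g => tn0_map_add f g n)

theorem tn0_map_zsmul {M C : Rep.{0} ℤ G} (f : M ⟶ C) (k : ℤ) (n : ℕ) :
    groupCohomology.map (MonoidHom.id G) (k • f) n =
      k • groupCohomology.map (MonoidHom.id G) f n :=
  map_zsmul (tn0_mapHom M C n) k f

theorem tn0_mulHom_zsmul (N C : Rep.{0} ℤ G) (x : N.V →+ ℤ)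
    (hx : ∀ (g : G) (m : N.V), x (N.ρ g m) = x m) (k : ℤ)
    (hkx : ∀ (g : G) (m : N.V), (k • x) (N.ρ g m) = (k • x) m) :
    mulHom N C (k • x) hkx = k • mulHom N C x hx := by
  apply Rep.hom_ext
  ext c n
  show (k • x) n • c = k • (x n • c)
  rw [AddMonoidHom.smul_apply, smul_eq_mul, mul_smul]

/-! ### `H⁰(G, Hom(N, ℤ))` -/

/-- the class of `1` in `H⁰(G, ℤ)` -/
noncomputable def tn0_one : groupCohomology (Rep.trivial ℤ G ℤ) 0 :=
  (H0Iso (Rep.trivial ℤ G ℤ)).inv ⟨(1 : ℤ), fun g => rfl⟩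

theorem tn0_H0_eq (N : Rep.{0} ℤ G) (ξ : groupCohomology (homRep N (Rep.trivial ℤ G ℤ)) 0) :
    ∃ (x : N.V →+ ℤ) (hx : ∀ (g : G) (m : N.V), x (N.ρ g m) = x m),
      ξ = (groupCohomology.map (MonoidHom.id G) (mulHom N (Rep.trivial ℤ G ℤ) x hx) 0).hom
        tn0_one := by
  set x₀ := (H0Iso (homRep N (Rep.trivial ℤ G ℤ))).hom ξ with hx₀
  have hinv : ∀ g : G, (homRepρ N (Rep.trivial ℤ G ℤ)) g x₀.1 = x₀.1 := fun g => x₀.2 g
  let x : N.V →+ ℤ := x₀.1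
  have hx : ∀ (g : G) (m : N.V), x (N.ρ g m) = x m := by
    intro g m
    have h1 : (homRepρ N (Rep.trivial ℤ G ℤ) g⁻¹ x₀.1) m = x₀.1 m :=
      congrArg (fun f : N.V →+ ℤ => f m) (hinv g⁻¹)
    have h2 := homRepρ_apply N (Rep.trivial ℤ G ℤ) g⁻¹ x₀.1 m
    rw [h2, inv_inv] at h1
    exact h1
  refine ⟨x, hx, ?_⟩
  apply (ModuleCat.mono_iff_injective (H0Iso (homRep N (Rep.trivial ℤ G ℤ))).hom).mp inferInstance
  have h2 := congrArg (fun f => f.hom tn0_one)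
    (map_id_comp_H0Iso_hom (mulHom N (Rep.trivial ℤ G ℤ) x hx))
  simp only [ModuleCat.hom_comp, LinearMap.comp_apply] at h2
  rw [h2]
  apply Subtype.ext
  ext m
  simp only [tn0_one]
  have e1 : (ModuleCat.Hom.hom (H0Iso (Rep.trivial ℤ G ℤ)).hom)
      ((ConcreteCategory.hom (H0Iso (Rep.trivial ℤ G ℤ)).inv)
        (⟨(1 : ℤ), fun g => rfl⟩ : (Rep.trivial ℤ G ℤ).ρ.invariants)) = ⟨(1 : ℤ), fun g => rfl⟩ := by
    simp
  rw [e1]
  show x m = x m • (1 : ℤ)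
  simp

/-! ### the main statement -/

theorem stmtTN0_of (hSM : StmtSM) (hCT : StmtCT) (hHomEx : StmtHomEx) : StmtTN0 := by
  intro p _ G _ _ hp C u hu N hN ζ
  obtain ⟨A, I, F, ι, π, j, e, w₁, w₂, hS₁, hS₂, hA1, hA2, hF⟩ := hSM G C u hu
  have hS₁' := hHomEx G N hN C A I ι π w₁ (tn0_homRepMap_comp_zero N ι π w₁) hS₁
  have hS₂' := hHomEx G N hN I F (Rep.trivial ℤ G ℤ) j e w₂
    (tn0_homRepMap_comp_zero N j e w₂) hS₂
  obtain ⟨hNA1, hNA2⟩ := hCT p G hp A hA1 hA2 N hN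
  have hNF := hF N hN
  -- the two connecting maps are surjective
  have hepi₁ : Epi (δ hS₁' 1 2 rfl) :=
    epi_δ_of_isZero hS₁' 1 (ModuleCat.isZero_of_subsingleton _)
  have hepi₀ : Epi (δ hS₂' 0 1 rfl) :=
    epi_δ_of_isZero hS₂' 0 (ModuleCat.isZero_of_subsingleton _)
  obtain ⟨η, hη⟩ := (ModuleCat.epi_iff_surjective _).mp hepi₁ ζ
  obtain ⟨ξ, hξ⟩ := (ModuleCat.epi_iff_surjective _).mp hepi₀ η
  obtain ⟨x, hx, hξx⟩ := tn0_H0_eq N ξ
  -- naturality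
  have nat₀ := δ_naturality hS₂ hS₂' (tn0_mulSC N j e w₂ x hx) 0 1 rfl
  have nat₁ := δ_naturality hS₁ hS₁' (tn0_mulSC N ι π w₁ x hx) 1 2 rfl
  have nat₀' := congrArg (fun f => f.hom tn0_one) nat₀
  simp only [ModuleCat.hom_comp, LinearMap.comp_apply] at nat₀'
  have nat₁' := congrArg (fun f => f.hom ((δ hS₂ 0 1 rfl).hom tn0_one)) nat₁
  simp only [ModuleCat.hom_comp, LinearMap.comp_apply] at nat₁'
  -- the class `u'`
  obtain ⟨k, hk⟩ := hu.h2_gen ((δ hS₁ 1 2 rfl).hom ((δ hS₂ 0 1 rfl).hom tn0_one))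
  have hkx : ∀ (g : G) (m : N.V), (k • x) (N.ρ g m) = (k • x) m := by
    intro g m
    rw [AddMonoidHom.smul_apply, AddMonoidHom.smul_apply, hx]
  refine ⟨k • x, hkx, ?_⟩
  show ζ = (groupCohomology.map (MonoidHom.id G) (mulHom N C (k • x) hkx) 2).hom u
  rw [tn0_mulHom_zsmul N C x hx k hkx, tn0_map_zsmul]
  have e1 : (ModuleCat.Hom.hom (k • groupCohomology.map (MonoidHom.id G) (mulHom N C x hx) 2)) u =
      (ModuleCat.Hom.hom (groupCohomology.map (MonoidHom.id G) (mulHom N C x hx) 2)) (k • u) := by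
    rw [map_zsmul]
    rfl
  rw [e1, hk]
  have e2 : (ModuleCat.Hom.hom (groupCohomology.map (MonoidHom.id G) (mulHom N C x hx) 2))
      ((ModuleCat.Hom.hom (δ hS₁ 1 2 rfl)) ((ModuleCat.Hom.hom (δ hS₂ 0 1 rfl)) tn0_one)) =
      (ModuleCat.Hom.hom (δ hS₁' 1 2 rfl))
        ((ModuleCat.Hom.hom (groupCohomology.map (MonoidHom.id G) (mulHom N I x hx) 1))
          ((ModuleCat.Hom.hom (δ hS₂ 0 1 rfl)) tn0_one)) := nat₁'
  have e3 : (ModuleCat.Hom.hom (groupCohomology.map (MonoidHom.id G) (mulHom N I x hx) 1))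
      ((ModuleCat.Hom.hom (δ hS₂ 0 1 rfl)) tn0_one) =
      (ModuleCat.Hom.hom (δ hS₂' 0 1 rfl))
        ((ModuleCat.Hom.hom (groupCohomology.map (MonoidHom.id G)
          (mulHom N (Rep.trivial ℤ G ℤ) x hx) 0)) tn0_one) := nat₀'
  rw [e2, e3, ← hξx]
  have e4 : (ModuleCat.Hom.hom (δ hS₂' 0 1 rfl)) ξ = η := hξ
  rw [e4]
  exact hη.symm

end Fermat.Agent.PT
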