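/-
PT-A, final wiring (helper9): **Tate–Nakayama duality in degree (0,2), `p`-part**, unconditional.

* `stmtTNp   : StmtTNp`   — the `p`-group case (fundamental class `IsFundClass`);
* `stmtTNadd : StmtTNadd` — finite `G` with a `p`-fundamental class, instance-free form;
* `stmtTN'   : StmtTN'`   — the same in the form of `Plan.lean` (`Module.Free`, `normHom`).

Pieces: KILL, Sylow, RED (helper11), NORM0, DS-Compat (helper60), D00, D00', TN0 (helper81),
HOMEX (helper91), FpCT (helper32), CT, DS-Coind, DS-Free (helper87), SM, InfRes₂ (helper86),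
DS-Abs (helper79), DS-WI, DS-HomPre, assembly TNp/TN (helper9).
-/
import Fermat.Agent.PT.A.TN
import Fermat.Agent.PT.A.TNp
import Fermat.Agent.PT.A.TN0
import Fermat.Agent.PT.A.CT
import Fermat.Agent.PT.A.FpCT
import Fermat.Agent.PT.A.SplitModule
import Fermat.Agent.PT.A.D00
import Fermat.Agent.PT.A.NormZero
import Fermat.Agent.PT.A.Kill
import Fermat.Agent.PT.A.HomEx
import Fermat.Agent.PT.A.Sylow
import Fermat.Agent.PT.A.Red
import Fermat.Agent.PT.A.DSFinal

set_option autoImplicit false

namespace Fermat.Agent.PT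

/-- **(CT)** cohomological triviality, unconditional. -/
theorem stmtCT : StmtCT := stmtCT_of stmtFpCT stmtKill stmtHomEx

/-- **(TN0)** unconditional. -/
theorem stmtTN0 : StmtTN0 := stmtTN0_of stmtSM stmtCT stmtHomEx

/-- **Tate–Nakayama (0,2) for a `p`-group** with a fundamental class. -/
theorem stmtTNp : StmtTNp :=
  stmtTNp_of_pieces stmtTN0 stmtDS stmtD00 stmtD00' stmtNormZero

/-- **Tate–Nakayama (0,2), `p`-part**, instance-free form. -/
theorem stmtTNadd : StmtTNadd :=
  stmtTNadd_of_pieces stmtTNp stmtRedR stmtRedL stmtSylow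

/-- **Tate–Nakayama (0,2), `p`-part** (the goal of PT-A). -/
theorem stmtTN' : StmtTN' := stmtTN'_of_TNadd stmtTNadd

end Fermat.Agent.PT
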