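/-
PT-A piece `StmtInfRes₂`: inflation–restriction in degree 2 (helper86).
If `H¹(N, A) = 0` for a normal subgroup `N ≤ G`, then
`0 → H²(G/N, A^N) → H²(G, A) → H²(N, A)` is exact.  Direct cocycle proof.
-/
import Fermat.Agent.PT.A.Plan

set_option autoImplicit false
set_option linter.style.haveILetI false
set_option linter.unusedSectionVars false

attribute [-instance] AddCommGroup.toIntModule

namespace Fermat.Agent.PT.InfRes2

open CategoryTheory groupCohomology Rep

variable {G : Type} [Group G] (N : Subgroup G) [N.Normal] (A : Rep.{0} ℤ G)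

/-- `H¹(N, A) = 0` in cocycle form. -/
def H1Triv : Prop :=
  ∀ c : N → A, (∀ n m : N, c (n * m) = A.ρ n (c m) + c n) → ∃ a : A, ∀ n : N, c n = A.ρ n a - a

theorem h1Triv_of_subsingleton (h : Subsingleton (H1 (Rep.res N.subtype A))) : H1Triv N A := by
  intro c hc
  have hc' : c ∈ cocycles₁ (Rep.res N.subtype A) := by
    rw [mem_cocycles₁_iff]
    intro n m
    exact hc n m
  have h0 : H1π (Rep.res N.subtype A) ⟨c, hc'⟩ = 0 := Subsingleton.elim _ _
  rw [H1π_eq_zero_iff] at h0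
  obtain ⟨a, ha⟩ := h0
  refine ⟨a, fun n => ?_⟩
  have := congrFun ha n
  have h2 : (A.ρ n) a - a = c n := by
    simp only [d₀₁_hom_apply] at this
    exact this
  exact h2.symm




section core

variable {N A}

theorem coc {F : G × G → A} (hF : F ∈ cocycles₂ A) (g h j : G) :
    F (g * h, j) + F (g, h) = A.ρ g (F (h, j)) + F (g, h * j) :=
  (mem_cocycles₂_iff F).1 hF g h j

theorem sub_d_mem {F : G × G → A} (hF : F ∈ cocycles₂ A) (x : G → A) :
    F - (d₁₂ A).hom x ∈ cocycles₂ A :=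
  Submodule.sub_mem _ hF (d₁₂_apply_mem_cocycles₂ x)

theorem sub_d_apply (F : G × G → A) (x : G → A) (g h : G) :
    (F - (d₁₂ A).hom x) (g, h) = F (g, h) - (A.ρ g (x h) - x (g * h) + x g) := by
  simp [d₁₂_hom_apply]

/-- Step 0: make the cocycle vanish on `N × N`. -/
theorem step0 {F : G × G → A} (y : N → A)
    (hy : ∀ n m : N, F ((n : G), (m : G)) = A.ρ n (y m) - y (n * m) + y n) :
    ∃ x : G → A, ∀ n ∈ N, ∀ m ∈ N, (F - (d₁₂ A).hom x) (n, m) = 0 := by
  classical
  refine ⟨fun g => if h : g ∈ N then y ⟨g, h⟩ else 0, fun n hn m hm => ?_⟩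
  rw [sub_d_apply]
  have hnm : n * m ∈ N := N.mul_mem hn hm
  simp only [hn, hm, hnm, dif_pos]
  have := hy ⟨n, hn⟩ ⟨m, hm⟩
  simp only [] at this
  rw [this]
  simp


/-- A coset representative of `g` modulo `N`. -/
noncomputable def rep (N : Subgroup G) (g : G) : G := ((g : G ⧸ N)).out

omit [N.Normal] in
theorem rep_spec (g : G) : ((rep N g : G) : G ⧸ N) = (g : G ⧸ N) := by
  unfold rep
  exact QuotientGroup.out_eq' _

theorem rep_mul_left {n : G} (hn : n ∈ N) (g : G) : rep N (n * g) = rep N g := by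
  unfold rep
  congr 1
  rw [QuotientGroup.mk_mul, (QuotientGroup.eq_one_iff n).2 hn, one_mul]

theorem mul_rep_inv_mem (g : G) : g * (rep N g)⁻¹ ∈ N := by
  rw [← QuotientGroup.eq_one_iff, QuotientGroup.mk_mul, QuotientGroup.mk_inv, rep_spec,
    mul_inv_cancel]

theorem rep_mem_of_mem {g : G} (hg : g ∈ N) : rep N g ∈ N := by
  rw [← QuotientGroup.eq_one_iff, rep_spec, QuotientGroup.eq_one_iff]
  exact hg

theorem rep_mem_iff {g : G} : rep N g ∈ N ↔ g ∈ N := by
  rw [← QuotientGroup.eq_one_iff, rep_spec, QuotientGroup.eq_one_iff]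

/-- Step 1: make the cocycle vanish on `N × G`. -/
theorem step1 {F : G × G → A} (hF : F ∈ cocycles₂ A)
    (h0 : ∀ n ∈ N, ∀ m ∈ N, F (n, m) = 0) :
    ∃ x : G → A, ∀ n ∈ N, ∀ g, (F - (d₁₂ A).hom x) (n, g) = 0 := by
  refine ⟨fun g => - F (g * (rep N g)⁻¹, rep N g), fun n hn g => ?_⟩
  rw [sub_d_apply]
  have e1 : rep N (n * g) = rep N g := rep_mul_left hn g
  have e2 : F (n * (rep N n)⁻¹, rep N n) = 0 :=
    h0 _ (mul_rep_inv_mem n) _ (rep_mem_of_mem hn)
  rw [e1, e2]
  have hm : g * (rep N g)⁻¹ ∈ N := mul_rep_inv_mem g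
  have key := coc hF n (g * (rep N g)⁻¹) (rep N g)
  rw [h0 n hn _ hm, inv_mul_cancel_right, ← mul_assoc] at key
  simp only [map_neg]
  linear_combination (norm := abel) -key


/-- Step 2: make the cocycle vanish on `N × G` and on `G × N`. -/
theorem step2 (h1 : H1Triv N A) {F : G × G → A} (hF : F ∈ cocycles₂ A)
    (h0 : ∀ n ∈ N, ∀ g, F (n, g) = 0) :
    ∃ x : G → A, (∀ n ∈ N, ∀ g, (F - (d₁₂ A).hom x) (n, g) = 0) ∧
      (∀ g, ∀ n ∈ N, (F - (d₁₂ A).hom x) (g, n) = 0) := by
  classical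
  have hstar : ∀ n ∈ N, ∀ g h, F (n * g, h) = A.ρ n (F (g, h)) := by
    intro n hn g h
    have := coc hF n g h
    rw [h0 n hn, h0 n hn] at this
    simpa using this
  have hc1 : ∀ g, ∀ n ∈ N, ∀ m, F (g, n * m) = F (g * n, m) + F (g, n) := by
    intro g n hn m
    have := coc hF g n m
    rw [h0 n hn, map_zero, zero_add] at this
    exact this.symm
  have hex : ∀ g : G, ∃ a : A, ∀ n ∈ N, F (g, g⁻¹ * n * g) = A.ρ n a - a := by
    intro g
    obtain ⟨a, ha⟩ := h1 (fun n : N => F (g, g⁻¹ * n * g)) (by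
      intro n m
      simp only [Subgroup.coe_mul]
      have e : g⁻¹ * (↑n * ↑m) * g = (g⁻¹ * n * g) * (g⁻¹ * m * g) := by group
      have hmem : g⁻¹ * (n : G) * g ∈ N := by
        have := Subgroup.Normal.conj_mem ‹N.Normal› (n : G) n.2 g⁻¹
        simpa using this
      rw [e, hc1 g _ hmem _]
      have e2 : g * (g⁻¹ * ↑n * g) = ↑n * g := by group
      rw [e2, hstar n n.2])
    exact ⟨a, fun n hn => ha ⟨n, hn⟩⟩
  choose a ha using hex
  set x : G → A := fun g => if g ∈ N then 0 else - A.ρ (g * (rep N g)⁻¹) (a (rep N g)) with hx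
  have P1 : ∀ n ∈ N, x n = 0 := fun n hn => by simp [hx, hn]
  have P2 : ∀ n ∈ N, ∀ g, x (n * g) = A.ρ n (x g) := by
    intro n hn g
    by_cases hg : g ∈ N
    · rw [P1 g hg, P1 _ (N.mul_mem hn hg), map_zero]
    · have hng : n * g ∉ N := fun h => hg ((Subgroup.mul_mem_cancel_left N hn).1 h)
      simp only [hx, hg, hng, if_false, rep_mul_left hn g, map_neg, map_mul,
        Module.End.mul_apply]
  have P3 : ∀ g, ∀ n ∈ N, F (g, n) + A.ρ (g * n * g⁻¹) (x g) - x g = 0 := by
    intro g n hn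
    by_cases hg : g ∈ N
    · rw [P1 g hg, h0 g hg, map_zero]; simp
    · have hm : g * (rep N g)⁻¹ ∈ N := mul_rep_inv_mem g
      have e1 : F (g, n) = A.ρ (g * (rep N g)⁻¹) (F (rep N g, n)) := by
        rw [← hstar _ hm, inv_mul_cancel_right]
      have hmem : rep N g * n * (rep N g)⁻¹ ∈ N := Subgroup.Normal.conj_mem ‹N.Normal› n hn _
      have e2 : F (rep N g, n) = A.ρ (rep N g * n * (rep N g)⁻¹) (a (rep N g)) - a (rep N g) := by
        rw [← ha (rep N g) _ hmem]
        congr 2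
        group
      have e3 : g * n * g⁻¹ * (g * (rep N g)⁻¹) =
          g * (rep N g)⁻¹ * (rep N g * n * (rep N g)⁻¹) := by group
      have e4 : A.ρ (g * n * g⁻¹) (A.ρ (g * (rep N g)⁻¹) (a (rep N g))) =
          A.ρ (g * (rep N g)⁻¹) (A.ρ (rep N g * n * (rep N g)⁻¹) (a (rep N g))) := by
        rw [← Module.End.mul_apply, ← map_mul, e3, map_mul, Module.End.mul_apply]
      simp only [hx, hg, if_false]
      rw [e1, e2, map_sub, map_neg, e4]
      abel
  refine ⟨x, fun n hn g => ?_, fun g n hn => ?_⟩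
  · rw [sub_d_apply, h0 n hn, P2 n hn, P1 n hn]
    simp
  · rw [sub_d_apply, P1 n hn, map_zero]
    have e : g * n = (g * n * g⁻¹) * g := by group
    have hmem : g * n * g⁻¹ ∈ N := Subgroup.Normal.conj_mem ‹N.Normal› n hn _
    have := P3 g n hn
    rw [e, P2 _ hmem]
    linear_combination (norm := abel) this


/-- Step 3: a cocycle vanishing on `N × G` and `G × N` is inflated from `G ⧸ N`. -/
theorem step3 {F : G × G → A} (hF : F ∈ cocycles₂ A) (hl : ∀ n ∈ N, ∀ g, F (n, g) = 0)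
    (hr : ∀ g, ∀ n ∈ N, F (g, n) = 0) :
    ∃ z : cocycles₂ (A.quotientToInvariants N), ∀ g h : G,
      ((z ((g : G ⧸ N), (h : G ⧸ N)) : A.quotientToInvariants N) : A) = F (g, h) := by
  have hstar : ∀ n ∈ N, ∀ g h, F (n * g, h) = A.ρ n (F (g, h)) := by
    intro n hn g h
    have := coc hF n g h
    rw [hl n hn, hl n hn] at this
    simpa using this
  have hr2 : ∀ g h, ∀ n ∈ N, F (g, h * n) = F (g, h) := by
    intro g h n hn
    have := coc hF g h n
    rw [hr _ n hn, hr _ n hn, map_zero] at this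
    simpa using this.symm
  have hl2 : ∀ g h, ∀ n ∈ N, F (g * n, h) = F (g, h) := by
    intro g h n hn
    have := coc hF g n h
    rw [hr _ n hn, hl n hn, map_zero] at this
    have e : n * h = h * (h⁻¹ * n * h) := by group
    have hmem : h⁻¹ * n * h ∈ N := by
      have := Subgroup.Normal.conj_mem ‹N.Normal› n hn h⁻¹
      simpa using this
    rw [e, hr2 _ _ _ hmem] at this
    simpa using this
  have hinv : ∀ g h, ∀ n ∈ N, A.ρ n (F (g, h)) = F (g, h) := by
    intro g h n hn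
    rw [← hstar n hn]
    have e : n * g = g * (g⁻¹ * n * g) := by group
    have hmem : g⁻¹ * n * g ∈ N := by
      have := Subgroup.Normal.conj_mem ‹N.Normal› n hn g⁻¹
      simpa using this
    rw [e, hl2 _ _ _ hmem]
  let zf : (G ⧸ N) × (G ⧸ N) → A.quotientToInvariants N :=
    fun p => ⟨F (p.1.out, p.2.out), fun n => hinv _ _ n n.2⟩
  have hz : ∀ g h : G, ((zf ((g : G ⧸ N), (h : G ⧸ N)) : A.quotientToInvariants N) : A) =
      F (g, h) := by
    intro g h
    obtain ⟨n₁, hn₁⟩ := QuotientGroup.mk_out_eq_mul N g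
    obtain ⟨n₂, hn₂⟩ := QuotientGroup.mk_out_eq_mul N h
    change F ((g : G ⧸ N).out, (h : G ⧸ N).out) = F (g, h)
    rw [hn₁, hn₂, hl2 _ _ _ n₁.2, hr2 _ _ _ n₂.2]
  refine ⟨⟨zf, ?_⟩, hz⟩
  rw [mem_cocycles₂_iff]
  intro a b c
  induction a using QuotientGroup.induction_on with | H g =>
  induction b using QuotientGroup.induction_on with | H h =>
  induction c using QuotientGroup.induction_on with | H j =>
  apply Subtype.ext
  rw [← QuotientGroup.mk_mul, ← QuotientGroup.mk_mul]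
  have hcoe : ∀ (g : G) (v : A.quotientToInvariants N),
      (((A.quotientToInvariants N).ρ (g : G ⧸ N) v : A.quotientToInvariants N) : A) =
        A.ρ g (v : A) := fun g v => rfl
  have := coc hF g h j
  rw [Submodule.coe_add, Submodule.coe_add, hcoe, hz, hz, hz, hz]
  exact this

end core

/-- inflation on 2-cocycles -/
noncomputable abbrev infCoc : ModuleCat.of ℤ (cocycles₂ (A.quotientToInvariants N)) ⟶
    ModuleCat.of ℤ (cocycles₂ A) :=
  mapCocycles₂ (A := A.quotientToInvariants N) (B := A) (QuotientGroup.mk' N)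
    (ofHom (A.ρ.quotientToInvariants_lift N))

theorem infCoc_apply (x : cocycles₂ (A.quotientToInvariants N)) (g h : G) :
    (infCoc N A x) (g, h) = ((x ((g : G ⧸ N), (h : G ⧸ N)) : A.quotientToInvariants N) : A) := by
  rfl

theorem inf_injective_aux (h1 : H1Triv N A) (x : cocycles₂ (A.quotientToInvariants N))
    (hx : H2π A (infCoc N A x) = 0) :
    H2π (A.quotientToInvariants N) x = 0 := by
  rw [H2π_eq_zero_iff] at hx ⊢
  obtain ⟨y, hy⟩ := hx
  -- `f = infCoc x = d y`
  have hf : ∀ g h : G, A.ρ g (y h) - y (g * h) + y g =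
      ((x ((g : G ⧸ N), (h : G ⧸ N)) : A.quotientToInvariants N) : A) := by
    intro g h
    have := congrFun hy (g, h)
    rw [d₁₂_hom_apply] at this
    exact this
  set c : A := ((x ((1 : G ⧸ N), (1 : G ⧸ N)) : A.quotientToInvariants N) : A) with hc
  have hcinv : ∀ n ∈ N, A.ρ n c = c := fun n hn =>
    (x ((1 : G ⧸ N), (1 : G ⧸ N))).2 ⟨n, hn⟩
  have hmk1 : ∀ n ∈ N, ((n : G) : G ⧸ N) = 1 := fun n hn => (QuotientGroup.eq_one_iff n).2 hn
  -- values of `x` on `(ḡ, 1)` and `(1, ḡ)`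
  have hx1 : ∀ g : G, ((x ((1 : G ⧸ N), (g : G ⧸ N)) : A.quotientToInvariants N) : A) = c := by
    intro g
    rw [cocycles₂_map_one_fst x (g : G ⧸ N)]
  have hx2 : ∀ g : G, ((x ((g : G ⧸ N), (1 : G ⧸ N)) : A.quotientToInvariants N) : A) =
      A.ρ g c := by
    intro g
    rw [cocycles₂_map_one_snd x (g : G ⧸ N)]
    rfl
  -- `y - c` is a 1-cocycle on `N`
  obtain ⟨a, ha⟩ := h1 (fun n : N => y n - c) (by
    intro n m
    have := hf n m
    rw [hmk1 n n.2, hmk1 m m.2] at this
    simp only [Subgroup.coe_mul, map_sub, hcinv n n.2]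
    linear_combination (norm := abel) -this)
  -- modify `y`
  set y₁ : G → A := fun g => y g - (A.ρ g a - a) with hy₁
  have hf₁ : ∀ g h : G, A.ρ g (y₁ h) - y₁ (g * h) + y₁ g =
      ((x ((g : G ⧸ N), (h : G ⧸ N)) : A.quotientToInvariants N) : A) := by
    intro g h
    rw [← hf g h]
    simp only [hy₁, map_sub, map_mul, Module.End.mul_apply]
    abel
  have hy₁N : ∀ n ∈ N, y₁ n = c := by
    intro n hn
    have := ha ⟨n, hn⟩
    simp only [] at this
    simp only [hy₁]
    linear_combination (norm := abel) this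
  have hr : ∀ g, ∀ n ∈ N, y₁ (g * n) = y₁ g := by
    intro g n hn
    have := hf₁ g n
    rw [hmk1 n hn, hx2, hy₁N n hn] at this
    linear_combination (norm := abel) -this
  have hinv : ∀ g, ∀ n ∈ N, A.ρ n (y₁ g) = y₁ g := by
    intro g n hn
    have := hf₁ n g
    rw [hmk1 n hn, hx1, hy₁N n hn] at this
    have e : n * g = g * (g⁻¹ * n * g) := by group
    have hmem : g⁻¹ * n * g ∈ N := by
      have := Subgroup.Normal.conj_mem ‹N.Normal› n hn g⁻¹
      simpa using this
    rw [e, hr _ _ hmem] at this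
    linear_combination (norm := abel) this
  let yb : (G ⧸ N) → A.quotientToInvariants N :=
    fun p => ⟨y₁ p.out, fun n => hinv _ n n.2⟩
  have hyb : ∀ g : G, ((yb (g : G ⧸ N) : A.quotientToInvariants N) : A) = y₁ g := by
    intro g
    obtain ⟨n₁, hn₁⟩ := QuotientGroup.mk_out_eq_mul N g
    change y₁ ((g : G ⧸ N).out) = y₁ g
    rw [hn₁, hr _ _ n₁.2]
  refine ⟨yb, ?_⟩
  funext ⟨p, q⟩
  induction p using QuotientGroup.induction_on with | H g =>
  induction q using QuotientGroup.induction_on with | H h =>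
  apply Subtype.ext
  rw [d₁₂_hom_apply]
  have hcoe : ∀ (g : G) (v : A.quotientToInvariants N),
      (((A.quotientToInvariants N).ρ (g : G ⧸ N) v : A.quotientToInvariants N) : A) =
        A.ρ g (v : A) := fun g v => rfl
  simp only []
  rw [← QuotientGroup.mk_mul, Submodule.coe_add, Submodule.coe_sub, hcoe, hyb, hyb, hyb]
  exact hf₁ g h

theorem inf_res_exact_aux (h1 : H1Triv N A) (x : cocycles₂ A)
    (y : N → A) (hy : ∀ n m : N, x ((n : G), (m : G)) = A.ρ n (y m) - y (n * m) + y n) :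
    ∃ z : cocycles₂ (A.quotientToInvariants N), H2π A (infCoc N A z) = H2π A x := by
  obtain ⟨x₀, h₀⟩ := step0 (F := ⇑x) y hy
  have hF₀ := sub_d_mem x.2 x₀
  obtain ⟨x₁, h₁⟩ := step1 hF₀ h₀
  have hF₁ := sub_d_mem hF₀ x₁
  obtain ⟨x₂, h₂l, h₂r⟩ := step2 h1 hF₁ h₁
  have hF₂ := sub_d_mem hF₁ x₂
  obtain ⟨z, hz⟩ := step3 hF₂ h₂l h₂r
  refine ⟨z, ?_⟩
  rw [H2π_eq_iff]
  refine ⟨-(x₀ + x₁ + x₂), ?_⟩
  funext ⟨g, h⟩
  rw [Pi.sub_apply, infCoc_apply, hz, map_neg, map_add, map_add]
  simp only [Pi.sub_apply, Pi.neg_apply, Pi.add_apply, cocycles₂.val_eq_coe]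
  abel

end Fermat.Agent.PT.InfRes2

namespace Fermat.Agent.PT

open CategoryTheory groupCohomology Rep InfRes2

theorem stmtInfRes₂ : StmtInfRes₂ := by
  intro G _ N _ A hH1
  have h1 := h1Triv_of_subsingleton N A hH1
  constructor
  · rw [injective_iff_map_eq_zero]
    intro x hx
    induction x using H2_induction_on with | @h x =>
    have key := H2π_comp_map_apply (QuotientGroup.mk' N)
      (ofHom (A.ρ.quotientToInvariants_lift N)) x
    exact inf_injective_aux N A h1 x (key.symm.trans hx)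
  · intro x hx
    induction x using H2_induction_on with | @h x =>
    have key := H2π_comp_map_apply N.subtype (𝟙 (Rep.res N.subtype A)) x
    have hx' : H2π (Rep.res N.subtype A) (mapCocycles₂ N.subtype (𝟙 (Rep.res N.subtype A)) x) = 0 :=
      key.symm.trans hx
    rw [H2π_eq_zero_iff] at hx'
    obtain ⟨y, hy⟩ := hx'
    obtain ⟨z, hz⟩ := inf_res_exact_aux N A h1 x y (fun n m => by
      have := congrFun hy (n, m)
      simp only [d₁₂_hom_apply] at this
      exact this.symm)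
    refine ⟨H2π _ z, ?_⟩
    have key2 := H2π_comp_map_apply (QuotientGroup.mk' N)
      (ofHom (A.ρ.quotientToInvariants_lift N)) z
    exact key2.trans hz

end Fermat.Agent.PT
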